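import Fermat.Agent.GD.Bases.DualityGlobal.Detect
import Fermat.Agent.GD.Bases.Euler.ClassesModP
import Fermat.Agent.GD.Local

/-!
# Locally trivial characters kill the ideles with units away from `S`
-/

set_option autoImplicit false
set_option linter.unusedSectionVars false
set_option linter.style.haveILetI false

noncomputable section

namespace Fermat.Agent.GD

open Fermat.Agent.Galois (GQ)

local notation "ℚb" => AlgebraicClosure ℚ

/-- The carry of addition modulo `m`. -/
def carryNat {m : ℕ} (a b : ZMod m) : ℕ := (a.val + b.val) / m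

theorem carryNat_spec {m : ℕ} [NeZero m] (a b : ZMod m) :
    m * carryNat a b + (a + b).val = a.val + b.val := by
  rw [carryNat, ZMod.val_add]
  exact Nat.div_add_mod _ _

theorem carryNat_assoc {m : ℕ} [NeZero m] (a b c : ZMod m) :
    carryNat b c + carryNat a (b + c) = carryNat (a + b) c + carryNat a b := by
  have h1 := carryNat_spec b c
  have h2 := carryNat_spec a (b + c)
  have h3 := carryNat_spec (a + b) c
  have h4 := carryNat_spec a b
  rw [← add_assoc a b c] at h2
  refine Nat.eq_of_mul_eq_mul_left (NeZero.pos m) ?_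
  rw [mul_add, mul_add]
  omega

variable {S : Finset Nat.Primes} {m : ℕ} [NeZero m]

/-- A character trivial on the decomposition groups over `S` times an idele with units away from
`S` gives a coboundary of ideles. -/
theorem isB2_carry_unitIdele {H : Subgroup GQ} (hH : (LT S).IsOpen H) {N : Subgroup GQ}
    (hN : (LT S).IsLevel N) (hle : N ≤ H) (χ : H → ZMod m) (hχ : ∀ a b, χ (a * b) = χ a + χ b)
    (hχN : ∀ s : H, (s : GQ) ∈ N → χ s = 0)
    (hloc : ∀ v ∈ placesOf S, ∀ g : GQ, ∀ h : H, g * (h : GQ) * g⁻¹ ∈ decomp v → χ h = 0)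
    {f : Additive (idele S)} (hf : f ∈ unitIdeles S H) :
    ((LT S).sub H).IsB2 (Additive (idele S)) fun y : H × H =>
      carryNat (χ y.1) (χ y.2) • f := by
  haveI : N.Normal := normal_of_level hN
  have hconst : ∀ a s : H, (s : GQ) ∈ N → χ (a * s) = χ a := fun a s hs => by
    rw [hχ, hχN s hs, add_zero]
  have hz : (fun y : H × H => carryNat (χ y.1) (χ y.2) • f) ∈
      ((LT S).sub H).Z2 (Additive (idele S)) := by
    refine ⟨⟨_, ⟨N, hN, rfl⟩, fun a a' s hs s' hs' => ?_⟩, fun a a' j => ?_⟩
    · exact congrArg₂ (fun u w => carryNat u w • f) (hconst a s hs) (hconst a' s' hs')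
    · have e : ∀ b c : H, lt S (b : GQ) • (carryNat (χ c) (χ j) • f) = carryNat (χ c) (χ j) • f :=
        fun b c => by rw [smul_comm, hf.1 _ b.2]
      refine Eq.trans (congrArg (· + carryNat (χ a) (χ (a' * j)) • f) (e a a')) ?_
      refine Eq.trans ?_ (congrArg₂ (fun u w => carryNat u (χ j) • f + w) (hχ a a').symm rfl)
      refine Eq.trans (congrArg (fun u => carryNat (χ a') (χ j) • f + carryNat (χ a) u • f)
        (hχ a' j)) ?_
      rw [← add_smul, carryNat_assoc, add_smul]
  refine idele_h2_loc_eq (T := S) H hH ⟨_, hz⟩ fun v g => ?_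
  have hχ1 : χ 1 = 0 := by simpa using hχ 1 1
  by_cases hv : v ∈ placesOf S
  · have h0 : ∀ d : locSub (decomp v) H g, χ (cjT H d) = 0 := fun d =>
      hloc v hv g _ (by
        rw [show ((cjT H d : H) : GQ) = g⁻¹ * ((d : decomp v) : GQ) * g from coe_cj d]
        simpa [mul_assoc] using (d : decomp v).2)
    refine ⟨0, ⟨_, (LD v).exists_level.choose_spec, fun d s _ => rfl⟩, fun d e => ?_⟩
    show evalAt v g (carryNat (χ (cjT H d)) (χ (cjT H e)) • f) = _
    rw [h0, h0]
    simp [carryNat]
  obtain ⟨q, rfl⟩ : ∃ q, v = some q := Option.ne_none_iff_exists'.mp fun h =>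
    hv (h ▸ mem_placesOf_none)
  have hq : q ∉ S := fun h => hv (mem_placesOf_some.mpr h)
  set D' := locSub (decomp (some q)) H g
  let ND : Subgroup (LD (some q)).G := N.subgroupOf (decomp (some q))
  have hI : ∀ s : (LD (some q)).G, s.1 ∈ (placeAt q).inertiaSubgroupIn ℚ → s ∈ ND := fun s hs => by
    obtain ⟨F, hF, hFN, -⟩ := hN
    exact Subgroup.mem_subgroupOf.mpr
      ((SetLike.ext_iff.mp hFN _).mpr (hF.2 q hq (placeAt q) (placeAt_liesOverPrime q) hs))
  have hND : ND ≤ D' := fun s hs => by
    show g⁻¹ * ((show decomp (some q) from s) : GQ) * g⁻¹⁻¹ ∈ H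
    exact hle ((inferInstance : N.Normal).conj_mem _ hs g⁻¹)
  have hlz := locAt_mem_Z2 (v := some q) (g := g) hz
  obtain ⟨b, -, hbN, hbd⟩ := units_h2 q D' ND (exists_level_decomp hN (some q)) hI hND
    (fun y => (locAt S H (some q) g (fun y : H × H => carryNat (χ y.1) (χ y.2) • f) y).toMul)
    (fun a a' j => congrArg Additive.toMul (hlz.2 a a' j))
    (fun a a' s t hs ht => by
      show (evalAt (some q) g (carryNat (χ (cjT H (a * s))) (χ (cjT H (a' * t))) • f)).toMul = _
      rw [show cjT H (a * s) = cjT H a * cjT H s from cj_mul _ _,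
        show cjT H (a' * t) = cjT H a' * cjT H t from cj_mul _ _,
        hconst _ _ (cjT_mem hN hs), hconst _ _ (cjT_mem hN ht)]
      rfl)
    (fun y => by
      show (evalAt (some q) g (_ • f)).toMul ∈ _
      rw [map_nsmul, toMul_nsmul]
      exact pow_mem (hf.2 q hq g) _)
    (fun y s hs => by
      show ((show decomp (some q) from s) : GQ) • (evalAt (some q) g (_ • f)).toMul =
        (evalAt (some q) g (_ • f)).toMul
      have h1 := evalAt_decomp (some q) (show decomp (some q) from s).2 g
        (carryNat (χ (cjT H y.1)) (χ (cjT H y.2)) • f)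
      rw [show ((show decomp (some q) from s) : GQ) * g =
        g * (g⁻¹ * ((show decomp (some q) from s) : GQ) * g⁻¹⁻¹) by group, ← evalAt_lt, smul_comm,
        hf.1 (g⁻¹ * ((show decomp (some q) from s) : GQ) * g⁻¹⁻¹) (hND hs)] at h1
      exact (congrArg Additive.toMul h1).symm)
  exact ⟨fun a => Additive.ofMul (b a), ⟨ND, exists_level_decomp hN (some q),
    fun a s hs => congrArg Additive.ofMul (hbN a s hs)⟩,
    fun d e => congrArg Additive.ofMul (hbd d e)⟩

end Fermat.Agent.GD
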