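import Fermat.Agent.GD.GW.Count
import Fermat.Agent.GD.GW.Levels
import Fermat.Agent.GD.GW.Mu

/-!
# The torsion of the idele classes at the level of `S`
-/

set_option autoImplicit false
set_option linter.unusedSectionVars false
set_option linter.style.haveILetI false

noncomputable section

namespace Fermat.Agent.GD

open Fermat.Agent.Galois (GQ)

local notation "ℚb" => AlgebraicClosure ℚ

variable {p : ℕ} [Fact p.Prime] {S : Finset Nat.Primes}

/-- The idele has trivial components away from `S`. -/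
def IsSupp (f : Additive (idele S)) : Prop := ∀ q ∉ S, ∀ g : GQ, evalAt (some q) g f = 0

theorem IsSupp.isUnitsOutside {f : Additive (idele S)} (hf : IsSupp f) : IsUnitsOutside f :=
  fun q hq g => by
    rw [show f.toMul.1 (some q) g = 1 from congrArg Additive.toMul (hf q hq g)]
    exact one_mem _

theorem mem_unitGroup_of_nsmul_mem (A : ValuationSubring ℚb) {z : ℚbˣ} (hz : z ^ p ∈ A.unitGroup) :
    z ∈ A.unitGroup := by
  rw [ValuationSubring.mem_unitGroup_iff] at hz ⊢
  rw [Units.val_pow_eq_pow_val, map_pow] at hz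
  exact (pow_eq_one_iff.mp hz).resolve_right (Fact.out : p.Prime).ne_zero

/-- A root of an element whose orders away from `S` are divisible by `p` is fixed by a level. -/
theorem exists_level_root_of_ord (hS : (⟨p, Fact.out⟩ : Nat.Primes) ∈ S) {N : Subgroup (LT S).G}
    (hN : (LT S).IsLevel N) {x : ℚbˣ} (hx : ∀ s : GQ, s ∈ N → s • x = x)
    (hc : ∀ q ∉ S, ∀ g : GQ, ∃ c : ℚbˣ, (∀ σ ∈ (placeAt q).inertiaSubgroupIn ℚ, σ • c = c) ∧
      g • x / c ^ p ∈ (placeAt q).unitGroup) {y : ℚbˣ} (hy : y ^ p = x) :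
    ∃ N', (LT S).IsLevel N' ∧ ∀ s : GQ, s ∈ N' → s • y = y := by
  obtain ⟨F, hF, hFN, hn⟩ := hN
  let R : Set ℚb := Set.range fun g : GQ => g (y : ℚb)
  have hR : R ⊆ (minpoly ℚ (y : ℚb)).rootSet ℚb := by
    rintro _ ⟨g, rfl⟩
    rw [Polynomial.mem_rootSet]
    exact ⟨minpoly.ne_zero (Algebra.IsIntegral.isIntegral _), by
      rw [Polynomial.aeval_algEquiv, AlgHom.comp_apply, minpoly.aeval, map_zero]⟩
  haveI : Finite R := ((Polynomial.rootSet_finite _ _).subset hR).to_subtype
  haveI : FiniteDimensional ℚ (IntermediateField.adjoin ℚ R) :=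
    IntermediateField.finiteDimensional_adjoin (fun z _ => Algebra.IsIntegral.isIntegral z)
  refine ⟨(IntermediateField.adjoin ℚ R).fixingSubgroup, ⟨_, ⟨inferInstance, ?_⟩, rfl, ?_⟩, ?_⟩
  · intro q hq A hA σ hσ
    refine mem_fixingSubgroup_adjoin fun z hz => ?_
    obtain ⟨g, rfl⟩ := hz
    obtain ⟨τ, rfl⟩ := Galois.exists_smul_eq_of_liesOverPrime q.2 (placeAt_liesOverPrime q) hA
    set σ' : GQ := τ⁻¹ * σ * τ with hσ'def
    have hσ' : σ' ∈ (placeAt q).inertiaSubgroupIn ℚ := mem_inertia_conj hσ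
    obtain ⟨c, hcfix, hcu⟩ := hc q hq (τ⁻¹ * g)
    set z : ℚbˣ := (τ⁻¹ * g) • y / c with hz
    have hzp : z ^ p = (τ⁻¹ * g) • x / c ^ p := by rw [hz, div_pow, ← smul_pow', hy]
    have hσN : σ' ∈ N := hFN ▸ hF.2 q hq _ (placeAt_liesOverPrime q) hσ'
    have h4 : σ' • ((τ⁻¹ * g) • x) = (τ⁻¹ * g) • x := by
      have h3 : ((τ⁻¹ * g)⁻¹ * σ' * (τ⁻¹ * g) : GQ) ∈ N := by
        simpa using! hn.conj_mem σ' hσN (τ⁻¹ * g)⁻¹
      calc σ' • ((τ⁻¹ * g) • x) = (τ⁻¹ * g) • (((τ⁻¹ * g)⁻¹ * σ' * (τ⁻¹ * g) : GQ) • x) := by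
            rw [← mul_smul, ← mul_smul]; congr 1; group
        _ = _ := congrArg ((τ⁻¹ * g) • ·) (hx _ h3)
    have hu : ∀ w : ℚbˣ, w ∈ (placeAt q).unitGroup → (w : ℚb) ∈ placeAt q := fun w hw => by
      rw [← ValuationSubring.valuation_le_one_iff]
      exact le_of_eq hw
    have hzfix : σ' • z = z := by
      refine Units.ext (inertia_fixes_root hS hq (placeAt_liesOverPrime q) hσ' z.ne_zero ?_ ?_ ?_)
      · rw [← Units.val_pow_eq_pow_val, hzp]; exact hu _ hcu
      · rw [← Units.val_pow_eq_pow_val, hzp, ← Units.val_inv_eq_inv_val]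
        exact hu _ (inv_mem hcu)
      · rw [← Units.val_pow_eq_pow_val, hzp]
        exact congrArg Units.val (show σ' • ((τ⁻¹ * g) • x / c ^ p) = _ by
          rw [smul_div', h4, smul_pow', hcfix σ' hσ'])
    have h5 : σ' • ((τ⁻¹ * g) • y) = (τ⁻¹ * g) • y := by
      rw [show (τ⁻¹ * g) • y = z * c by rw [hz, div_mul_cancel], smul_mul', hzfix, hcfix σ' hσ']
    have h6 := congrArg (τ • ·) h5
    simp only [← mul_smul, hσ'def] at h6
    rw [show τ * (τ⁻¹ * σ * τ * (τ⁻¹ * g)) = σ * g by group,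
      show τ * (τ⁻¹ * g) = g by group] at h6
    exact congrArg Units.val h6
  · constructor
    intro s hs g
    refine mem_fixingSubgroup_adjoin fun z hz => ?_
    obtain ⟨h, rfl⟩ := hz
    have hfix : s ((g⁻¹ * h : GQ) (y : ℚb)) = (g⁻¹ * h : GQ) (y : ℚb) :=
      (IntermediateField.mem_fixingSubgroup_iff _ _).mp hs _
        (IntermediateField.subset_adjoin ℚ R ⟨_, rfl⟩)
    show g (s (g⁻¹ (h (y : ℚb)))) = h (y : ℚb)
    rw [show g⁻¹ (h (y : ℚb)) = (g⁻¹ * h : GQ) (y : ℚb) from rfl, hfix,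
      AlgEquiv.mul_apply]
    exact g.apply_symm_apply _
  · intro s hs
    refine Units.ext ?_
    exact (IntermediateField.mem_fixingSubgroup_iff _ _).mp hs _
      (IntermediateField.subset_adjoin ℚ R ⟨1, rfl⟩)

/-- A component at an unramified prime is fixed by inertia. -/
theorem inertia_fixes_component (f : idele S) {q : Nat.Primes} (hq : q ∉ S) (g : GQ) {σ : GQ}
    (hσ : σ ∈ (placeAt q).inertiaSubgroupIn ℚ) : σ • f.1 (some q) g = f.1 (some q) g := by
  obtain ⟨N, hN, hfN⟩ := f.2.2.1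
  have hd : σ ∈ decomp (some q) := by
    obtain ⟨s, -, rfl⟩ := hσ
    exact s.2
  have hσN : σ ∈ N := inertia_le_of_level hN hq (placeAt_liesOverPrime q) hσ
  rw [← f.2.1 (some q) σ hd g, show σ * g = g * (g⁻¹ * σ * g) by group,
    hfN (some q) g _ (by simpa using! ((LT S).normal N hN).conj_mem σ hσN g⁻¹)]

/-- A torsion class comes from a torsion idele supported at `S`. -/
theorem exists_supp_lift (hS : (⟨p, Fact.out⟩ : Nat.Primes) ∈ S) {c : ClassT S}
    (hc : p • c = 0) :
    ∃ w : Additive (idele S), p • w = 0 ∧ IsSupp w ∧ classHom S w = c := by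
  classical
  obtain ⟨f, hf⟩ := mkClass_surjective S c.toMul
  have hker : f ^ p ∈ classKer S := by
    refine (QuotientGroup.eq_one_iff (f ^ p)).mp ?_
    show mkClass S (f ^ p) = 1
    rw [map_pow, hf]
    exact congrArg Additive.toMul hc
  rw [classKer, Subgroup.mem_subgroupOf, Subgroup.mem_sup] at hker
  obtain ⟨_, ⟨x, ⟨N, hN, hx⟩, rfl⟩, u, hu, hxu⟩ := hker
  have e : ∀ v g, f.1 v g ^ p = g • x * u v g := fun v g => (congrFun (congrFun hxu v) g).symm
  obtain ⟨z, hz⟩ := IsAlgClosed.exists_pow_nat_eq ((x : ℚbˣ) : ℚb) (Fact.out : p.Prime).pos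
  set y : ℚbˣ := Units.mk0 z fun h => x.ne_zero (by
    rw [← hz, h, zero_pow (Fact.out : p.Prime).ne_zero]) with hydef
  have hy : y ^ p = x := Units.ext hz
  obtain ⟨N', hN', hyN⟩ := exists_level_root_of_ord hS hN hx (fun q hq g =>
    ⟨f.1 (some q) g, fun σ hσ => inertia_fixes_component f hq g hσ, by
      rw [e, ← div_div, div_self', one_div]
      exact inv_mem (hu.2.2 q g)⟩) hy
  obtain ⟨Nf, hNf, hfN⟩ := f.2.2.1
  let W : IdeleFn := fun v g => if v ∈ placesOf S then f.1 v g / g • y else 1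
  have hW : W ∈ idele S := by
    refine ⟨fun v d hd g => ?_, ⟨Nf ⊓ N', (LT S).inf _ _ hNf hN', fun v g s hs => ?_⟩,
      S.finite_toSet.subset fun q ⟨g, hg⟩ => ?_⟩
    · by_cases hv : v ∈ placesOf S
      · simp only [W, if_pos hv, f.2.1 v d hd g, mul_smul, smul_div']
      · simp only [W, if_neg hv, smul_one]
    · by_cases hv : v ∈ placesOf S
      · simp only [W, if_pos hv, hfN v g s hs.1, mul_smul, hyN s hs.2]
      · simp only [W, if_neg hv]
    · by_contra hq
      simp only [W, if_neg fun h => hq (mem_placesOf_some.mp h)] at hg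
      exact hg (one_mem _)
  refine ⟨Additive.ofMul ⟨W, hW⟩, ?_, fun q hq g => ?_, ?_⟩
  · refine Additive.toMul.injective (Subtype.ext (funext fun v => funext fun g => ?_))
    show W v g ^ p = 1
    by_cases hv : v ∈ placesOf S
    · have h1 : u v g = 1 := by
        rcases v with _ | q
        · exact hu.1 g
        · exact hu.2.1 q (mem_placesOf_some.mp hv) g
      simp only [W, if_pos hv]
      rw [div_pow, e, h1, mul_one, ← smul_pow', hy, div_self']
    · simp only [W, if_neg hv, one_pow]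
  · exact congrArg Additive.ofMul (if_neg fun h => hq (mem_placesOf_some.mp h))
  · refine Additive.toMul.injective (Eq.trans ?_ hf)
    refine QuotientGroup.eq.mpr ?_
    rw [classKer, Subgroup.mem_subgroupOf, Subgroup.mem_sup]
    refine ⟨diag y, ⟨y, ⟨N', hN', fun s hs => hyN s hs⟩, rfl⟩,
      fun v g => if v ∈ placesOf S then 1 else f.1 v g / g • y,
      ⟨fun g => if_pos mem_placesOf_none, fun q hq g => if_pos (mem_placesOf_some.mpr hq),
        fun q g => ?_⟩, ?_⟩
    · by_cases hq : (some q : Place) ∈ placesOf S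
      · simp only [if_pos hq, one_mem]
      · simp only [if_neg hq]
        refine mem_unitGroup_of_nsmul_mem (p := p) _ ?_
        rw [div_pow, e, ← smul_pow', hy, mul_div_cancel_left]
        exact hu.2.2 q g
    · funext v g
      show g • y * (if v ∈ placesOf S then 1 else f.1 v g / g • y) = (W v g)⁻¹ * f.1 v g
      by_cases hv : v ∈ placesOf S
      · simp only [W, if_pos hv]
        rw [mul_one, inv_div, div_mul_cancel]
      · simp only [W, if_neg hv]
        rw [inv_one, one_mul, mul_div_cancel]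

/-- A torsion supported idele with trivial class is a principal root of unity. -/
theorem torsion_class_zero {w : Additive (idele S)} (hp : p • w = 0) (hw : classHom S w = 0) :
    p • evalAt none 1 w = 0 ∧ ∀ v ∈ placesOf S, ∀ g : GQ, evalAt v g w = g • evalAt none 1 w :=
  ⟨by rw [← map_nsmul, hp, map_zero], (components_of_class_zero hw).1⟩

/-- A supported idele equal to a root of unity on `S` has trivial class. -/
theorem classHom_eq_zero_of_torsion {w : Additive (idele S)} (hw : IsSupp w)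
    {x : Additive ℚbˣ} (hx : p • x = 0) {N : Subgroup (LT S).G} (hN : (LT S).IsLevel N)
    (hμ : FixesMu p N) (hT : ∀ v ∈ placesOf S, ∀ g : GQ, evalAt v g w = g • x) :
    classHom S w = 0 :=
  classHom_eq_zero_of x hN (fun s hs => Additive.toMul.injective (Units.ext
    (hμ s hs _ (by simpa using! congrArg (fun a : Additive ℚbˣ => ((a.toMul : ℚbˣ) : ℚb)) hx))))
    hT hw.isUnitsOutside (isTUnit_of_pow (p := p) (by
      rw [hx]; intro q hq g; rw [toMul_zero, smul_one]; exact one_mem _))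

end Fermat.Agent.GD
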