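import Fermat.Agent.GD.Sha.Defs
import Fermat.Agent.GD.Sha.Kummer
import Fermat.Agent.GD.Bases.Euler.SplitExt

/-!
# Homomorphisms into the classes and locally trivial dual classes
-/

set_option autoImplicit false
set_option linter.unusedSectionVars false
set_option linter.style.haveILetI false

noncomputable section

namespace Fermat.Agent.GD

open Fermat.Agent.Galois (GQ)

local notation "ℚb" => AlgebraicClosure ℚ

variable {p : ℕ} [Fact p.Prime] {S : Finset Nat.Primes}
variable {M : Type} [AddCommGroup M] [DistribMulAction GQ M]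

attribute [local instance] actLT actLD

/-- An idele supported at `S` from its components. -/
def mkSupp (F : Place → GQ → Additive ℚbˣ)
    (hD : ∀ v, ∀ d ∈ decomp v, ∀ x, F v (d * x) = d • F v x)
    (hN : ∃ N, (LT S).IsLevel N ∧ ∀ v x, ∀ s : GQ, s ∈ N → F v (x * s) = F v x)
    (hs : ∀ v ∉ placesOf S, ∀ x, F v x = 0) : Additive (idele S) :=
  Additive.ofMul ⟨fun v x => (F v x).toMul, fun v d hd x => by
      show (F v (d * x)).toMul = _
      rw [hD v d hd]; rfl, by
      obtain ⟨N, hN', h⟩ := hN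
      exact ⟨N, hN', fun v x s hsN => congrArg Additive.toMul (h v x s hsN)⟩,
    S.finite_toSet.subset fun q ⟨x, hx⟩ => by
      by_contra hq
      change (F (some q) x).toMul ∉ _ at hx
      rw [hs _ fun h => hq (mem_placesOf_some.mp h)] at hx
      exact hx (one_mem _)⟩

theorem evalAt_mkSupp {F : Place → GQ → Additive ℚbˣ}
    {hD : ∀ v, ∀ d ∈ decomp v, ∀ x, F v (d * x) = d • F v x}
    {hN : ∃ N, (LT S).IsLevel N ∧ ∀ v x, ∀ s : GQ, s ∈ N → F v (x * s) = F v x}
    {hs : ∀ v ∉ placesOf S, ∀ x, F v x = 0} (v : Place) (x : GQ) :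
    evalAt v x (mkSupp F hD hN hs) = F v x := rfl

theorem isSupp_mkSupp {F : Place → GQ → Additive ℚbˣ}
    {hD : ∀ v, ∀ d ∈ decomp v, ∀ x, F v (d * x) = d • F v x}
    {hN : ∃ N, (LT S).IsLevel N ∧ ∀ v x, ∀ s : GQ, s ∈ N → F v (x * s) = F v x}
    {hs : ∀ v ∉ placesOf S, ∀ x, F v x = 0} : IsSupp (mkSupp F hD hN hs) :=
  fun q hq g => hs _ (fun h => hq (mem_placesOf_some.mp h)) g

theorem IsSupp.add {f f' : Additive (idele S)} (h : IsSupp f) (h' : IsSupp f') : IsSupp (f + f') :=
  fun q hq g => by rw [map_add, h q hq g, h' q hq g, add_zero]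

theorem IsSupp.neg {f : Additive (idele S)} (h : IsSupp f) : IsSupp (-f) :=
  fun q hq g => by rw [map_neg, h q hq g, neg_zero]

theorem IsSupp.sub {f f' : Additive (idele S)} (h : IsSupp f) (h' : IsSupp f') : IsSupp (f - f') := by
  rw [sub_eq_add_neg]; exact h.add h'.neg

theorem IsSupp.smul {f : Additive (idele S)} (h : IsSupp f) (g : GQ) : IsSupp (lt S g • f) :=
  fun q hq x => by rw [evalAt_lt, h q hq]

theorem isSupp_zero : IsSupp (0 : Additive (idele S)) := fun _ _ _ => map_zero _

theorem isSupp_sum {ι : Type*} (s : Finset ι) (f : ι → Additive (idele S))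
    (h : ∀ i ∈ s, IsSupp (f i)) : IsSupp (∑ i ∈ s, f i) := fun q hq g => by
  rw [map_sum]
  exact Finset.sum_eq_zero fun i hi => h i hi q hq g

/-- A lift of a homomorphism into the classes, with values supported at `S`. -/
structure IsLift (f : M →+ Additive (idele S)) (ψ : M →+ ClassT S) : Prop where
  supp : ∀ m, IsSupp (f m)
  cls : ∀ m, classHom S (f m) = ψ m

theorem IsLift.add {f f' : M →+ Additive (idele S)} {ψ ψ' : M →+ ClassT S} (h : IsLift f ψ)
    (h' : IsLift f' ψ') : IsLift (f + f') (ψ + ψ') :=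
  ⟨fun m => (h.supp m).add (h'.supp m), fun m => by
    rw [AddMonoidHom.add_apply, map_add, h.cls, h'.cls]; rfl⟩

theorem IsLift.neg {f : M →+ Additive (idele S)} {ψ : M →+ ClassT S} (h : IsLift f ψ) :
    IsLift (-f) (-ψ) :=
  ⟨fun m => (h.supp m).neg, fun m => by rw [AddMonoidHom.neg_apply, map_neg, h.cls]; rfl⟩

theorem isLift_zero : IsLift (0 : M →+ Additive (idele S)) 0 :=
  ⟨fun _ => isSupp_zero, fun _ => map_zero _⟩

/-- Every homomorphism on a finite module killed by `p` lifts. -/
theorem exists_shaLift [Finite M] (hS : (⟨p, Fact.out⟩ : Nat.Primes) ∈ S) (hp : ∀ m : M, p • m = 0)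
    (ψ : M →+ ClassT S) : ∃ f, IsLift f ψ := by
  classical
  letI := AddCommGroup.zmodModule (n := p) hp
  haveI : Module.Finite (ZMod p) M := Module.Finite.of_finite
  let b := Module.finBasis (ZMod p) M
  have hw : ∀ i, ∃ w : Additive (idele S), p • w = 0 ∧ IsSupp w ∧ classHom S w = ψ (b i) :=
    fun i => exists_supp_lift hS (by rw [← map_nsmul, hp, map_zero])
  choose w hwp hws hwc using hw
  let mult : ∀ i, ZMod p →+ Additive (idele S) := fun i => ZMod.lift p
    ⟨zmultiplesHom _ (w i), by rw [zmultiplesHom_apply, natCast_zsmul, hwp]⟩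
  have hmult : ∀ i (a : ZMod p), mult i a = a.val • w i := fun i a => by
    conv_lhs => rw [← ZMod.natCast_zmod_val a]
    show ZMod.lift p _ (((a.val : ℕ) : ZMod p)) = _
    rw [show ((a.val : ℕ) : ZMod p) = (((a.val : ℕ) : ℤ) : ZMod p) from (Int.cast_natCast _).symm,
      ZMod.lift_coe]
    exact natCast_zsmul _ _
  let f : M →+ Additive (idele S) := ∑ i, (mult i).comp (b.coord i).toAddMonoidHom
  have hf : ∀ m, f m = ∑ i, (b.repr m i).val • w i := fun m => by
    rw [AddMonoidHom.finsetSum_apply]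
    exact Finset.sum_congr rfl fun i _ => hmult i _
  refine ⟨f, ⟨fun m q hq g => ?_, fun m => ?_⟩⟩
  · rw [hf, map_sum]
    exact Finset.sum_eq_zero fun i _ => by rw [map_nsmul, hws i q hq g, smul_zero]
  · rw [hf, map_sum]
    conv_rhs => rw [← b.sum_repr m, map_sum]
    refine Finset.sum_congr rfl fun i _ => ?_
    rw [map_nsmul, hwc, ← map_nsmul, ← Nat.cast_smul_eq_nsmul (ZMod p), ZMod.natCast_zmod_val]

/-- The translate of a homomorphism. -/
def moveHom (g : GQ) (f : M →+ Additive (idele S)) : M →+ Additive (idele S) :=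
  (DistribSMul.toAddMonoidHom _ (lt S g)).comp (f.comp (DistribSMul.toAddMonoidHom M g⁻¹))

theorem moveHom_apply (g : GQ) (f : M →+ Additive (idele S)) (m : M) :
    moveHom g f m = lt S g • f (g⁻¹ • m) := rfl

/-- The failure of equivariance of a lift. -/
def err (f : M →+ Additive (idele S)) (g : GQ) : DualMod M :=
  ((evalAt none 1).comp (moveHom g f - f) :)

theorem err_apply (f : M →+ Additive (idele S)) (g : GQ) (m : M) :
    (err f g).app M m = evalAt none g (f (g⁻¹ • m)) - evalAt none 1 (f m) := by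
  show evalAt none 1 (lt S g • f (g⁻¹ • m) - f m) = _
  rw [map_sub, evalAt_lt, one_mul]

theorem err_add (f f' : M →+ Additive (idele S)) (g : GQ) : err (f + f') g = err f g + err f' g :=
  AddMonoidHom.ext fun m => by
    show evalAt none 1 (lt S g • (f (g⁻¹ • m) + f' (g⁻¹ • m)) - (f m + f' m)) =
      evalAt none 1 (lt S g • f (g⁻¹ • m) - f m) + evalAt none 1 (lt S g • f' (g⁻¹ • m) - f' m)
    rw [← map_add, smul_add]
    congr 1
    abel

variable (hS : (⟨p, Fact.out⟩ : Nat.Primes) ∈ S) (hp : ∀ m : M, p • m = 0)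

include hp in
/-- Where the homomorphism is invariant, the failure of equivariance is a global root of unity. -/
theorem comp_err {f : M →+ Additive (idele S)} {ψ : M →+ ClassT S} (hl : IsLift f ψ) {g : GQ}
    (hg : ∀ m, lt S g • ψ (g⁻¹ • m) = ψ m) {v : Place} (hv : v ∈ placesOf S) (x : GQ) (m : M) :
    evalAt v (x * g) (f (g⁻¹ • m)) - evalAt v x (f m) = x • (err f g).app M m := by
  have hpw : p • (moveHom g f m - f m) = 0 := by
    rw [← AddMonoidHom.sub_apply, ← map_nsmul, hp, map_zero]
  have hcls : classHom S (moveHom g f m - f m) = 0 := by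
    rw [map_sub, moveHom_apply, classHom_smul, hl.cls, hl.cls, hg, sub_self]
  have h := (torsion_class_zero hpw hcls).2 v hv x
  rw [map_sub, moveHom_apply, evalAt_lt] at h
  exact h

include hp in
theorem err_mul {f : M →+ Additive (idele S)} {ψ : M →+ ClassT S} (hl : IsLift f ψ) (g : GQ)
    {h : GQ} (hh : ∀ m, lt S h • ψ (h⁻¹ • m) = ψ m) :
    err f (g * h) = err f g + dualSmul M g (err f h) :=
  AddMonoidHom.ext fun m => by
    show (err f (g * h)).app M m = (err f g).app M m + g • (err f h).app M (g⁻¹ • m)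
    rw [← comp_err hp hl hh mem_placesOf_none g (g⁻¹ • m), err_apply, err_apply, mul_inv_rev,
      mul_smul]
    abel

/-- The failure of equivariance factors through a level. -/
theorem err_const [Finite M] {N : Subgroup (LT S).G} (hN : (LT S).IsLevel N)
    (hMN : ∀ s : GQ, s ∈ N → ∀ m : M, s • m = m) (f : M →+ Additive (idele S)) :
    (LT S).Const₁ (err f : GQ → DualMod M) := by
  obtain ⟨N', hN', hfix⟩ := exists_level_fix (smooth_idele S) (Set.finite_range f)
  refine ⟨N ⊓ N', (LT S).inf _ _ hN hN', fun (g : GQ) (s : GQ) hs => AddMonoidHom.ext fun m => ?_⟩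
  show (err f (g * s)).app M m = (err f g).app M m
  rw [err_apply, err_apply, mul_inv_rev, mul_smul, hMN s⁻¹ (inv_mem hs.1)]
  congr 1
  rw [← evalAt_lt, hfix _ ⟨_, rfl⟩ (lt S s) hs.2]

include hp in
/-- The failure of equivariance is trivial on decomposition groups, where the homomorphism is
invariant. -/
theorem err_decomp {f : M →+ Additive (idele S)} {ψ : M →+ ClassT S} (hl : IsLift f ψ) {v : Place}
    (hv : v ∈ placesOf S) {d : GQ} (hd : d ∈ decomp v)
    (hdψ : ∀ m, lt S d • ψ (d⁻¹ • m) = ψ m) :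
    err f d = dualSmul M d (show DualMod M from (evalAt v 1).comp f) -
      (show DualMod M from (evalAt v 1).comp f) :=
  AddMonoidHom.ext fun m => by
    show (err f d).app M m = d • evalAt v 1 (f (d⁻¹ • m)) - evalAt v 1 (f m)
    rw [← evalAt_decomp v hd 1, mul_one]
    have h := comp_err hp hl hdψ hv 1 m
    rw [one_mul, one_smul] at h
    exact h.symm

theorem lt_smul_inv {φ : (LT S).HomC M (ClassT S)} (g : GQ) (m : M) :
    lt S g • φ.1 (g⁻¹ • m) = φ.1 m := by
  rw [← φ.2 (lt S g), show lt S g • g⁻¹ • m = m from smul_inv_smul g m]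

/-- The homomorphisms lifting to equivariant supported ideles. -/
def shaLocHom (S : Finset Nat.Primes) (M : Type) [AddCommGroup M] [DistribMulAction GQ M] :
    AddSubgroup ((LT S).HomC M (ClassT S)) where
  carrier := {φ | ∃ f, IsLift f φ.1 ∧ ∀ (g : GQ) m, f (g • m) = lt S g • f m}
  zero_mem' := ⟨0, isLift_zero, fun g m => (smul_zero _).symm⟩
  add_mem' := fun {a b} ⟨f, hf, he⟩ ⟨f', hf', he'⟩ => ⟨f + f', hf.add hf', fun g m => by
    simp only [AddMonoidHom.add_apply, he, he', smul_add]⟩
  neg_mem' := fun {a} ⟨f, hf, he⟩ => ⟨-f, hf.neg, fun g m => by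
    simp only [AddMonoidHom.neg_apply, he, smul_neg]⟩

variable {N : Subgroup (LT S).G} (hN : (LT S).IsLevel N) (hμ : FixesMu p N)
  (hMN : ∀ s : GQ, s ∈ N → ∀ m : M, s • m = m)

include hμ in
theorem mu_fixed {a : Additive ℚbˣ} (ha : p • a = 0) {s : GQ} (hs : s ∈ N) : s • a = a :=
  Additive.toMul.injective (Units.ext
    (hμ s hs _ (by simpa using! congrArg (fun b : Additive ℚbˣ => ((b.toMul : ℚbˣ) : ℚb)) ha)))

include hN hμ hMN hp in
/-- Supported ideles attached to a family of twisted characters. -/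
theorem exists_lift_of_family (Y : Place → GQ → DualMod M)
    (hYd : ∀ v ∈ placesOf S, ∀ d ∈ decomp v, ∀ x, Y v (d * x) = dualSmul M d (Y v x))
    (hYN : ∀ v, ∃ N', (LT S).IsLevel N' ∧ ∀ x, ∀ s : GQ, s ∈ N' → Y v (x * s) = Y v x) :
    ∃ f : M →+ Additive (idele S), (∀ m, IsSupp (f m)) ∧
      ∀ v ∈ placesOf S, ∀ x m, evalAt v x (f m) = (Y v x).app M (x • m) := by
  classical
  choose N' hN' hYN' using hYN
  have hlev : ∀ T : Finset Place, ∃ N'', (LT S).IsLevel N'' ∧ N'' ≤ N ∧ ∀ v ∈ T, N'' ≤ N' v := by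
    intro T
    induction T using Finset.induction_on with
    | empty => exact ⟨N, hN, le_rfl, by simp⟩
    | insert a T _ ih =>
      obtain ⟨N₁, hN₁, h1, h2⟩ := ih
      exact ⟨N₁ ⊓ N' a, (LT S).inf _ _ hN₁ (hN' a), inf_le_left.trans h1, fun v hv => by
        rcases Finset.mem_insert.mp hv with rfl | hv
        · exact inf_le_right
        · exact inf_le_left.trans (h2 v hv)⟩
  obtain ⟨N₀, hN₀, hN₀N, hN₀v⟩ := hlev (placesOf S)
  let F : M → Place → GQ → Additive ℚbˣ := fun m v x =>
    if v ∈ placesOf S then (Y v x).app M (x • m) else 0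
  have hD : ∀ m v, ∀ d ∈ decomp v, ∀ x, F m v (d * x) = d • F m v x := fun m v d hd x => by
    by_cases hv : v ∈ placesOf S
    · simp only [F, if_pos hv, hYd v hv d hd x]
      show d • (Y v x).app M (d⁻¹ • (d * x) • m) = _
      rw [mul_smul, inv_smul_smul]
    · simp only [F, if_neg hv, smul_zero]
  have hF : ∀ m, ∃ N₁, (LT S).IsLevel N₁ ∧ ∀ v x, ∀ s : GQ, s ∈ N₁ → F m v (x * s) = F m v x :=
    fun m => ⟨N₀, hN₀, fun v x s hs => by
      by_cases hv : v ∈ placesOf S
      · simp only [F, if_pos hv]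
        rw [hYN' v x s (hN₀v v hv hs), mul_smul, hMN s (hN₀N hs)]
      · simp only [F, if_neg hv]⟩
  refine ⟨AddMonoidHom.mk' (fun m => mkSupp (F m) (hD m) (hF m) fun v hv x => if_neg hv)
    fun m m' => idele_ext fun v x => ?_, fun m q hq g => if_neg fun h => hq (mem_placesOf_some.mp h), fun v hv x m => ?_⟩
  · rw [map_add, evalAt_mkSupp, evalAt_mkSupp, evalAt_mkSupp]
    by_cases hv : v ∈ placesOf S
    · simp only [F, if_pos hv, smul_add]
      exact map_add (show M →+ Additive ℚbˣ from Y v x) _ _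
    · simp only [F, if_neg hv, add_zero]
  · exact if_pos hv

include hN hμ hMN hp in
/-- A homomorphism whose obstruction is a coboundary lifts equivariantly. -/
theorem mem_shaLocHom_of_coboundary {φ : (LT S).HomC M (ClassT S)} {f : M →+ Additive (idele S)}
    (hl : IsLift f φ.1) (δ : DualMod M) (hδ : ∀ g, err f g = dualSmul M g δ - δ) :
    φ ∈ shaLocHom S M := by
  have hδp : ∀ m, p • δ.app M m = 0 := fun m => by
    show p • (show M →+ Additive ℚbˣ from δ) m = 0
    rw [← map_nsmul, hp, map_zero]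
  obtain ⟨u, hus, hu⟩ := exists_lift_of_family hp hN hμ hMN (fun _ x => dualSmul M x δ)
    (fun v _ d _ x => AddMonoidHom.ext fun m => by
      show (d * x) • δ.app M ((d * x)⁻¹ • m) = d • x • δ.app M (x⁻¹ • d⁻¹ • m)
      rw [mul_inv_rev, mul_smul, mul_smul])
    (fun v => ⟨N, hN, fun x s hs => AddMonoidHom.ext fun m => by
      show (x * s) • δ.app M ((x * s)⁻¹ • m) = x • δ.app M (x⁻¹ • m)
      rw [mul_inv_rev, mul_smul x s, mul_smul s⁻¹, hMN s⁻¹ (inv_mem hs),
        mu_fixed hμ (hδp _) hs]⟩)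
  have hu' : ∀ v ∈ placesOf S, ∀ x m, evalAt v x (u m) = x • δ.app M m := fun v hv x m => by
    rw [hu v hv]
    show x • δ.app M (x⁻¹ • x • m) = _
    rw [inv_smul_smul]
  refine ⟨f - u, ⟨fun m => (hl.supp m).sub (hus m), fun m => ?_⟩, fun g m => idele_ext fun v x => ?_⟩
  · rw [AddMonoidHom.sub_apply, map_sub, hl.cls,
      classHom_eq_zero_of_torsion (hus m) (hδp m) hN hμ fun v hv g => hu' v hv g m, sub_zero]
  · rw [evalAt_lt, AddMonoidHom.sub_apply, AddMonoidHom.sub_apply, map_sub, map_sub]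
    by_cases hv : v ∈ placesOf S
    · have h1 := comp_err hp hl (fun m => lt_smul_inv g m) hv x (g • m)
      rw [inv_smul_smul] at h1
      have h2 : (err f g).app M (g • m) = g • δ.app M m - δ.app M (g • m) := by
        rw [hδ]
        show g • δ.app M (g⁻¹ • g • m) - δ.app M (g • m) = _
        rw [inv_smul_smul]
      rw [h2, smul_sub, ← mul_smul] at h1
      rw [hu' v hv, hu' v hv]
      linear_combination (norm := abel) -h1
    · rcases v with _ | q
      · exact absurd mem_placesOf_none hv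
      · have hq : q ∉ S := fun h => hv (mem_placesOf_some.mpr h)
        rw [hl.supp _ q hq, hl.supp _ q hq, hus _ q hq, hus _ q hq]

include hS hp hN hμ hMN in
/-- The homomorphisms modulo the local ones are the locally trivial dual classes. -/
theorem exists_obstruction [Finite M] :
    ∃ Ψ : (LT S).HomC M (ClassT S) →+ Sha1 S M, Function.Surjective Ψ ∧ Ψ.ker = shaLocHom S M := by
  choose lf hlf using fun φ : (LT S).HomC M (ClassT S) => exists_shaLift hS hp φ.1
  have hmem : ∀ (φ : (LT S).HomC M (ClassT S)) (f : M →+ Additive (idele S)), IsLift f φ.1 →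
      (err f : GQ → DualMod M) ∈ locTrivOne S M := fun φ f hf =>
    ⟨⟨err_const hN hMN f, fun g h => err_mul hp hf g (fun m => lt_smul_inv h m)⟩, fun v hv =>
      ⟨(evalAt v 1).comp f, fun d hd => err_decomp hp hf hv hd fun m => lt_smul_inv d m⟩⟩
  have hwd : ∀ (φ : (LT S).HomC M (ClassT S)) (f f' : M →+ Additive (idele S)), IsLift f φ.1 →
      IsLift f' φ.1 → (fun g => err f g - err f' g : GQ → DualMod M) ∈ cobOne M := fun φ f f' hf hf' => by
    have hd : ∀ m, p • (f - f') m = 0 ∧ classHom S ((f - f') m) = 0 := fun m =>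
      ⟨by rw [← map_nsmul, hp, map_zero],
        by rw [AddMonoidHom.sub_apply, map_sub, hf.cls, hf'.cls, sub_self]⟩
    refine ⟨(evalAt none 1).comp (f - f'), fun g => AddMonoidHom.ext fun m => ?_⟩
    show (err f g).app M m - (err f' g).app M m =
      g • evalAt none 1 ((f - f') (g⁻¹ • m)) - evalAt none 1 ((f - f') m)
    rw [← (torsion_class_zero (hd (g⁻¹ • m)).1 (hd (g⁻¹ • m)).2).2 none mem_placesOf_none g,
      err_apply, err_apply, AddMonoidHom.sub_apply, AddMonoidHom.sub_apply, map_sub, map_sub]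
    abel
  let mk : locTrivOne S M →+ Sha1 S M := QuotientAddGroup.mk' _
  let Ψ : (LT S).HomC M (ClassT S) →+ Sha1 S M :=
    AddMonoidHom.mk' (fun φ => mk ⟨_, hmem φ _ (hlf φ)⟩) fun φ φ' => by
      rw [← map_add]
      refine (QuotientAddGroup.eq_iff_sub_mem).mpr ?_
      show (err (lf (φ + φ')) : GQ → DualMod M) - ((err (lf φ) : GQ → DualMod M) + err (lf φ')) ∈
        cobOne M
      convert hwd (φ + φ') _ _ (hlf (φ + φ')) ((hlf φ).add (hlf φ')) using 1
      funext g
      rw [err_add]
      rfl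
  refine ⟨Ψ, fun c => ?_, AddSubgroup.ext fun φ => ?_⟩
  · obtain ⟨⟨y, hy⟩, rfl⟩ := QuotientAddGroup.mk'_surjective _ c
    obtain ⟨⟨⟨N₁, hN₁, hyN⟩, hyc⟩, hloc⟩ := id hy
    choose ψv hψv using hloc
    let ψ : Place → DualMod M := fun v => if hv : v ∈ placesOf S then ψv v hv else 0
    obtain ⟨f, hfs, hf⟩ := exists_lift_of_family hp hN hμ hMN (fun v x => y x + ψ v)
      (fun v hv d hd x => by
        show y (d * x) + ψ v = dualSmul M d (y x + ψ v)
        have h1 := hψv v hv d hd
        rw [hyc d x, h1, dualSmul_add]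
        simp only [ψ, dif_pos hv]
        abel)
      (fun v => ⟨N₁, hN₁, fun x s hs => by
        show y (x * s) + ψ v = y x + ψ v
        exact congrArg (· + ψ v) (hyN x s hs)⟩)
    have hyp : ∀ g m, p • (y g).app M m = 0 := fun g m => by
      show p • (show M →+ Additive ℚbˣ from y g) m = 0
      rw [← map_nsmul, hp, map_zero]
    have hdiff : ∀ g m, ∀ v ∈ placesOf S, ∀ x,
        evalAt v (x * g) (f (g⁻¹ • m)) - evalAt v x (f m) = x • (y g).app M m := by
      intro g m v hv x
      rw [hf v hv, hf v hv, mul_smul, smul_inv_smul, hyc x g]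
      show (y x).app M (x • m) + x • (y g).app M (x⁻¹ • x • m) + (ψ v).app M (x • m) -
        ((y x).app M (x • m) + (ψ v).app M (x • m)) = _
      rw [inv_smul_smul]
      abel
    have herr : ∀ g, err f g = y g := fun g => AddMonoidHom.ext fun m => by
      show (err f g).app M m = (y g).app M m
      have h := hdiff g m none mem_placesOf_none 1
      rw [one_mul, one_smul] at h
      rw [err_apply, h]
    let φ : (LT S).HomC M (ClassT S) := ⟨(classHom S).comp f, fun (g : GQ) m => by
      show classHom S (f (g • m)) = lt S g • classHom S (f m)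
      rw [← classHom_smul, ← sub_eq_zero, ← map_sub]
      refine classHom_eq_zero_of_torsion ((hfs _).sub ((hfs _).smul g))
        (x := -(y g).app M (g • m))
        (by simp [hyp g (g • m)]) hN hμ fun v hv x => ?_
      have h := hdiff g (g • m) v hv x
      rw [inv_smul_smul] at h
      rw [map_sub, smul_neg, ← h, neg_sub]
      rfl⟩
    refine ⟨φ, (QuotientAddGroup.eq_iff_sub_mem).mpr ?_⟩
    show (err (lf φ) : GQ → DualMod M) - y ∈ cobOne M
    convert hwd φ _ f (hlf φ) ⟨hfs, fun m => rfl⟩ using 1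
    funext g
    rw [Pi.sub_apply, herr]
  · rw [AddMonoidHom.mem_ker]
    constructor
    · intro h
      obtain ⟨δ, hδ⟩ := (QuotientAddGroup.eq_zero_iff _).mp h
      exact mem_shaLocHom_of_coboundary hp hN hμ hMN (hlf φ) δ hδ
    · rintro ⟨f, hf, he⟩
      refine (QuotientAddGroup.eq_zero_iff _).mpr ?_
      show (err (lf φ) : GQ → DualMod M) ∈ cobOne M
      convert hwd φ _ f (hlf φ) hf using 1
      funext g
      have h0 : err f g = 0 := AddMonoidHom.ext fun m => by
        show evalAt none 1 (lt S g • f (g⁻¹ • m) - f m) = 0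
        rw [← he, smul_inv_smul, sub_self, map_zero]
      rw [h0, sub_zero]

end Fermat.Agent.GD
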