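import Fermat.Agent.GD.Sha.Count
import Fermat.Agent.GD.Sha.CarryIdele
import Fermat.Agent.GD.Sha.Obstruction
import Fermat.Agent.GD.Bases.DualityGlobal.LocTrivial
import Fermat.Agent.GD.Bases.DualityGlobal.Kummer
import Fermat.Agent.GD.Bases.DualityGlobal

/-!
# Detection of two-classes modulo `p` at the level of `S`

An orthogonal class becomes a coboundary of `p`-th roots up to a fixed idele of orders outside `S`;
pairing that idele with a locally trivial character amounts to pairing the class with a torsion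
class supported at `S`, so the idele is a `p`-th multiple modulo units away from `S`.
-/

set_option autoImplicit false
set_option linter.unusedSectionVars false
set_option linter.style.haveILetI false

noncomputable section

namespace Fermat.Agent.GD

open Fermat.Agent.Galois (GQ)

local notation "ℚb" => AlgebraicClosure ℚ

variable {p : ℕ} [hpf : Fact p.Prime] {S : Finset Nat.Primes}

/-- Powers of a prime, additively. -/
def primePow (q : Nat.Primes) : ℤ →+ Additive ℚbˣ where
  toFun k := Additive.ofMul (primeUnit q ^ k)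
  map_zero' := congrArg Additive.ofMul (zpow_zero _)
  map_add' a b := congrArg Additive.ofMul (zpow_add _ a b)

theorem smul_primePow (g : GQ) (q : Nat.Primes) (k : ℤ) : g • primePow q k = primePow q k :=
  congrArg Additive.ofMul (smul_primeUnit_zpow g q k)

theorem gq_smul_nsmul (g : GQ) (n : ℕ) (a : Additive ℚbˣ) : g • n • a = n • g • a :=
  smul_comm g n a

/-- An idele from its components. -/
def mkIdeleOf (F : Place → GQ → Additive ℚbˣ)
    (hD : ∀ v, ∀ d ∈ decomp v, ∀ x, F v (d * x) = d • F v x)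
    (hN : ∃ N, (LT S).IsLevel N ∧ ∀ v x, ∀ s : GQ, s ∈ N → F v (x * s) = F v x)
    (hfin : {q : Nat.Primes | ∃ x, (F (some q) x).toMul ∉ (placeAt q).unitGroup}.Finite) :
    Additive (idele S) :=
  Additive.ofMul ⟨fun v x => (F v x).toMul, fun v d hd x => by
      show (F v (d * x)).toMul = _
      rw [hD v d hd]; rfl, by
      obtain ⟨N, hN', h⟩ := hN
      exact ⟨N, hN', fun v x s hsN => congrArg Additive.toMul (h v x s hsN)⟩, hfin⟩

theorem evalAt_mkIdeleOf {F : Place → GQ → Additive ℚbˣ}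
    {hD : ∀ v, ∀ d ∈ decomp v, ∀ x, F v (d * x) = d • F v x}
    {hN : ∃ N, (LT S).IsLevel N ∧ ∀ v x, ∀ s : GQ, s ∈ N → F v (x * s) = F v x}
    {hfin : {q : Nat.Primes | ∃ x, (F (some q) x).toMul ∉ (placeAt q).unitGroup}.Finite}
    (v : Place) (x : GQ) : evalAt v x (mkIdeleOf F hD hN hfin) = F v x := rfl

/-- An idele differing from a principal one by units away from `S` has trivial class. -/
theorem classHom_eq_zero_of_units {f : Additive (idele S)} (x : Additive ℚbˣ)
    {N : Subgroup (LT S).G} (hN : (LT S).IsLevel N) (hx : ∀ s : GQ, s ∈ N → s • x = x)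
    (hT : ∀ v ∈ placesOf S, ∀ g : GQ, evalAt v g f = g • x)
    (hU : ∀ q ∉ S, ∀ g : GQ, (evalAt (some q) g f - g • x).toMul ∈ (placeAt q).unitGroup) :
    classHom S f = 0 := by
  rw [classHom_eq_zero_iff, classKer, Subgroup.mem_subgroupOf, Subgroup.mem_sup]
  refine ⟨diag x.toMul, ⟨x.toMul, ⟨N, hN, fun s hs => congrArg Additive.toMul (hx s hs)⟩, rfl⟩,
    (diag x.toMul)⁻¹ * f.toMul.1, ⟨fun g => ?_, fun q hq g => ?_, fun q g => ?_⟩, ?_⟩
  · show (g • x.toMul)⁻¹ * f.toMul.1 none g = 1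
    rw [show f.toMul.1 none g = g • x.toMul from
      congrArg Additive.toMul (hT none mem_placesOf_none g), inv_mul_cancel]
  · show (g • x.toMul)⁻¹ * f.toMul.1 (some q) g = 1
    rw [show f.toMul.1 (some q) g = g • x.toMul from
      congrArg Additive.toMul (hT _ (mem_placesOf_some.mpr hq) g), inv_mul_cancel]
  · show (g • x.toMul)⁻¹ * f.toMul.1 (some q) g ∈ _
    by_cases hq : q ∈ S
    · rw [show f.toMul.1 (some q) g = g • x.toMul from
        congrArg Additive.toMul (hT _ (mem_placesOf_some.mpr hq) g), inv_mul_cancel]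
      exact one_mem _
    · rw [mul_comm, ← div_eq_mul_inv]
      exact hU q hq g
  · rw [← mul_assoc, mul_inv_cancel, one_mul]

/-- A locally trivial character extends to the double cosets at a place. -/
theorem exists_double_coset_char {H : Subgroup GQ} (χ : H → ZMod p)
    (hχ : ∀ a b, χ (a * b) = χ a + χ b) (v : Place)
    (hloc : ∀ g : GQ, ∀ h : H, g * (h : GQ) * g⁻¹ ∈ decomp v → χ h = 0) :
    ∃ δ : GQ → ZMod p, ∀ d ∈ decomp v, ∀ (x : GQ) (h : H), δ (d * x * h) = δ x + χ h := by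
  choose d k hg using exists_eq_dRep (D := decomp v) H
  have hr : ∀ x, dRep (decomp v) H x = dRep (decomp v) H x := fun _ => rfl
  refine ⟨fun x => χ (k x), fun e he x h => ?_⟩
  have h1 := hg (e * x * h)
  rw [dRep_congr (D := decomp v) x ⟨e, he⟩ h] at h1
  set r := dRep (decomp v) H x
  have h2 : e * ((d x : GQ) * r * (k x : GQ)) * (h : GQ) =
      (d (e * x * h) : GQ) * r * (k (e * x * h) : GQ) := by
    rw [← hg x, ← h1]
  have hk : r * ((k (e * x * h) * (k x * h)⁻¹ : H) : GQ) * r⁻¹ =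
      (d (e * x * h) : GQ)⁻¹ * e * (d x : GQ) := by
    have h3 : r * (k (e * x * h) : GQ) =
        (d (e * x * h) : GQ)⁻¹ * (e * ((d x : GQ) * r * (k x : GQ)) * (h : GQ)) := by
      rw [h2]; group
    rw [Subgroup.coe_mul, Subgroup.coe_inv, Subgroup.coe_mul, ← mul_assoc r, h3]
    group
  have h0 : χ (k (e * x * h) * (k x * h)⁻¹) = 0 := hloc r _ (by
    rw [hk]
    exact mul_mem (mul_mem (inv_mem (d _).2) he) (d x).2)
  show χ (k (e * x * h)) = χ (k x) + χ h
  rw [← hχ, ← sub_eq_zero]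
  have h1' := hχ (k (e * x * h) * (k x * h)⁻¹) (k x * h)
  rw [inv_mul_cancel_right, h0, zero_add] at h1'
  rw [h1', sub_self]

/-- The number and the cochain of an orthogonal class, and the fixed idele of their orders. -/
theorem orth_ord_idele {H : Subgroup GQ} {N : Subgroup GQ} (hN : (LT S).IsLevel N) (hle : N ≤ H)
    {X : H → Additive ℚbˣ} {Y : Additive ℚbˣ} (hX : ∀ h, ∀ s ∈ N, s • X h = X h)
    (hY : ∀ s ∈ N, s • Y = Y) (hXY : ∀ h : H, p • X h = (h : GQ) • Y - Y) :
    ∃ k : Nat.Primes → GQ → ℤ,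
      (∀ q ∉ S, ∀ g : GQ, HasOrd q (g • Y).toMul (k q g)) ∧
      (∀ q ∉ S, ∀ d ∈ decomp (some q), ∀ g, k q (d * g) = k q g) ∧
      (∀ q ∉ S, ∀ g : GQ, ∀ s ∈ N, k q (g * s) = k q g) ∧
      (∀ q ∉ S, ∀ (g : GQ) (h : H), k q (g * h) % (p : ℤ) = k q g % (p : ℤ) ∧
        HasOrd q (g • X h).toMul (k q (g * h) / (p : ℤ) - k q g / (p : ℤ))) ∧
      {q : Nat.Primes | q ∉ S ∧ ∃ g, k q g ≠ 0}.Finite := by
  classical
  haveI hNn : N.Normal := normal_of_level hN
  have hconj : ∀ (u : ℚbˣ), (∀ s ∈ N, s • u = u) → ∀ g : GQ, ∀ s ∈ N, s • (g • u) = g • u :=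
    fun u hu g s hs => by
      rw [← mul_smul, show s * g = g * (g⁻¹ * s * g) by group, mul_smul,
        hu _ (by simpa using! hNn.conj_mem s hs g⁻¹)]
  have hy : ∀ s ∈ N, s • Y.toMul = Y.toMul := fun s hs => congrArg Additive.toMul (hY s hs)
  have hord : ∀ (q : Nat.Primes) (g : GQ), ∃ k, q ∉ S → HasOrd q (g • Y).toMul k := fun q g => by
    by_cases hq : q ∈ S
    · exact ⟨0, fun h => absurd hq h⟩
    · obtain ⟨k, hk⟩ := exists_hasOrd hN hq (hconj Y.toMul hy g)
      exact ⟨k, fun _ => hk⟩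
  choose k hk using hord
  refine ⟨k, fun q hq g => hk q g hq, fun q hq d hd g => ?_, fun q hq g s hs => ?_,
    fun q hq g h => ?_, (diag_finite Y.toMul).subset fun q ⟨hq, g, hg⟩ => ⟨g, fun hu =>
      hg ((hk q g hq).unique (hasOrd_zero.mpr hu))⟩⟩
  · exact (hk q (d * g) hq).unique (by rw [mul_smul]; exact (hk q g hq).smul hd)
  · exact (hk q (g * s) hq).unique (by rw [mul_smul, hY s hs]; exact hk q g hq)
  · obtain ⟨l, hl⟩ := exists_hasOrd hN hq
      (hconj (X h).toMul (fun s hs => congrArg Additive.toMul (hX h s hs)) g)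
    have h1 : g • ((h : GQ) • Y) = p • (g • X h) + g • Y := by
      rw [smul_comm p g, hXY, smul_sub, sub_add_cancel]
    have h2 : k q (g * h) = l * p + k q g := (hk q (g * h) hq).unique (by
      rw [mul_smul, h1]
      exact (hl.pow p).mul (hk q g hq))
    refine ⟨by rw [h2, add_comm, mul_comm, Int.add_mul_emod_self_left], ?_⟩
    rw [h2, Int.add_comm, Int.add_mul_ediv_right _ _ (by exact_mod_cast hpf.out.ne_zero),
      add_sub_cancel_left]
    exact hl

/-- The fixed idele of the orders outside `S`, and the idele of their quotients by `p`. -/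
theorem exists_ord_ideles {H N : Subgroup GQ} (hN : (LT S).IsLevel N) {k : Nat.Primes → GQ → ℤ}
    (hkd : ∀ q ∉ S, ∀ d ∈ decomp (some q), ∀ g, k q (d * g) = k q g)
    (hks : ∀ q ∉ S, ∀ g : GQ, ∀ s ∈ N, k q (g * s) = k q g)
    (hkH : ∀ q ∉ S, ∀ (g : GQ) (h : H), k q (g * h) % (p : ℤ) = k q g % (p : ℤ))
    (hfin : {q : Nat.Primes | q ∉ S ∧ ∃ g, k q g ≠ 0}.Finite) :
    ∃ E F : Additive (idele S), (∀ h ∈ H, lt S h • E = E) ∧ (∀ s ∈ N, lt S s • F = F) ∧
      (∀ v ∈ placesOf S, ∀ g, evalAt v g E = 0 ∧ evalAt v g F = 0) ∧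
      ∀ q ∉ S, ∀ g, evalAt (some q) g E = primePow q (k q g % (p : ℤ)) ∧
        evalAt (some q) g F = primePow q (k q g / (p : ℤ)) := by
  classical
  have key : ∀ φ : ℤ → ℤ, φ 0 = 0 → ∃ E : Additive (idele S),
      (∀ v ∈ placesOf S, ∀ g, evalAt v g E = 0) ∧
      (∀ q ∉ S, ∀ g, evalAt (some q) g E = primePow q (φ (k q g))) := by
    intro φ hφ
    let G : Place → GQ → Additive ℚbˣ := fun v g =>
      match v with
      | none => 0
      | some q => if q ∈ S then 0 else primePow q (φ (k q g))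
    refine ⟨mkIdeleOf G (fun v d hd g => ?_) ⟨N, hN, fun v g s hs => ?_⟩
      (hfin.subset fun q ⟨g, hg⟩ => ?_), fun v hv g => ?_, fun q hq g => if_neg hq⟩
    · rcases v with _ | q
      · exact (smul_zero d).symm
      · show (if q ∈ S then (0 : Additive ℚbˣ) else _) = d • if q ∈ S then (0 : Additive ℚbˣ) else _
        split_ifs with hq
        · exact (smul_zero d).symm
        · rw [smul_primePow, hkd q hq d hd g]
    · rcases v with _ | q
      · rfl
      · show (if q ∈ S then (0 : Additive ℚbˣ) else _) = if q ∈ S then (0 : Additive ℚbˣ) else _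
        split_ifs with hq
        · rfl
        · rw [hks q hq g s hs]
    · have hq : q ∉ S := fun h => hg (by
        show (if q ∈ S then (0 : Additive ℚbˣ) else _).toMul ∈ _
        rw [if_pos h]; exact one_mem _)
      refine ⟨hq, g, fun h => hg ?_⟩
      show (if q ∈ S then (0 : Additive ℚbˣ) else _).toMul ∈ _
      rw [if_neg hq, h, hφ, map_zero]
      exact one_mem _
    · rcases v with _ | q
      · rfl
      · exact if_pos (mem_placesOf_some.mp hv)
  obtain ⟨E, hE0, hE⟩ := key (fun a => a % (p : ℤ)) (Int.zero_emod _)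
  obtain ⟨F, hF0, hF⟩ := key (fun a => a / (p : ℤ)) (Int.zero_ediv _)
  refine ⟨E, F, fun h hh => idele_ext fun v g => ?_, fun s hs => idele_ext fun v g => ?_,
    fun v hv g => ⟨hE0 v hv g, hF0 v hv g⟩, fun q hq g => ⟨hE q hq g, hF q hq g⟩⟩
  · rw [evalAt_lt]
    by_cases hv : v ∈ placesOf S
    · rw [hE0 v hv, hE0 v hv]
    · obtain ⟨q, rfl⟩ : ∃ q, v = some q := Option.ne_none_iff_exists'.mp fun h' =>
        hv (h' ▸ mem_placesOf_none)
      have hq : q ∉ S := fun h' => hv (mem_placesOf_some.mpr h')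
      rw [hE q hq, hE q hq]
      exact congrArg (primePow q) (hkH q hq g ⟨h, hh⟩)
  · rw [evalAt_lt]
    by_cases hv : v ∈ placesOf S
    · rw [hF0 v hv, hF0 v hv]
    · obtain ⟨q, rfl⟩ : ∃ q, v = some q := Option.ne_none_iff_exists'.mp fun h' =>
        hv (h' ▸ mem_placesOf_none)
      have hq : q ∉ S := fun h' => hv (mem_placesOf_some.mpr h')
      rw [hF q hq, hF q hq, hks q hq g s hs]

/-- The idele of orders of an orthogonal class pairs to zero with the locally trivial characters: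
up to coboundaries its carry cocycle is the class times a torsion class supported at `S`. -/
theorem carry_orth_isB2 {H N : Subgroup GQ} (hN : (LT S).IsLevel N) (hle : N ≤ H)
    (hμ : ∀ h : H, ∀ a : ZMod p, (h : GQ) • toMu p a = toMu p a)
    (c : H × H → ZMod p) {X : H → Additive ℚbˣ} {Y : Additive ℚbˣ}
    (hX : ∀ h, ∀ s ∈ N, s • X h = X h) (hXc : ∀ g s : H, (s : GQ) ∈ N → X (g * s) = X g)
    (hY : ∀ s ∈ N, s • Y = Y) (hXY : ∀ h : H, p • X h = (h : GQ) • Y - Y)
    (hXd : ∀ g h : H, (g : GQ) • X h - X (g * h) + X g = toMu p (c (g, h)))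
    (χ : H → ZMod p) (hχ : ∀ a b, χ (a * b) = χ a + χ b)
    (hχN : ∀ s : H, (s : GQ) ∈ N → χ s = 0)
    (hloc : ∀ v ∈ placesOf S, ∀ g : GQ, ∀ h : H, g * (h : GQ) * g⁻¹ ∈ decomp v → χ h = 0)
    {k : Nat.Primes → GQ → ℤ}
    (hk : ∀ q ∉ S, ∀ g : GQ, HasOrd q (g • Y).toMul (k q g))
    (hkH : ∀ q ∉ S, ∀ (g : GQ) (h : H), k q (g * h) % (p : ℤ) = k q g % (p : ℤ) ∧
      HasOrd q (g • X h).toMul (k q (g * h) / (p : ℤ) - k q g / (p : ℤ)))
    {E F : Additive (idele S)} (hFN : ∀ s ∈ N, lt S s • F = F)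
    (h0 : ∀ v ∈ placesOf S, ∀ g, evalAt v g E = 0 ∧ evalAt v g F = 0)
    (hEF : ∀ q ∉ S, ∀ g, evalAt (some q) g E = primePow q (k q g % (p : ℤ)) ∧
      evalAt (some q) g F = primePow q (k q g / (p : ℤ))) :
    ∃ (w : ZMod p →+ Additive (idele S)) (β : H → Additive (idele S)),
      (∀ (h : H) a, classHom S (lt S (h : GQ) • w a) = classHom S (w a)) ∧
      (∀ g s : H, (s : GQ) ∈ N → β (g * s) = β g) ∧
      ∀ g h : H, classHom S (w (c (g, h)) + (lt S (g : GQ) • β h - β (g * h) + β g) +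
        carryNat (χ g) (χ h) • E) = 0 := by
  classical
  haveI hNn : N.Normal := normal_of_level hN
  haveI : NeZero p := ⟨hpf.out.ne_zero⟩
  have hδ' : ∀ v, ∃ δ : GQ → ZMod p, v ∈ placesOf S →
      ∀ d ∈ decomp v, ∀ (x : GQ) (h : H), δ (d * x * h) = δ x + χ h := fun v => by
    by_cases hv : v ∈ placesOf S
    · obtain ⟨δ, hδ⟩ := exists_double_coset_char χ hχ v (hloc v hv)
      exact ⟨δ, fun _ => hδ⟩
    · exact ⟨0, fun h => absurd h hv⟩
  choose δ hδ using hδ'
  have hχ1 : χ 1 = 0 := by simpa using hχ 1 1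
  have hδd : ∀ v ∈ placesOf S, ∀ d ∈ decomp v, ∀ x, δ v (d * x) = δ v x := fun v hv d hd x => by
    simpa [hχ1] using hδ v hv d hd x 1
  have hδh : ∀ v ∈ placesOf S, ∀ x (h : H), δ v (x * h) = δ v x + χ h := fun v hv x h => by
    simpa using hδ v hv 1 (one_mem _) x h
  have hμN : ∀ s ∈ N, ∀ a : ZMod p, s • toMu p a = toMu p a := fun s hs a => hμ ⟨s, hle hs⟩ a
  -- the torsion idele
  let W : Additive (idele S) := mkSupp (fun v x =>
      if v ∈ placesOf S then x • toMu p (δ v x) else 0)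
    (fun v d hd x => by
      show (if v ∈ placesOf S then (d * x) • toMu p (δ v (d * x)) else 0) =
        d • if v ∈ placesOf S then x • toMu p (δ v x) else 0
      split_ifs with hv
      · rw [hδd v hv d hd, mul_smul]
      · rw [smul_zero])
    ⟨N, hN, fun v x s hs => by
      show (if v ∈ placesOf S then (x * s) • toMu p (δ v (x * s)) else 0) =
        if v ∈ placesOf S then x • toMu p (δ v x) else 0
      split_ifs with hv
      · rw [show δ v (x * s) = δ v x + χ ⟨s, hle hs⟩ from hδh v hv x ⟨s, hle hs⟩,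
          hχN ⟨s, hle hs⟩ hs, add_zero, mul_smul, hμN s hs]
      · rfl⟩ fun v hv x => if_neg hv
  have hWp : p • W = 0 := idele_ext fun v x => by
    rw [map_nsmul, map_zero]
    show p • (if v ∈ placesOf S then x • toMu p (δ v x) else 0) = 0
    split_ifs with hv
    · rw [smul_comm p x, ← map_nsmul, nsmul_zmod, map_zero, smul_zero]
    · rw [smul_zero]
  let w : ZMod p →+ Additive (idele S) :=
    ZMod.lift p ⟨zmultiplesHom _ W, by rw [zmultiplesHom_apply, natCast_zsmul, hWp]⟩
  have hwn : ∀ a : ZMod p, w a = a.val • W := fun a => by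
    conv_lhs => rw [← ZMod.natCast_zmod_val a]
    show ZMod.lift p _ (((a.val : ℕ) : ZMod p)) = _
    rw [show ((a.val : ℕ) : ZMod p) = (((a.val : ℕ) : ℤ) : ZMod p) from (Int.cast_natCast _).symm,
      ZMod.lift_coe]
    exact natCast_zsmul _ _
  have hwS : ∀ v ∈ placesOf S, ∀ x a, evalAt v x (w a) = (δ v x).val • (x • toMu p a) :=
    fun v hv x a => by
      rw [hwn, map_nsmul, show evalAt v x W = x • toMu p (δ v x) from if_pos hv]
      rw [smul_comm (δ v x).val x, smul_comm a.val x, ← map_nsmul, ← map_nsmul, nsmul_eq_mul,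
        nsmul_eq_mul, ZMod.natCast_zmod_val, ZMod.natCast_zmod_val, mul_comm]
  have hwO : ∀ v ∉ placesOf S, ∀ x a, evalAt v x (w a) = 0 := fun v hv x a => by
    rw [hwn, map_nsmul, show evalAt v x W = 0 from if_neg hv, smul_zero]
  -- the cochain
  let B : H → Additive (idele S) := fun g => mkSupp (fun v x => if v ∈ placesOf S then
      carryNat (δ v x) (χ g) • ((x * (g : GQ)) • Y) - (δ v x).val • (x • X g) else 0)
    (fun v d hd x => by
      show (if v ∈ placesOf S then _ else (0 : Additive ℚbˣ)) =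
        d • if v ∈ placesOf S then _ else (0 : Additive ℚbˣ)
      split_ifs with hv
      · rw [hδd v hv d hd, smul_sub, gq_smul_nsmul, gq_smul_nsmul, ← mul_smul, ← mul_smul, mul_assoc]
      · rw [smul_zero])
    ⟨N, hN, fun v x s hs => by
      show (if v ∈ placesOf S then _ else (0 : Additive ℚbˣ)) =
        if v ∈ placesOf S then _ else (0 : Additive ℚbˣ)
      split_ifs with hv
      · rw [show δ v (x * s) = δ v x + χ ⟨s, hle hs⟩ from hδh v hv x ⟨s, hle hs⟩,
          hχN ⟨s, hle hs⟩ hs, add_zero]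
        refine congrArg₂ (fun a b => carryNat (δ v x) (χ g) • a - (δ v x).val • b) ?_ ?_
        · rw [show x * s * (g : GQ) = (x * g) * ((g : GQ)⁻¹ * s * g) by group, mul_smul,
            hY _ (by simpa using! hNn.conj_mem s hs (g : GQ)⁻¹)]
        · rw [mul_smul, hX g s hs]
      · rfl⟩ fun v hv x => if_neg hv
  let β : H → Additive (idele S) := fun g => B g + (χ g).val • (lt S (g : GQ) • F)
  refine ⟨w, β, fun h a => ?_, fun g s hs => ?_, fun g h => ?_⟩
  · rw [← sub_eq_zero, ← map_sub]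
    refine classHom_eq_zero_of_units ((χ h).val • toMu p a) hN
      (fun s hs => by rw [smul_comm, hμN s hs]) (fun v hv x => ?_) fun q hq x => ?_
    · rw [map_sub, evalAt_lt, hwS v hv, hwS v hv, hδh v hv, mul_smul, hμ, smul_comm (δ v x + χ h).val x,
        smul_comm (δ v x).val x, ← smul_sub, ← map_nsmul, ← map_nsmul, ← map_sub, ← map_nsmul]
      simp only [nsmul_eq_mul, ZMod.natCast_zmod_val]
      congr 2
      ring
    · have hv : (some q : Place) ∉ placesOf S := fun h' => hq (mem_placesOf_some.mp h')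
      rw [map_sub (evalAt (some q) x), evalAt_lt, hwO _ hv, hwO _ hv, sub_self, zero_sub, smul_comm x]
      have h1 : IsTUnit S ((χ h).val • toMu p a) := isTUnit_of_pow (p := p) (T := S) (by
        rw [← map_nsmul, ← map_nsmul, nsmul_zmod, map_zero]
        intro q _ g
        rw [toMul_zero, smul_one]
        exact one_mem _)
      rw [← smul_comm x]
      exact inv_mem (h1 q hq x)
  · have hs' : χ (g * s) = χ g := by rw [hχ, hχN s hs, add_zero]
    show B (g * s) + (χ (g * s)).val • (lt S ((g : GQ) * (s : GQ)) • F) = _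
    refine congrArg₂ (· + ·) (idele_ext fun v x => ?_) ?_
    · show (if v ∈ placesOf S then _ else (0 : Additive ℚbˣ)) =
        if v ∈ placesOf S then _ else (0 : Additive ℚbˣ)
      split_ifs
      · rw [hs', hXc g s hs, Subgroup.coe_mul, ← mul_assoc, mul_smul _ (s : GQ), hY _ hs]
      · rfl
    · rw [hs', show lt S ((g : GQ) * (s : GQ)) • F = lt S (g : GQ) • lt S (s : GQ) • F from
        mul_smul (lt S (g : GQ)) (lt S (s : GQ)) F, hFN _ hs]
  -- the principal part
  let P : Additive ℚbˣ :=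
    carryNat (χ g) (χ h) • (((g : GQ) * h) • Y) - (χ g).val • ((g : GQ) • X h)
  refine classHom_eq_zero_of_units P hN (fun s hs => ?_) (fun v hv x => ?_) fun q hq x => ?_
  · have hc : ∀ a : GQ, a⁻¹ * s * a ∈ N := fun a => by simpa using! hNn.conj_mem s hs a⁻¹
    show s • (_ - _) = _
    rw [smul_sub, gq_smul_nsmul, gq_smul_nsmul, ← mul_smul, ← mul_smul,
      show s * ((g : GQ) * h) = (g : GQ) * h * (((g : GQ) * h)⁻¹ * s * ((g : GQ) * h)) by group,
      mul_smul _ (((g : GQ) * h)⁻¹ * s * ((g : GQ) * h)), hY _ (hc _),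
      show s * (g : GQ) = (g : GQ) * ((g : GQ)⁻¹ * s * g) by group,
      mul_smul _ ((g : GQ)⁻¹ * s * g), hX h _ (hc _)]
  · have hB : ∀ (u : GQ) (a : H), evalAt v u (β a) =
        carryNat (δ v u) (χ a) • ((u * (a : GQ)) • Y) - (δ v u).val • (u • X a) := fun u a => by
      rw [map_add, map_nsmul, evalAt_lt, (h0 v hv _).2, smul_zero, add_zero]
      exact if_pos hv
    rw [map_add, map_add, map_add, map_sub, evalAt_lt, map_nsmul, (h0 v hv x).1, smul_zero, add_zero,
      hwS v hv, ← hXd, hB, hB, hB, hδh v hv x g, Subgroup.coe_mul]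
    simp only [P, smul_sub, smul_add, gq_smul_nsmul, ← mul_smul, mul_assoc, nsmul_sub, nsmul_add]
    set A := (x * (g : GQ)) • X h
    set Bx := (x * ((g : GQ) * h)) • Y
    set Cx := (x * (g : GQ)) • Y
    have e1 : p • A = Bx - Cx := by
      show p • ((x * (g : GQ)) • X h) = _
      rw [smul_comm p, hXY, smul_sub, ← mul_smul, mul_assoc]
    have e2 := congrArg (· • A) (carryNat_spec (δ v x) (χ g))
    simp only [add_smul, mul_smul, smul_comm p, e1, nsmul_sub, nsmul_add] at e2
    have e3 := congrArg (· • Bx) (carryNat_assoc (δ v x) (χ g) (χ h))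
    simp only [add_smul, hχ g h, ← add_assoc] at e3
    rw [hχ g h]
    linear_combination (norm := abel) -e2 - e3
  · have hv : (some q : Place) ∉ placesOf S := fun h' => hq (mem_placesOf_some.mp h')
    have hB : ∀ (u : GQ) (a : H), evalAt (some q) u (β a) =
        primePow q ((χ a).val * (k q (u * a) / (p : ℤ))) := fun u a => by
      rw [map_add, map_nsmul, evalAt_lt, (hEF q hq _).2, ← map_nsmul, nsmul_eq_mul,
        show evalAt (some q) u (B a) = 0 from if_neg hv, zero_add]
    have hP := (((hk q hq (x * ((g : GQ) * h))).pow (carryNat (χ g) (χ h))).mul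
      (((hkH q hq (x * g) h).2.pow (χ g).val).inv))
    rw [map_add, map_add, map_add, map_sub (evalAt (some q) x), evalAt_lt, map_nsmul, (hEF q hq x).1, hwO _ hv, zero_add,
      hB, hB, hB, ← map_nsmul, ← map_sub, ← map_add, ← map_add]
    simp only [P, smul_sub, gq_smul_nsmul, ← mul_smul]
    rw [Subgroup.coe_mul, ← mul_assoc]
    have hu := inv_mem hP
    rw [inv_div] at hu
    rw [toMul_sub, toMul_sub, toMul_nsmul, toMul_nsmul, mul_assoc]
    refine Eq.mp ?_ hu
    congr 1
    rw [div_eq_mul_inv, div_eq_mul_inv _ ((_ : ℚbˣ) ^ _ / _), div_eq_mul_inv]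
    refine congrArg₂ (· * ·) (congrArg (primeUnit q ^ ·) ?_) rfl
    have e4 : ((χ g).val : ℤ) + (χ h).val - (χ (g * h)).val = p * carryNat (χ g) (χ h) := by
      have h' : ((p * carryNat (χ g) (χ h) + (χ g + χ h).val : ℕ) : ℤ) =
          (((χ g).val + (χ h).val : ℕ) : ℤ) := congrArg Nat.cast (carryNat_spec (χ g) (χ h))
      push_cast at h'
      rw [hχ]
      linear_combination -h'
    have e5 := Int.mul_ediv_add_emod (k q (x * ((g : GQ) * h))) (p : ℤ)
    have e6 : k q (x * ((g : GQ) * h)) % (p : ℤ) = k q x % (p : ℤ) := by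
      have := (hkH q hq x (g * h)).1
      rwa [Subgroup.coe_mul] at this
    rw [nsmul_eq_mul, ← e6, mul_assoc x]
    linear_combination -(carryNat (χ g) (χ h) : ℤ) * e5 - (k q (x * ((g : GQ) * h)) / (p : ℤ)) * e4

/-- Off `S`, a trivial class differs from its principal number by units. -/
theorem unit_diff_of_class_zero {f : Additive (idele S)} (hf : classHom S f = 0) {q : Nat.Primes}
    (g : GQ) :
    (evalAt (some q) g f - g • evalAt none 1 f).toMul ∈ (placeAt q).unitGroup := by
  rw [classHom_eq_zero_iff, classKer, Subgroup.mem_subgroupOf, Subgroup.mem_sup] at hf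
  obtain ⟨_, ⟨x, -, rfl⟩, u, hu, h⟩ := hf
  have e : ∀ v a, f.toMul.1 v a = a • x * u v a := fun v a => by rw [← h]; rfl
  show f.toMul.1 (some q) g / g • f.toMul.1 none 1 ∈ _
  rw [e, e, hu.1, mul_one, one_smul, mul_div_cancel_left]
  exact hu.2.2 q g

/-- A two-class orthogonal to all fixed torsion classes is trivial. -/
theorem detect_S {p : ℕ} [Fact p.Prime] (hp2 : p ≠ 2) {S : Finset Nat.Primes}
    (hS : (⟨p, Fact.out⟩ : Nat.Primes) ∈ S) {H : Subgroup (LT S).G} (hH : (LT S).IsOpen H)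
    (hμ : FixesMu p H) (D : ClassData p) :
    letI := trivAction ((LT S).sub H).G (ZMod p)
    ∀ c : ((LT S).sub H).Z2 (ZMod p),
      (∀ φ : ZMod p →+ ClassT S, φ ∈ ((LT S).sub H).HomC (ZMod p) (ClassT S) →
        ∀ hz : φ ∘ (c : ((LT S).sub H).G × ((LT S).sub H).G → ZMod p) ∈
            ((LT S).sub H).Z2 (ClassT S),
          ((D.glob S hS).sub H hH).inv ⟨_, hz⟩ = 0) →
      ((LT S).sub H).IsB2 (ZMod p)
        (c : ((LT S).sub H).G × ((LT S).sub H).G → ZMod p) := by
  classical
  letI := trivAction ((LT S).sub H).G (ZMod p)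
  intro c hc
  have htriv : ∀ (g : ((LT S).sub H).G) (a : ZMod p), g • a = a := fun _ _ => rfl
  have hμu : ∀ h ∈ (show Subgroup GQ from H), ∀ μ : ℚbˣ, μ ^ p = 1 → h • μ = μ := fun h hh μ hμ1 =>
    Units.ext (hμ h hh (μ : ℚb) (by rw [← Units.val_pow_eq_pow_val, hμ1, Units.val_one]))
  obtain ⟨N, hN, hle⟩ := id hH
  let HG : Subgroup GQ := H
  have hleG : (show Subgroup GQ from N) ≤ HG := hle
  obtain ⟨a₀, ⟨_, ⟨Na, hNa, rfl⟩, haN₀⟩, had⟩ :=
    muCochain_isB2 (H := HG) hN hleG hμu htriv hp2 D hS hH c hc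
  let a : HG → Additive (idele S) := a₀
  have haN : ∀ g s : HG, (s : GQ) ∈ (show Subgroup GQ from Na) → a (g * s) = a g :=
    fun g s hs => haN₀ g s hs
  let muI := muIdele (p := p) (T := S) (H := HG) hN hleG hμu
  have had' : ∀ g h : HG, lt S (g : GQ) • a h - a (g * h) + a g = muI (c.1 (g, h)) :=
    fun g h => congrFun had (g, h)
  have hmu0 : ∀ b, classHom S (muI b) = 0 := fun b =>
    classHom_sUnitIdele hN hleG (muUnitHom hμu b)
  let f₁ : HG → ClassT S := fun h => classHom S (a h)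
  have hf₁ : f₁ ∈ ((LT S).sub H).Z1 (ClassT S) := by
    refine ⟨⟨_, ⟨Na, hNa, rfl⟩, fun g s hs => congrArg (classHom S) (haN g s hs)⟩,
      fun (g h : HG) => ?_⟩
    have h1 := congrArg (classHom S) (had' g h)
    rw [hmu0, map_add, map_sub, classHom_smul] at h1
    show classHom S (a (g * h)) = classHom S (a g) + lt S (g : GQ) • classHom S (a h)
    linear_combination (norm := abel) -h1
  obtain ⟨m, hm, cl, hcl⟩ := (D.glob S hS).toPreClassModule.exists_coprime_B1 hH hf₁
  obtain ⟨j₀, hj₀⟩ := mkClass_surjective S cl.toMul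
  let j : Additive (idele S) := Additive.ofMul j₀
  have hj : classHom S j = cl := congrArg Additive.ofMul hj₀
  obtain ⟨Nj, hNj, hjN⟩ := smooth_idele S j
  let a' : HG → Additive (idele S) := fun h => m • a h - (lt S (h : GQ) • j - j)
  have ha'0 : ∀ h, classHom S (a' h) = 0 := fun h => by
    have h1 : lt S (h : GQ) • cl - cl = m • classHom S (a h) := congrFun hcl h
    show classHom S (m • a h - (lt S (h : GQ) • j - j)) = 0
    rw [map_sub, map_nsmul, map_sub, classHom_smul, hj, ← h1, sub_self]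
  have ha'd : ∀ g h : HG, lt S (g : GQ) • a' h - a' (g * h) + a' g =
      m • muI (c.1 (g, h)) := fun g h => by
    rw [← had' g h]
    show lt S (g : GQ) • (m • a h - (lt S (h : GQ) • j - j)) -
      (m • a (g * h) - (lt S ((g : GQ) * (h : GQ)) • j - j)) + (m • a g - (lt S (g : GQ) • j - j)) = _
    rw [show lt S ((g : GQ) * (h : GQ)) • j = lt S (g : GQ) • lt S (h : GQ) • j from
      mul_smul (lt S (g : GQ)) (lt S (h : GQ)) j, smul_sub, smul_sub, smul_comm (lt S (g : GQ)) m,
      nsmul_add, nsmul_sub]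
    abel
  let X : HG → Additive ℚbˣ := fun h => evalAt none 1 (a' h)
  have hXg : ∀ h (g : GQ), evalAt none g (a' h) = g • X h := fun h g =>
    (components_of_class_zero (ha'0 h)).1 none mem_placesOf_none g
  have hXd : ∀ g h : HG, (g : GQ) • X h - X (g * h) + X g =
      toMu p ((m : ZMod p) * c.1 (g, h)) := fun g h => by
    have h1 := congrArg (evalAt none 1) (ha'd g h)
    rw [map_add, map_sub, evalAt_lt, one_mul, hXg, map_nsmul, evalAt_muIdele, one_smul] at h1
    rw [← nsmul_eq_mul, map_nsmul]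
    exact h1
  have hM : (LT S).IsLevel (Na ⊓ Nj) := (LT S).inf _ _ hNa hNj
  let M : Subgroup GQ := Na ⊓ Nj
  have hXc₀ : ∀ g s : HG, (s : GQ) ∈ M → X (g * s) = X g := fun g s hs => by
    show evalAt none 1 (m • a (g * s) - (lt S ((g : GQ) * (s : GQ)) • j - j)) = _
    rw [haN g s hs.1, show lt S ((g : GQ) * (s : GQ)) • j = lt S (g : GQ) • lt S (s : GQ) • j from
      mul_smul (lt S (g : GQ)) (lt S (s : GQ)) j,
      show lt S (s : GQ) • j = j from hjN _ hs.2]
  haveI : M.FiniteIndex := (LT S).finiteIndex _ hM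
  haveI : Finite (HG ⧸ M.subgroupOf HG) := Subgroup.finite_quotient_of_finiteIndex
  obtain ⟨N₁, hN₁, hN₁X⟩ := exists_level_forall (T := S) (X := HG ⧸ M.subgroupOf HG)
    (P := fun N' q => ∀ s : GQ, s ∈ (show Subgroup GQ from N') → s • X q.out = X q.out)
    (fun _ _ _ hle' h s hs => h s (hle' hs))
    fun q => (components_of_class_zero (ha'0 q.out)).2.1
  let N' : Subgroup GQ := (show Subgroup GQ from N₁) ⊓ M ⊓ (show Subgroup GQ from N)
  have hN' : (LT S).IsLevel N' := (LT S).inf _ _ ((LT S).inf _ _ hN₁ hM) hN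
  have hle' : N' ≤ HG := fun s hs => hle hs.2
  have hXc : ∀ g s : HG, (s : GQ) ∈ N' → X (g * s) = X g := fun g s hs => hXc₀ g s hs.1.2
  have hXfix : ∀ h : HG, ∀ s ∈ N', s • X h = X h := fun h s hs => by
    obtain ⟨k, hk⟩ := QuotientGroup.mk_out_eq_mul (M.subgroupOf HG) h
    have h1 := hN₁X (h : HG ⧸ M.subgroupOf HG) s hs.1.1
    rwa [hk, hXc₀ h k (Subgroup.mem_subgroupOf.mp k.2)] at h1
  have hμt : ∀ (g : HG) b, (g : GQ) • toMu p b = toMu p b := fun g b =>
    congrArg Additive.ofMul (hμu _ g.2 _ (congrArg Additive.toMul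
      (show p • toMu p b = 0 by rw [← map_nsmul, nsmul_zmod, map_zero])))
  obtain ⟨y, hyfix, hy⟩ := exists_smul_div_eq_global (T := S) hN' hle' (fun h => (X h).toMul ^ p)
    (fun g h => by
      have h1 : p • toMu p ((m : ZMod p) * c.1 (g, h)) = 0 := by
        rw [← map_nsmul, nsmul_zmod, map_zero]
      rw [← hXd g h, nsmul_add, nsmul_sub, smul_comm p (g : GQ)] at h1
      have h2 : p • X (g * h) = p • X g + (g : GQ) • (p • X h) := by
        linear_combination (norm := abel) -h1
      exact congrArg Additive.toMul h2)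
    (fun g s hs => congrArg (fun u : Additive ℚbˣ => u.toMul ^ p) (hXc g s hs))
  let Y : Additive ℚbˣ := Additive.ofMul y
  have hY : ∀ s ∈ N', s • Y = Y := fun s hs => congrArg Additive.ofMul (hyfix s hs)
  have hXY : ∀ h : HG, p • X h = (h : GQ) • Y - Y := fun h => congrArg Additive.ofMul (hy h)
  obtain ⟨k, hk, hkd, hks, hkH, hfin⟩ := orth_ord_idele hN' hle' hXfix hY hXY
  obtain ⟨E, F, hEH, hFN, h0, hEF⟩ :=
    exists_ord_ideles hN' hkd hks (fun q hq g h => (hkH q hq g h).1) hfin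
  -- the class of the orders is orthogonal to the locally trivial characters
  let e : fixPts (ClassT S) H := ⟨classHom S E, fun h hh => by
    rw [← classHom_smul]; exact congrArg (classHom S) (hEH h hh)⟩
  have hM' : ((LT S).sub H).Smooth (ZMod p) := fun _ =>
    ⟨_, ((LT S).sub H).exists_level.choose_spec, fun _ _ => rfl⟩
  let κ : ((LT S).sub H).SymZ (ZMod p) (ClassT S) :=
    ⟨carryExt e.1, carryExt_mem htriv fun g => e.2 g.1 g.2⟩
  obtain ⟨b, hb⟩ := clS_separated hp2 hS hH hμ D hM' e κ rfl fun x hx => by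
    let χ : HG → ZMod p := x.1
    have hχ : ∀ u w, χ (u * w) = χ u + χ w := fun u w => x.2.2 u w
    obtain ⟨_, ⟨Nx, hNx, rfl⟩, hxN⟩ := x.2.1
    let N'' : Subgroup GQ := N' ⊓ (show Subgroup GQ from Nx)
    have hN'' : (LT S).IsLevel N'' := (LT S).inf _ _ hN' hNx
    have hle'' : N'' ≤ HG := inf_le_left.trans hle'
    have hχN : ∀ s : HG, (s : GQ) ∈ N'' → χ s = 0 := fun s hs => by
      have h1 : χ (1 * s) = χ 1 := hxN 1 s hs.2
      rw [hχ] at h1
      exact add_eq_left.mp h1
    obtain ⟨w, β, hw, hβ, hrel⟩ := carry_orth_isB2 hN'' hle'' hμt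
      (fun y => (m : ZMod p) * c.1 y) (fun h s hs => hXfix h s hs.1)
      (fun g s hs => hXc g s hs.1) (fun s hs => hY s hs.1) hXY hXd χ hχ hχN
      (fun v hv g h hd => hx v hv g h hd) hk hkH (fun s hs => hFN s hs.1) h0 hEF
    let φ : ZMod p →+ ClassT S :=
      (classHom S).comp (w.comp (AddMonoidHom.mulLeft (m : ZMod p)))
    have hφ : φ ∈ ((LT S).sub H).HomC (ZMod p) (ClassT S) := fun g u => by
      show φ u = lt S (show HG from g).1 • classHom S (w ((m : ZMod p) * u))
      rw [← classHom_smul, hw]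
      rfl
    have hz : φ ∘ c.1 ∈ ((LT S).sub H).Z2 (ClassT S) :=
      map_mem_Z2 (L := (LT S).sub H) φ (fun g u => hφ g u) c.2
    rw [PreClassModule.pairHom_apply]
    have hsum : ((D.glob S hS).sub H hH).inv (cupZ2 hM' x κ) =
        ((D.glob S hS).sub H hH).inv (-⟨_, hz⟩) := by
      refine ((D.glob S hS).sub H hH).inv_congr _ _ ⟨fun g => -classHom S (β g),
        ⟨_, ⟨N'', hN'', rfl⟩, fun g s hs => congrArg (fun u => -classHom S u) (hβ g s hs)⟩,
        funext fun ⟨g, h⟩ => ?_⟩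
      have h1 := hrel g h
      rw [map_add, map_add, map_add, map_sub, classHom_smul, map_nsmul] at h1
      show lt S (show HG from g).1 • -classHom S (β h) - -classHom S (β (g * h)) + -classHom S (β g) =
        carryNat (χ g) (χ h) • classHom S E -
          -classHom S (w ((m : ZMod p) * c.1 (g, h)))
      rw [smul_neg]
      revert h1
      generalize lt S (show HG from g).1 • classHom S (β h) = b₂
      intro h1
      generalize hW : classHom S (w ((m : ZMod p) * c.1 (g, h))) = W₂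
      generalize hB : classHom S (β (g * h)) = B₂
      have h2 : W₂ + (b₂ - B₂ + classHom S (β g)) + carryNat (χ g) (χ h) • classHom S E = 0 := by
        rw [← hW, ← hB]; exact h1
      linear_combination (norm := abel) -h2
    rw [hsum, map_neg, hc φ hφ hz, neg_zero]
  obtain ⟨u, hu⟩ := hb
  obtain ⟨β₀, hβ₀H, hβ₀c⟩ := exists_fixed_lift_eq (T := S) HG hH b.1 fun h hh => b.2 h hh
  let B₀ : Additive (idele S) := Additive.ofMul β₀
  let f : Additive (idele S) := E - p • B₀ - u.1
  have hf0 : classHom S f = 0 := by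
    have h1 : classHom S u.1 = classHom S E - p • b.1 := hu
    rw [map_sub, map_sub, map_nsmul, show classHom S B₀ = b.1 from hβ₀c, h1, sub_self]
  let x₀ : Additive ℚbˣ := evalAt none 1 f
  have hx₀ : ∀ h : GQ, h ∈ HG → h • x₀ = x₀ := fun h hh => by
    have h1 := (components_of_class_zero hf0).1 none mem_placesOf_none h
    have hfH : lt S h • f = f := by
      show lt S h • (E - p • B₀ - u.1) = _
      rw [smul_sub, smul_sub, hEH h hh, smul_comm (lt S h) p,
        show lt S h • B₀ = B₀ from congrArg Additive.ofMul (hβ₀H (lt S h) hh), u.2.1 h hh]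
    rw [← h1]
    have h2 := congrArg (evalAt none 1) hfH
    rwa [evalAt_lt, one_mul] at h2
  obtain ⟨Nb, hNb, hbN⟩ := smooth_idele S B₀
  have hord : ∀ q ∉ S, ∀ g : GQ, ∃ l : ℤ, HasOrd q (g • x₀).toMul (k q g % (p : ℤ) - l * p) := by
    intro q hq g
    haveI : (show Subgroup GQ from Nb).Normal := normal_of_level hNb
    let z : ℚbˣ := (evalAt (some q) g B₀).toMul
    have hzfix : ∀ s : decomp (some q), (s : GQ) ∈ (show Subgroup GQ from Nb) →
        (s : GQ) • z = z := fun s hs => by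
      have h1 := evalAt_decomp (some q) s.2 g B₀
      rw [show (s : GQ) * g = g * (g⁻¹ * (s : GQ) * g) by group, ← evalAt_lt,
        show lt S (g⁻¹ * (s : GQ) * g) • B₀ = B₀ from hbN _ (by
          simpa using! (inferInstance : (show Subgroup GQ from Nb).Normal).conj_mem _ hs g⁻¹)] at h1
      exact (congrArg Additive.toMul h1).symm
    obtain ⟨l, hl⟩ := exists_val_eq_zpow_of_inertia (q := q)
      (H := (show Subgroup GQ from Nb).subgroupOf (decomp (some q))) (unram_level hNb hq) le_rfl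
      (y := (z : ℚb)) (mem_fieldOf.mpr fun s hs => congrArg Units.val (hzfix s hs)) z.ne_zero
    refine ⟨l, ?_⟩
    have h1 : HasOrd q (primeUnit q ^ (k q g % (p : ℤ))) (k q g % (p : ℤ)) := by
      rw [HasOrd, div_self']; exact one_mem _
    have h2 := (h1.mul ((hasOrd_of_val hl).pow p).inv).mul
      ((hasOrd_zero (q := q)).mpr (inv_mem (u.2.2 q hq g)))
    have h3 := h2.mul ((hasOrd_zero (q := q)).mpr (inv_mem (unit_diff_of_class_zero hf0 (q := q) g)))
    rw [add_zero, add_zero, ← sub_eq_add_neg] at h3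
    convert h3 using 2
    show (g • x₀).toMul = (primePow q (k q g % (p : ℤ)) + -(p • evalAt (some q) g B₀) +
      -evalAt (some q) g u.1 + -(evalAt (some q) g f - g • x₀)).toMul
    rw [← (hEF q hq g).1, map_sub (evalAt (T := S) (some q) g),
      map_sub (evalAt (T := S) (some q) g), map_nsmul (evalAt (T := S) (some q) g)]
    congr 1
    abel
  obtain ⟨z, hz⟩ := IsAlgClosed.exists_pow_nat_eq (((Y - x₀).toMul : ℚbˣ) : ℚb)
    (Fact.out : p.Prime).pos
  let z' : ℚbˣ := Units.mk0 z fun h => (Y - x₀).toMul.ne_zero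
    (by rw [← hz, h, zero_pow (Fact.out : p.Prime).ne_zero])
  have hz' : z' ^ p = (Y - x₀).toMul := Units.ext (by rw [Units.val_pow_eq_pow_val]; exact hz)
  obtain ⟨Nz, hNz, hzfix⟩ := exists_level_root_dvd hS hN' (x := (Y - x₀).toMul)
    (fun s hs => congrArg Additive.toMul
      (show s • (Y - x₀) = Y - x₀ by rw [smul_sub, hY s hs, hx₀ s (hle' hs)]))
    (fun q hq g => by
      obtain ⟨l, hl⟩ := hord q hq g
      refine ⟨k q g / (p : ℤ) + l, ?_⟩
      have h2 := (hk q hq g).mul hl.inv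
      rw [show (g • (Y - x₀).toMul : ℚbˣ) = (g • Y).toMul * ((g • x₀).toMul)⁻¹ from
        (congrArg Additive.toMul (smul_sub g Y x₀)).trans (div_eq_mul_inv _ _)]
      rwa [show k q g + -(k q g % (p : ℤ) - l * p) = (k q g / (p : ℤ) + l) * p by
        have := Int.mul_ediv_add_emod (k q g) (p : ℤ)
        linear_combination -this] at h2) hz'
  let Z : Additive ℚbˣ := Additive.ofMul z'
  have hpZ : p • Z = Y - x₀ := congrArg Additive.ofMul hz'
  have hγ : ∀ h : HG, ∃ d, toMu p d = X h - ((h : GQ) • Z - Z) := fun h => exists_toMu p (by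
    rw [nsmul_sub, nsmul_sub, smul_comm p (h : GQ), hpZ, hXY, smul_sub, hx₀ _ h.2]
    abel)
  choose γ hγ using hγ
  have hγd : ∀ g h : HG, γ h - γ (g * h) + γ g = (m : ZMod p) * c.1 (g, h) := fun g h => by
    refine toMu_injective p ?_
    rw [← hXd g h, map_add, map_sub, ← hμt g (γ h), hγ, hγ, hγ, Subgroup.coe_mul, mul_smul,
      smul_sub, smul_sub]
    abel
  have hγc : ∀ g s : HG, (s : GQ) ∈ N' ⊓ (show Subgroup GQ from Nz) → γ (g * s) = γ g :=
    fun g s hs => toMu_injective p (by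
      rw [hγ, hγ, hXc g s hs.1, Subgroup.coe_mul, mul_smul,
        show (s : GQ) • Z = Z from congrArg Additive.ofMul (hzfix _ hs.2)])
  have hm0 : (m : ZMod p) ≠ 0 := fun h => by
    rw [ZMod.natCast_eq_zero_iff] at h
    exact (Fact.out : p.Prime).ne_one (Nat.dvd_one.mp (hm ▸ Nat.dvd_gcd h dvd_rfl))
  refine ⟨fun h => (m : ZMod p)⁻¹ * γ h,
    ⟨_, ⟨_, (LT S).inf _ _ hN' hNz, rfl⟩, fun g s hs => congrArg _ (hγc g s hs)⟩,
    funext fun ⟨g, h⟩ => ?_⟩
  rw [LevelGroup.d₁_apply, htriv]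
  show (m : ZMod p)⁻¹ * γ h - (m : ZMod p)⁻¹ * γ (g * h) + (m : ZMod p)⁻¹ * γ g = c.1 (g, h)
  rw [← mul_sub, ← mul_add]
  exact (congrArg ((m : ZMod p)⁻¹ * ·) (hγd g h)).trans (inv_mul_cancel_left₀ hm0 _)

end Fermat.Agent.GD
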