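import Fermat.Agent.GD.Sha.Count
import Fermat.Agent.GD.Sha.Detect
import Fermat.Agent.GD.Bases.Euler.Assembly

/-!
# Duality at the level of `S`
-/

set_option autoImplicit false
set_option linter.unusedSectionVars false
set_option linter.style.haveILetI false

noncomputable section

namespace Fermat.Agent.GD

open Fermat.Agent.Galois (GQ)

local notation "ℚb" => AlgebraicClosure ℚ

variable {p : ℕ} [hp : Fact p.Prime] (hp2 : p ≠ 2) {S : Finset Nat.Primes}
  (hS : (⟨p, Fact.out⟩ : Nat.Primes) ∈ S) (D : ClassData p)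

include hp2 hS D

/-- The base case of duality at the level of `S`. -/
theorem base_S {H : Subgroup (LT S).G} (hH : (LT S).IsOpen H) (hμ : FixesMu p H) :
    letI := trivAction ((LT S).sub H).G (ZMod p)
    ((D.glob S hS).sub H hH).Base ((LT S).sub H) := by
  letI := trivAction ((LT S).sub H).G (ZMod p)
  exact ⟨fun _ _ => rfl, finite_homC_triv (fun _ _ => rfl)
      ((finite_fixTorsion hp2 hS hH hμ D).subset fun c hc => ⟨hc.1, fun h hh => hc.2 ⟨h, hh⟩⟩),
    (D.glob S hS).duality_triv hH (fun _ _ => rfl) (exists_not_norm_class hp2 hμ)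
      (finite_fixMod hp2 hS hH hμ D) (fun _ => card_fixMod_le hp2 hS hH hμ D),
    detect_S hp2 hS hH hμ D⟩

/-- Duality at the level of `S` for modules of a level containing the roots of unity. -/
theorem duality_S (N : Subgroup (LT S).G) (hN : (LT S).IsLevel N) (hμ : FixesMu p N) (M : Type)
    [AddCommGroup M] [Finite M] [DistribMulAction (LT S).G M] (hpM : ∀ m : M, p • m = 0)
    (hMN : ∀ s ∈ N, ∀ m : M, s • m = m) (hM : (LT S).Smooth M) :
    (D.glob S hS).Duality (LT S) M hM := by
  refine (D.glob S hS).duality_of_base hN hpM hMN hM fun H hH hle hpow => ?_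
  refine base_S hp2 hS D hH fun h hh μ hμ1 => ?_
  obtain ⟨k, hk⟩ := hpow h hh
  have hμ0 : μ ≠ 0 := fun e => by
    rw [e, zero_pow hp.out.ne_zero] at hμ1
    exact zero_ne_one hμ1
  exact congrArg Units.val (fix_mu_of_pow (G := GQ) (fun ν hν => Units.ext
    (hμ _ hk (ν : ℚb) (by rw [← Units.val_pow_eq_pow_val, hν, Units.val_one])))
      (μ := Units.mk0 μ hμ0) (Units.ext hμ1))

/-- The first cohomology at the level of `S` is finite. -/
theorem finite_h1_S (N : Subgroup (LT S).G) (hN : (LT S).IsLevel N) (hμ : FixesMu p N) (M : Type)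
    [AddCommGroup M] [Finite M] [DistribMulAction (LT S).G M] (hpM : ∀ m : M, p • m = 0)
    (hMN : ∀ s ∈ N, ∀ m : M, s • m = m) : Finite ((LT S).H1 M) := by
  letI := trivAction ((LT S).sub N).G (ZMod p)
  haveI := finite_z1_triv hp2 hS (H := N) ⟨N, hN, le_rfl⟩ hμ D
  letI := AddCommGroup.zmodModule (n := p) hpM
  haveI : Module.Finite (ZMod p) M := Module.Finite.of_finite
  let b := Module.finBasis (ZMod p) M
  have hsplit : ∀ (x : ((LT S).sub N).Z1 M) (g g' : ((LT S).sub N).G),
      x.1 (g * g') = x.1 g + x.1 g' := fun x g g' => by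
    rw [x.2.2 g g']
    exact congrArg (x.1 g + ·) (hMN _ (show N from g).2 (x.1 g'))
  let F : ((LT S).sub N).Z1 M → (Fin (Module.finrank (ZMod p) M) → ((LT S).sub N).Z1 (ZMod p)) :=
    fun x i => ⟨fun g => b.coord i (x.1 g), x.2.1.comp (b.coord i), fun g g' => by
      show b.coord i (x.1 (g * g')) = b.coord i (x.1 g) + b.coord i (x.1 g')
      rw [hsplit, map_add]⟩
  haveI : Finite (((LT S).sub N).Z1 M) := Finite.of_injective F fun x x' h =>
    Subtype.ext (funext fun g => b.ext_elem fun i =>
      congrFun (congrArg Subtype.val (congrFun h i)) g)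
  haveI : Finite (((LT S).sub N).H1 M) := Finite.of_surjective _ (QuotientAddGroup.mk'_surjective _)
  exact finite_h1_of_level hN hMN

end Fermat.Agent.GD
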