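import Fermat.Agent.GD.Setting

/-!
# The local Galois groups surject onto the decomposition groups
-/

set_option autoImplicit false
set_option linter.style.haveILetI false

noncomputable section

namespace Fermat.Agent.GD

open Fermat.Agent.Galois (GQ)
open scoped Pointwise

local notation "ℚb" => AlgebraicClosure ℚ

variable (q : ℕ) [Fact q.Prime]

local notation "Kb" => PadicAlgCl q

theorem continuous_localGaloisToGlobal : Continuous (localGaloisToGlobal q) := by
  refine continuous_of_continuousAt_one _ (continuousAt_def.mpr fun N hN => ?_)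
  rw [map_one, krullTopology_mem_nhds_one_iff] at hN
  obtain ⟨L, hL, hO⟩ := hN
  haveI := hL
  let b := Module.finBasis ℚ L
  let S : Set Kb := Set.range fun i => padicEmbedding q (b i : ℚb)
  haveI : Finite S := Set.finite_range _ |>.to_subtype
  haveI : FiniteDimensional ℚ_[q] (IntermediateField.adjoin ℚ_[q] S) :=
    IntermediateField.finiteDimensional_adjoin fun x _ => Algebra.IsIntegral.isIntegral x
  refine mem_nhds_iff.mpr ⟨(IntermediateField.adjoin ℚ_[q] S).fixingSubgroup, fun τ hτ => hO ?_,
    IntermediateField.fixingSubgroup_isOpen _, one_mem _⟩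
  rw [SetLike.mem_coe, IntermediateField.mem_fixingSubgroup_iff] at hτ ⊢
  intro x hx
  apply (padicEmbedding q).toRingHom.injective
  show padicEmbedding q (localGaloisToGlobal q τ x) = padicEmbedding q x
  rw [padicEmbedding_localGaloisToGlobal]
  let f : L →ₗ[ℚ] Kb := ((padicEmbedding q).comp L.val).toLinearMap
  have e : ((τ.restrictScalars ℚ).toAlgHom.toLinearMap).comp f = f :=
    b.ext fun i => hτ _ (IntermediateField.subset_adjoin _ _ ⟨i, rfl⟩)
  exact LinearMap.congr_fun e ⟨x, hx⟩

variable {q}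

theorem isClosed_range_localGaloisToGlobal :
    IsClosed ((localGaloisToGlobal q).range : Set GQ) := by
  haveI : IsGalois ℚ_[q] Kb := ⟨⟩
  rw [MonoidHom.coe_range]
  exact (isCompact_range (continuous_localGaloisToGlobal q)).isClosed

/-- A decomposition element is continuous at zero. -/
theorem norm_smul_le {g : GQ} (hg : g ∈ (padicPlace q).decompositionSubgroup ℚ) {y : ℚb} {r : ℚ}
    (h : ‖padicEmbedding q y‖ ≤ ‖(r : Kb)‖) (hr : r ≠ 0) :
    ‖padicEmbedding q (g y)‖ ≤ ‖(r : Kb)‖ := by
  have hr' : (0 : ℝ) < ‖(r : Kb)‖ := norm_pos_iff.mpr (Rat.cast_ne_zero.mpr hr)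
  have hiff : ∀ z : ℚb, z / (r : ℚb) ∈ padicPlace q ↔ ‖padicEmbedding q z‖ ≤ ‖(r : Kb)‖ := by
    intro z
    rw [mem_padicPlace_iff, map_div₀, map_ratCast, ← NNReal.coe_le_coe, coe_nnnorm, norm_div,
      NNReal.coe_one, div_le_one hr']
  rw [← hiff] at h ⊢
  have h1 := ValuationSubring.smul_mem_pointwise_smul g _ _ h
  rw [show g • padicPlace q = padicPlace q from hg, AlgEquiv.smul_def, map_div₀, map_ratCast] at h1
  exact h1

/-- A decomposition element fixes what comes from `ℚ_q`. -/
theorem apply_eq_of_mem_padic {g : GQ} (hg : g ∈ (padicPlace q).decompositionSubgroup ℚ) {x : ℚb}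
    {c : ℚ_[q]} (hc : padicEmbedding q x = algebraMap ℚ_[q] Kb c) : g x = x := by
  apply (padicEmbedding q).toRingHom.injective
  show padicEmbedding q (g x) = padicEmbedding q x
  have hq : 1 < (q : ℝ) := by exact_mod_cast (Fact.out : q.Prime).one_lt
  rw [← sub_eq_zero, ← norm_eq_zero]
  refine le_antisymm (le_of_forall_pos_le_add fun ε hε => ?_) (norm_nonneg _)
  rw [zero_add]
  obtain ⟨n, hn⟩ := exists_pow_lt_of_lt_one hε (inv_lt_one_of_one_lt₀ hq)
  have hqn : ‖(((q : ℚ) ^ n : ℚ) : Kb)‖ = (q : ℝ)⁻¹ ^ n := by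
    rw [Rat.cast_pow, Rat.cast_natCast, norm_pow, ← map_natCast (algebraMap ℚ_[q] Kb),
      PadicAlgCl.norm_extends, Padic.norm_p]
  obtain ⟨s, hs⟩ := Padic.rat_dense (p := q) c (ε := (q : ℝ)⁻¹ ^ n) (by positivity)
  have hr0 : (q : ℚ) ^ n ≠ 0 := pow_ne_zero _ (Nat.cast_ne_zero.mpr (Fact.out : q.Prime).ne_zero)
  have h1 : ‖padicEmbedding q (x - (s : ℚb))‖ ≤ ‖(((q : ℚ) ^ n : ℚ) : Kb)‖ := by
    rw [map_sub, map_ratCast, hc, ← map_ratCast (algebraMap ℚ_[q] Kb), ← map_sub,
      PadicAlgCl.norm_extends, hqn]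
    exact hs.le
  have h2 := norm_smul_le hg h1 hr0
  rw [map_sub, map_ratCast] at h2
  rw [show padicEmbedding q (g x) - padicEmbedding q x =
    padicEmbedding q (g x - (s : ℚb)) + -padicEmbedding q (x - (s : ℚb)) by
      simp only [map_sub]; ring]
  refine (IsUltrametricDist.norm_add_le_max _ _).trans ((max_le h2 ?_).trans (hqn ▸ hn.le))
  rwa [norm_neg]

/-- The image of the local Galois group is the decomposition group. -/
theorem range_localGaloisToGlobal :
    (localGaloisToGlobal q).range = (padicPlace q).decompositionSubgroup ℚ := by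
  refine le_antisymm ?_ fun g hg => ?_
  · rintro _ ⟨τ, rfl⟩
    exact localGaloisToGlobal_mem_decompositionSubgroup q τ
  haveI : IsGalois ℚ ℚb := ⟨⟩
  haveI : IsGalois ℚ_[q] Kb := ⟨⟩
  have h := InfiniteGalois.fixingSubgroup_fixedField
    (⟨(localGaloisToGlobal q).range, isClosed_range_localGaloisToGlobal⟩ : ClosedSubgroup GQ)
  simp only at h
  rw [← h, IntermediateField.mem_fixingSubgroup_iff]
  intro x hx
  rw [IntermediateField.mem_fixedField_iff] at hx
  obtain ⟨c, hc⟩ := (InfiniteGalois.mem_range_algebraMap_iff_fixed (k := ℚ_[q])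
    (padicEmbedding q x)).mpr fun τ => by
      rw [← padicEmbedding_localGaloisToGlobal, hx _ ⟨τ, rfl⟩]
  exact apply_eq_of_mem_padic hg hc.symm

/-- The maps defining local restriction have the decomposition groups as images. -/
theorem range_extArithLoc {S : Finset Nat.Primes} (v : ExtCitation.extArithIndex S) :
    (ExtCitation.extArithLoc S v).range =
      decomp (match v with | Sum.inl _ => none | Sum.inr q => some q.1) := by
  rcases v with _ | q
  · exact Subgroup.range_subtype _
  · haveI : Fact (q.1 : ℕ).Prime := ⟨q.1.2⟩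
    exact range_localGaloisToGlobal

end Fermat.Agent.GD
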