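import Fermat.Agent.GD.Sha.Main
import Fermat.Agent.GD.Sha.LocalRange
import Fermat.Agent.GD.GW.Levels
import Fermat.Agent.GD.GW.Mu

/-!
# The Tate–Shafarevich groups of representations in terms of levels
-/

set_option autoImplicit false
set_option linter.unusedSectionVars false
set_option linter.style.haveILetI false

noncomputable section

namespace Fermat.Agent.GD

open Fermat.Agent.Galois (GQ)
open CategoryTheory groupCohomology ExtCitation
open scoped Pointwise

local notation "ℚb" => AlgebraicClosure ℚ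

variable {p : ℕ} [Fact p.Prime]

/-- The action of a representation. -/
@[reducible]
def repAct (M : Rep (ZMod p) GQ) : DistribMulAction GQ M where
  smul g m := M.ρ g m
  one_smul m := by show M.ρ 1 m = m; rw [map_one]; rfl
  mul_smul g h m := by show M.ρ (g * h) m = M.ρ g (M.ρ h m); rw [map_mul]; rfl
  smul_zero g := map_zero (M.ρ g)
  smul_add g := map_add (M.ρ g)

/-- Every field of finite degree lies in a normal one. -/
theorem exists_normal_le (F : IntermediateField ℚ ℚb) [FiniteDimensional ℚ F] :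
    ∃ K : IntermediateField ℚ ℚb, FiniteDimensional ℚ K ∧ K.fixingSubgroup.Normal ∧
      K.fixingSubgroup ≤ F.fixingSubgroup := by
  haveI : Normal ℚ ℚb := IsGalois.to_normal
  let K : IntermediateField ℚ ℚb := IntermediateField.normalClosure ℚ F ℚb
  haveI : FiniteDimensional ℚ K := normalClosure.is_finiteDimensional ℚ _ ℚb
  haveI : Normal ℚ K := normalClosure.normal ℚ _ ℚb
  haveI : IsGalois ℚ K := ⟨⟩
  exact ⟨K, inferInstance, inferInstance,
    IntermediateField.fixingSubgroup_le (IntermediateField.le_normalClosure F)⟩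

/-- A field unramified outside `S` contains the fixing group of a level of `S`. -/
theorem exists_LT_level_le {S : Finset Nat.Primes} {F : IntermediateField ℚ ℚb}
    (hF : F.IsUnramifiedOutside S) : ∃ N, (LT S).IsLevel N ∧ N ≤ F.fixingSubgroup := by
  haveI := hF.1
  obtain ⟨K, hK, hKn, hle⟩ := exists_normal_le F
  refine ⟨F.fixingSubgroup.normalCore, isLevel_of_inertia _
    ⟨K, hK, Subgroup.normal_le_normalCore.mpr hle⟩ fun q hq A hA σ hσ g => ?_,
    Subgroup.normalCore_le _⟩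
  refine hF.2 q hq (g • A) (liesOverPrime_smul hA g) ?_
  have e : g⁻¹ • g • A = A := inv_smul_smul g A
  have h := mem_inertia_conj (A := g • A) (g := g⁻¹) (σ := σ) (by rw [e]; exact hσ)
  rwa [inv_inv] at h

theorem const₁_iff {S : Finset Nat.Primes} {X : Type} {f : GQ → X} :
    (LT S).Const₁ f ↔ IsLevelConstantS₁ S f := by
  constructor
  · rintro ⟨_, ⟨F, hF, rfl, -⟩, h⟩
    exact ⟨F, hF, h⟩
  · rintro ⟨F, hF, h⟩
    obtain ⟨N, hN, hle⟩ := exists_LT_level_le hF
    exact ⟨N, hN, fun g s hs => h g s (hle hs)⟩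

theorem const₂_iff {S : Finset Nat.Primes} {X : Type} {f : GQ × GQ → X} :
    (LT S).Const₂ f ↔ IsLevelConstantS₂ S f := by
  constructor
  · rintro ⟨_, ⟨F, hF, rfl, -⟩, h⟩
    exact ⟨F, hF, fun g g' s s' hs hs' => h g g' s hs s' hs'⟩
  · rintro ⟨F, hF, h⟩
    obtain ⟨N, hN, hle⟩ := exists_LT_level_le hF
    exact ⟨N, hN, fun g g' s hs s' hs' => h g g' s s' (hle hs) (hle hs')⟩

/-- The place of an index. -/
def placeIdx {S : Finset Nat.Primes} : extArithIndex S → Place
  | Sum.inl _ => none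
  | Sum.inr q => some q.1

theorem placeIdx_mem {S : Finset Nat.Primes} (v : extArithIndex S) : placeIdx v ∈ placesOf S := by
  rcases v with _ | q
  · exact Finset.none_mem_insertNone
  · exact Finset.some_mem_insertNone.mpr q.2

theorem exists_placeIdx {S : Finset Nat.Primes} {v : Place} (hv : v ∈ placesOf S) :
    ∃ i : extArithIndex S, placeIdx i = v := by
  rcases v with _ | q
  · exact ⟨Sum.inl (), rfl⟩
  · exact ⟨Sum.inr ⟨q, Finset.some_mem_insertNone.mp hv⟩, rfl⟩

theorem extArithLoc_mem {S : Finset Nat.Primes} (v : extArithIndex S)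
    (g : extArithLocalGroups S v) : extArithLoc S v g ∈ decomp (placeIdx v) := by
  have h : extArithLoc S v g ∈ (extArithLoc S v).range := ⟨g, rfl⟩
  rw [range_extArithLoc] at h
  rcases v with _ | q <;> exact h

theorem exists_extArithLoc {S : Finset Nat.Primes} (v : extArithIndex S) {d : GQ}
    (hd : d ∈ decomp (placeIdx v)) : ∃ g, extArithLoc S v g = d := by
  have h : d ∈ (extArithLoc S v).range := by
    rw [range_extArithLoc]
    rcases v with _ | q <;> exact hd
  exact h

theorem smul_toMu (g : GQ) (a : ZMod p) : g • toMu p a = toMu p ((cycloChar p g : ZMod p) * a) := by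
  haveI : NeZero p := ⟨(Fact.out : p.Prime).ne_zero⟩
  have h1 : g • muUnit p = (cycloChar p g : ZMod p).val • muUnit p := by
    refine Additive.toMul.injective (Units.ext ?_)
    show g (muGen p) = ((muUnit p).toMul ^ (cycloChar p g : ZMod p).val : ℚbˣ)
    rw [Units.val_pow_eq_pow_val]
    exact modularCyclotomicCharacter.spec ℚb (card_rootsOfUnity_eq_self p)
      (g : ℚb ≃+* ℚb) (t := (muUnit p).toMul) (Units.ext (by
        rw [Units.val_pow_eq_pow_val]; exact (muGen_spec p).pow_eq_one))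
  conv_lhs => rw [← ZMod.natCast_zmod_val a, toMu_natCast, smul_comm, h1, ← mul_smul, ← toMu_natCast,
    Nat.cast_mul, ZMod.natCast_zmod_val, ZMod.natCast_zmod_val, mul_comm]

variable (S : Finset Nat.Primes) (M : Rep (ZMod p) GQ)

attribute [local instance] repAct actLT actLD

local notation "Dl" => Rep.dualTwist M (cycloChar p)

/-- Linear forms as elements of the dual. -/
def toDualMod : Dl →+ DualMod M where
  toFun ψ := (toMu p).comp (LinearMap.toAddMonoidHom (show Module.Dual (ZMod p) M from ψ))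
  map_zero' := AddMonoidHom.ext fun _ => map_zero (toMu p)
  map_add' _ _ := AddMonoidHom.ext fun _ => map_add (toMu p) _ _

theorem toDualMod_bijective : Function.Bijective (toDualMod M) := by
  refine ⟨fun ψ ψ' h => LinearMap.ext fun m => toMu_injective p
    (DFunLike.congr_fun (show (_ : M →+ Additive ℚbˣ) = _ from h) m), fun φ => ?_⟩
  have hp : ∀ m : M, ∃ a, toMu p a = (show M →+ Additive ℚbˣ from φ) m := fun m =>
    exists_toMu p (by
      rw [← map_nsmul, show p • m = 0 by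
        rw [← Nat.cast_smul_eq_nsmul (ZMod p), ZMod.natCast_self, zero_smul], map_zero])
  choose a ha using hp
  let f : M →+ ZMod p := AddMonoidHom.mk' a fun m m' => toMu_injective p (by
    rw [map_add, ha, ha, ha, map_add])
  exact ⟨f.toZModLinearMap p, AddMonoidHom.ext fun m => ha m⟩

/-- The dual of a representation as linear forms. -/
def dualEquiv : Dl ≃+ DualMod M := AddEquiv.ofBijective (toDualMod M) (toDualMod_bijective M)

theorem dualEquiv_smul (g : GQ) (ψ : Dl) :
    dualEquiv M ((Dl).ρ g ψ) = dualSmul M g (dualEquiv M ψ) :=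
  AddMonoidHom.ext fun m => (smul_toMu g _).symm

theorem isDualCocycle_iff (y : GQ → DualMod M) :
    IsDualCocycle S M y ↔ IsLevelConstantS₁ S ((dualEquiv M).symm ∘ y) ∧
      (dualEquiv M).symm ∘ y ∈ cocycles₁ Dl := by
  rw [IsDualCocycle, const₁_iff, mem_cocycles₁_iff]
  refine and_congr ⟨fun h => h.comp _, fun h => ?_⟩ (forall₂_congr fun g h => ?_)
  · have := h.comp (dualEquiv M)
    simpa [Function.comp_def] using this
  · simp only [Function.comp_apply]
    rw [← (dualEquiv M).injective.eq_iff, map_add, dualEquiv_smul,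
      AddEquiv.apply_symm_apply, AddEquiv.apply_symm_apply, AddEquiv.apply_symm_apply,
      add_comm (y g)]

theorem locRes_eq_zero_iff (v : extArithIndex S) (c : cocycles₁ Dl) :
    (locRes (extArithLoc S) Dl v).hom ((H1π Dl).hom c) = 0 ↔
      IsLocTrivial M (placeIdx v) (dualEquiv M ∘ c) := by
  rw [locRes, H1π_comp_map_apply, H1π_eq_zero_iff]
  constructor
  · rintro ⟨φ, hφ⟩
    refine ⟨dualEquiv M φ, fun d hd => ?_⟩
    obtain ⟨g, rfl⟩ := exists_extArithLoc v hd
    rw [← dualEquiv_smul, ← map_sub]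
    exact congrArg (dualEquiv M) (congrFun hφ g).symm
  · rintro ⟨φ, hφ⟩
    refine ⟨(dualEquiv M).symm φ, funext fun g => (dualEquiv M).injective ?_⟩
    rw [d₀₁_hom_apply, map_sub]
    show dualEquiv M ((Dl).ρ (extArithLoc S v g) _) - _ = _
    rw [dualEquiv_smul, AddEquiv.apply_symm_apply]
    exact (hφ _ (extArithLoc_mem v g)).symm

/-- The class of a locally trivial cocycle. -/
def sha1Class : locTrivOne S M →+ H1 Dl :=
  (H1π Dl).hom.toAddMonoidHom.comp (AddMonoidHom.mk'
    (fun y => (⟨(dualEquiv M).symm ∘ y.1, ((isDualCocycle_iff S M y.1).mp y.2.1).2⟩ : cocycles₁ Dl))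
    fun y y' => Subtype.ext (funext fun g => map_add (dualEquiv M).symm (y.1 g) (y'.1 g)))

theorem sha1Class_mem (y : locTrivOne S M) : sha1Class S M y ∈ sha₁ S Dl := by
  have h := (isDualCocycle_iff S M y.1).mp y.2.1
  refine ⟨(mem_continuousH1S_iff S Dl _).mpr ⟨⟨_, h.2⟩, h.1, rfl⟩,
    LinearMap.mem_ker.mpr (funext fun v => ?_)⟩
  refine (locRes_eq_zero_iff S M v ⟨_, h.2⟩).mpr ?_
  convert y.2.2 (placeIdx v) (placeIdx_mem v) using 1
  funext g
  exact (dualEquiv M).apply_symm_apply _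

theorem exists_sha1Class {x : H1 Dl} (hx : x ∈ sha₁ S Dl) :
    ∃ y : locTrivOne S M, sha1Class S M y = x := by
  obtain ⟨c, hc, rfl⟩ := (mem_continuousH1S_iff S Dl x).mp hx.1
  have e : (dualEquiv M).symm ∘ (dualEquiv M ∘ c) = c := funext fun g =>
    (dualEquiv M).symm_apply_apply _
  refine ⟨⟨dualEquiv M ∘ c, (isDualCocycle_iff S M _).mpr (by rw [e]; exact ⟨hc, c.2⟩),
    fun v hv => ?_⟩, congrArg (H1π Dl).hom (Subtype.ext e)⟩
  obtain ⟨i, rfl⟩ := exists_placeIdx hv
  exact (locRes_eq_zero_iff S M i c).mp (congrFun (LinearMap.mem_ker.mp hx.2) i)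

theorem sha1Class_eq_zero_iff (y : locTrivOne S M) :
    sha1Class S M y = 0 ↔ y ∈ (cobOne M).addSubgroupOf (locTrivOne S M) := by
  show (H1π Dl).hom _ = 0 ↔ IsDualCoboundary M y.1
  rw [H1π_eq_zero_iff]
  constructor
  · rintro ⟨φ, hφ⟩
    refine ⟨dualEquiv M φ, fun g => ?_⟩
    rw [← dualEquiv_smul, ← map_sub, ← d₀₁_hom_apply, hφ]
    exact ((dualEquiv M).apply_symm_apply _).symm
  · rintro ⟨φ, hφ⟩
    refine ⟨(dualEquiv M).symm φ, funext fun g => (dualEquiv M).injective ?_⟩
    rw [d₀₁_hom_apply, map_sub, dualEquiv_smul, AddEquiv.apply_symm_apply]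
    exact ((congrArg (dualEquiv M) rfl).trans (((dualEquiv M).apply_symm_apply _).trans (hφ g))).symm

/-- The first group is that of levels. -/
theorem exists_sha1_equiv : Nonempty (Sha1 S M ≃+ sha₁ S Dl) := by
  refine ⟨AddEquiv.ofBijective (QuotientAddGroup.lift _
    ((sha1Class S M).codRestrict (sha₁ S Dl).toAddSubgroup (sha1Class_mem S M))
    fun y hy => Subtype.ext ((sha1Class_eq_zero_iff S M y).mpr hy)) ⟨?_, ?_⟩⟩
  · refine (injective_iff_map_eq_zero _).mpr fun q hq => ?_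
    obtain ⟨y, rfl⟩ := QuotientAddGroup.mk_surjective q
    exact (QuotientAddGroup.eq_zero_iff y).mpr
      ((sha1Class_eq_zero_iff S M y).mp (congrArg Subtype.val hq))
  · rintro ⟨x, hx⟩
    obtain ⟨y, rfl⟩ := exists_sha1Class S M hx
    exact ⟨QuotientAddGroup.mk y, rfl⟩

theorem mem_Z2_iff (z : GQ × GQ → M) : z ∈ (LT S).Z2 M ↔ z ∈ levelCocyclesS₂ S M := by
  rw [mem_levelCocyclesS₂_iff, mem_cocycles₂_iff]
  refine Iff.trans (and_congr const₂_iff ?_) and_comm
  exact forall₃_congr fun g h j => eq_comm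

theorem d₁_eq (b : GQ → M) : (LT S).d₁ M b = (d₁₂ M).hom b :=
  funext fun _ => (d₁₂_hom_apply M b _).symm

theorem locRes₂S_eq_zero_iff (v : extArithIndex S) (z : (LT S).Z2 M) :
    locRes₂S S M (extArithLoc S v)
      (continuousH2Sπ S M ⟨z.1, (mem_Z2_iff S M z.1).mp z.2⟩) = 0 ↔
      (LD (placeIdx v)).IsB2 M
        fun y => z.1 ((y.1 : decomp (placeIdx v)).1, (y.2 : decomp (placeIdx v)).1) := by
  set f := extArithLoc S v with hf
  refine (continuousH2π_eq_zero_iff f _ _).trans ?_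
  rw [mem_levelCoboundaries₂_iff]
  constructor
  · rintro ⟨x, ⟨F, hF, hx⟩, hd⟩
    haveI := hF
    have hwd : ∀ a b, f a = f b → x b = x a := fun a b h => by
      have := hx a (a⁻¹ * b) (by rw [map_mul, map_inv, h, inv_mul_cancel]; exact one_mem _)
      rwa [mul_inv_cancel_left] at this
    choose sec hsec using fun d : decomp (placeIdx v) => exists_extArithLoc v d.2
    obtain ⟨K, hK, hKn, hle⟩ := exists_normal_le F
    refine ⟨fun d : decomp (placeIdx v) => x (sec d),
      ⟨_, ⟨K.fixingSubgroup, ⟨K, hK, rfl, hKn⟩, rfl⟩, fun (d s : decomp (placeIdx v)) hs => ?_⟩,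
      funext fun (y : decomp (placeIdx v) × decomp (placeIdx v)) => ?_⟩
    · have h1 : sec (d * s) = sec d * ((sec d)⁻¹ * sec (d * s)) := (mul_inv_cancel_left _ _).symm
      show x (sec (d * s)) = x (sec d)
      rw [h1]
      refine hx _ _ (hle ?_)
      rw [map_mul, map_inv, hsec, hsec]
      show (d : decomp (placeIdx v)).1⁻¹ * ((d : decomp (placeIdx v)).1 * (s : decomp (placeIdx v)).1) ∈ _
      rw [inv_mul_cancel_left]
      exact hs
    · obtain ⟨y₁, y₂⟩ := y
      have h := congrFun hd (sec y₁, sec y₂)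
      rw [d₁₂_hom_apply] at h
      dsimp only at h
      show M.ρ (y₁ : decomp (placeIdx v)).1 (x (sec y₂)) - x (sec (y₁ * y₂)) + x (sec y₁) = _
      rw [hwd (sec y₁ * sec y₂) (sec (y₁ * y₂)) (by rw [map_mul, hsec, hsec, hsec]; rfl),
        ← hsec y₁]
      refine h.trans ?_
      show z.1 (f (sec y₁), f (sec y₂)) = _
      rw [hsec, hsec]
  · rintro ⟨b, ⟨_, ⟨N, ⟨F, hF, rfl, -⟩, rfl⟩, hb⟩, hd⟩
    refine ⟨fun g => b (⟨f g, extArithLoc_mem v g⟩ : decomp (placeIdx v)), ⟨F, hF, fun g s hs => ?_⟩,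
      funext fun y => ?_⟩
    · refine Eq.trans (congrArg b (show (⟨f (g * s), _⟩ : decomp (placeIdx v)) =
        (⟨f g, extArithLoc_mem v g⟩ : decomp (placeIdx v)) * ⟨f s, extArithLoc_mem v s⟩
        from Subtype.ext (map_mul f g s))) ?_
      exact hb (⟨f g, extArithLoc_mem v g⟩ : decomp (placeIdx v))
        (⟨f s, extArithLoc_mem v s⟩ : decomp (placeIdx v)) hs
    · obtain ⟨y₁, y₂⟩ := y
      rw [d₁₂_hom_apply]
      refine Eq.trans ?_ (congrFun hd ((⟨f y₁, extArithLoc_mem v y₁⟩ : decomp (placeIdx v)),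
        (⟨f y₂, extArithLoc_mem v y₂⟩ : decomp (placeIdx v))))
      show M.ρ (f y₁) _ - b _ + _ = M.ρ (f y₁) _ - b _ + _
      congr 2
      exact congrArg b (Subtype.ext (map_mul f y₁ y₂))

/-- The class of a locally trivial two-cocycle. -/
def sha2Class : locTrivTwo S M →+ continuousH2S S M :=
  (continuousH2Sπ S M).toAddMonoidHom.comp (AddMonoidHom.mk'
    (fun z => (⟨z.1.1, (mem_Z2_iff S M z.1.1).mp z.1.2⟩ : levelCocyclesS₂ S M))
    fun _ _ => rfl)

theorem sha2Class_mem (z : locTrivTwo S M) : sha2Class S M z ∈ sha₂ S M :=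
  LinearMap.mem_ker.mpr (funext fun v =>
    (locRes₂S_eq_zero_iff S M v z.1).mpr (z.2 (placeIdx v) (placeIdx_mem v)))

theorem exists_sha2Class {x : continuousH2S S M} (hx : x ∈ sha₂ S M) :
    ∃ z : locTrivTwo S M, sha2Class S M z = x := by
  obtain ⟨c, rfl⟩ := Submodule.mkQ_surjective _ x
  refine ⟨⟨⟨c.1, (mem_Z2_iff S M c.1).mpr c.2⟩, fun v hv => ?_⟩, rfl⟩
  obtain ⟨i, rfl⟩ := exists_placeIdx hv
  exact (locRes₂S_eq_zero_iff S M i ⟨c.1, _⟩).mp (congrFun (LinearMap.mem_ker.mp hx) i)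

theorem sha2Class_eq_zero_iff (z : locTrivTwo S M) :
    sha2Class S M z = 0 ↔ z ∈ (cobTwo S M).addSubgroupOf (locTrivTwo S M) := by
  refine (continuousH2Sπ_eq_zero_iff S M _).trans ?_
  rw [mem_levelCoboundariesS₂_iff]
  show _ ↔ (LT S).IsB2 M z.1.1
  exact exists_congr fun b => by rw [const₁_iff, d₁_eq]; rfl

/-- The second group is that of levels. -/
theorem exists_sha2_equiv : Nonempty (Sha2 S M ≃+ sha₂ S M) := by
  refine ⟨AddEquiv.ofBijective (QuotientAddGroup.lift _
    ((sha2Class S M).codRestrict (sha₂ S M).toAddSubgroup (sha2Class_mem S M))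
    fun z hz => Subtype.ext ((sha2Class_eq_zero_iff S M z).mpr hz)) ⟨?_, ?_⟩⟩
  · refine (injective_iff_map_eq_zero _).mpr fun q hq => ?_
    obtain ⟨z, rfl⟩ := QuotientAddGroup.mk_surjective q
    exact (QuotientAddGroup.eq_zero_iff z).mpr
      ((sha2Class_eq_zero_iff S M z).mp (congrArg Subtype.val hq))
  · rintro ⟨x, hx⟩
    obtain ⟨z, rfl⟩ := exists_sha2Class S M hx
    exact ⟨QuotientAddGroup.mk z, rfl⟩

variable [FiniteDimensional (ZMod p) M]

set_option maxHeartbeats 1000000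

/-- The pairing of S55. -/
theorem exists_sha_pairing (hp2 : p ≠ 2) (hpS : pPrime p ∈ S)
    (hsm : ∀ m : M, ∃ F : IntermediateField ℚ ℚb, FiniteDimensional ℚ F ∧
      ∀ s ∈ F.fixingSubgroup, M.ρ s m = m)
    (hMur : ∀ q : Nat.Primes, q ∉ S → ∀ A : ValuationSubring ℚb,
      A.LiesOverPrime (q : ℕ) → ∀ g ∈ A.inertiaSubgroupIn ℚ, M.ρ g = 1) :
    ∃ B : sha₁ S Dl →ₗ[ZMod p] sha₂ S M →ₗ[ZMod p] ZMod p,
      (∀ y, (∀ x, B y x = 0) → y = 0) ∧ (∀ x, (∀ y, B y x = 0) → x = 0) := by
  haveI : Finite M := Module.finite_of_finite (ZMod p)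
  choose F hF hFm using hsm
  haveI := hF
  have hR : ∃ E : IntermediateField ℚ ℚb, FiniteDimensional ℚ E ∧
      ∀ σ : GQ, (∀ x ∈ E, σ x = x) → M.ρ σ = 1 :=
    ⟨⨆ m, F m, inferInstance, fun σ hσ => LinearMap.ext fun m => hFm m σ
      ((IntermediateField.mem_fixingSubgroup_iff _ _).mpr fun x hx => hσ x (le_iSup F m hx))⟩
  obtain ⟨N, hN, hμ, hNM⟩ := exists_level_ker (T := S) hpS M.ρ hR hMur
  obtain ⟨h1, h2, hcard⟩ := sha_card_eq hp2 S hpS M
    (fun m => by rw [← Nat.cast_smul_eq_nsmul (ZMod p), ZMod.natCast_self, zero_smul]) N hN hμ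
    (fun s hs m => LinearMap.congr_fun (hNM s hs) m)
  obtain ⟨e₁⟩ := exists_sha1_equiv S M
  obtain ⟨e₂⟩ := exists_sha2_equiv S M
  haveI : Finite (sha₁ S Dl) := Finite.of_equiv _ e₁.toEquiv
  haveI : Finite (sha₂ S M) := Finite.of_equiv _ e₂.toEquiv
  haveI : Module.Finite (ZMod p) (sha₁ S Dl) := Module.Finite.of_finite
  haveI : Module.Finite (ZMod p) (sha₂ S M) := Module.Finite.of_finite
  have hc : Nat.card (sha₁ S Dl) = Nat.card (sha₂ S M) := by
    rw [← Nat.card_congr e₁.toEquiv, ← Nat.card_congr e₂.toEquiv, hcard]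
  rw [Module.natCard_eq_pow_finrank (K := ZMod p) (V := ↥(sha₁ S Dl)),
    Module.natCard_eq_pow_finrank (K := ZMod p) (V := ↥(sha₂ S M)),
    Nat.card_zmod] at hc
  have hfr := Nat.pow_right_injective (Fact.out : p.Prime).two_le hc
  let e : sha₁ S Dl ≃ₗ[ZMod p] Module.Dual (ZMod p) (sha₂ S M) :=
    LinearEquiv.ofFinrankEq _ _ (by rw [Subspace.dual_finrank_eq]; exact hfr)
  refine ⟨e.toLinearMap, fun y hy => e.map_eq_zero_iff.mp (LinearMap.ext hy), fun x hx => ?_⟩
  refine (Module.forall_dual_apply_eq_zero_iff (ZMod p) x).mp fun φ => ?_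
  obtain ⟨y, rfl⟩ := e.surjective φ
  exact hx y

end Fermat.Agent.GD
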