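import Mathlib

/-!
# The principal ideal theorem, by Artin's determinant
-/

set_option autoImplicit false
set_option linter.unusedSectionVars false
set_option linter.style.haveILetI false

noncomputable section

namespace Fermat.Agent.GD.Capit

open MonoidAlgebra Matrix

variable {G : Type*} [Group G] {A : Type*} [CommGroup A] [Fintype A] {V : Type*} [AddCommGroup V]
variable (π : G →* A) (c : A → G → V)

local notation "R" => MonoidAlgebra ℤ A

/-- The linear extension of one component. -/
def val (g : G) : R →+ V :=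
  AddMonoidHom.mk' (fun x => x.coeff.sum fun s n => n • c s g) fun _ _ =>
    Finsupp.sum_add_index' (fun _ => zero_smul ℤ _) fun _ _ _ => add_smul _ _ _

theorem val_single (g : G) (s : A) (n : ℤ) : val c g (single s n) = n • c s g := by
  show (Finsupp.single s n).sum (fun s n => n • c s g) = n • c s g
  exact Finsupp.sum_single_index (zero_smul ℤ _)

/-- The augmentation. -/
def aug : R →+* ℤ := (MonoidAlgebra.lift ℤ ℤ A (1 : A →* ℤ)).toRingHom

theorem aug_single (s : A) (n : ℤ) : aug (single s n : R) = n := by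
  show MonoidAlgebra.lift ℤ ℤ A (1 : A →* ℤ) (single s n) = n
  simp [MonoidAlgebra.lift_single]

variable {n : ℕ} (gen : Fin n → G)

/-- A combination of the generators representing an element in the splitting module. -/
def Rep (h : G) (r : Fin n → R) : Prop :=
  (∀ s : A, ∑ i, val c (gen i) (single s 1 * r i) = c s h) ∧
    ∑ i, r i * (single (π (gen i)) 1 - 1) = single (π h) 1 - 1

variable {π c gen}

theorem rep_mul (hc : ∀ s g h, c s (g * h) = c (s * π h) g + c s h) {g h : G} {r r' : Fin n → R}
    (hr : Rep π c gen g r) (hr' : Rep π c gen h r') :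
    Rep π c gen (g * h) fun i => single (π h) 1 * r i + r' i := by
  refine ⟨fun s => ?_, ?_⟩
  · simp only [mul_add, map_add, Finset.sum_add_distrib, ← mul_assoc,
      MonoidAlgebra.single_mul_single, mul_one]
    rw [hr.1, hr'.1, hc]
  · simp only [add_mul, mul_assoc, Finset.sum_add_distrib, ← Finset.mul_sum]
    rw [hr.2, hr'.2, mul_sub, MonoidAlgebra.single_mul_single, mul_one, mul_one, map_mul,
      mul_comm (π g)]
    abel

theorem c_one (hc : ∀ s g h, c s (g * h) = c (s * π h) g + c s h) (s : A) : c s 1 = 0 := by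
  have := hc s 1 1
  simpa using this

theorem rep_one (hc : ∀ s g h, c s (g * h) = c (s * π h) g + c s h) : Rep π c gen 1 0 := by
  refine ⟨fun s => by simp [c_one hc s], ?_⟩
  simp [MonoidAlgebra.one_def]

theorem rep_inv (hc : ∀ s g h, c s (g * h) = c (s * π h) g + c s h) {g : G} {r : Fin n → R}
    (hr : Rep π c gen g r) :
    Rep π c gen g⁻¹ fun i => -(single (π g)⁻¹ 1 * r i) := by
  refine ⟨fun s => ?_, ?_⟩
  · simp only [mul_neg, map_neg, Finset.sum_neg_distrib, ← mul_assoc,
      MonoidAlgebra.single_mul_single, mul_one]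
    rw [hr.1, neg_eq_iff_add_eq_zero]
    have := hc s g g⁻¹
    rwa [mul_inv_cancel, c_one hc, map_inv, eq_comm] at this
  · simp only [neg_mul, mul_assoc, Finset.sum_neg_distrib, ← Finset.mul_sum]
    rw [hr.2, mul_sub, MonoidAlgebra.single_mul_single, mul_one, mul_one, inv_mul_cancel, map_inv,
      ← MonoidAlgebra.one_def]
    abel

theorem rep_gen (i : Fin n) : Rep π c gen (gen i) (Pi.single i 1) := by
  classical
  refine ⟨fun s => ?_, ?_⟩
  · rw [Finset.sum_eq_single i]
    · simp [val_single]
    · intro j _ hj; simp [Pi.single_eq_of_ne hj]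
    · simp
  · rw [Finset.sum_eq_single i]
    · simp
    · intro j _ hj; simp [Pi.single_eq_of_ne hj]
    · simp

variable {K : Set G}

theorem rep_K (hK : ∀ k ∈ K, π k = 1) (hKc : ∀ k ∈ K, ∀ s, c s k = 0) {k : G} (hk : k ∈ K) :
    Rep π c gen k 0 := by
  refine ⟨fun s => by simp [hKc k hk s], ?_⟩
  simp [hK k hk, MonoidAlgebra.one_def]

theorem exists_rep (hc : ∀ s g h, c s (g * h) = c (s * π h) g + c s h)
    (hK : ∀ k ∈ K, π k = 1) (hKc : ∀ k ∈ K, ∀ s, c s k = 0)
    (hgen : Subgroup.closure (Set.range gen ∪ K) = ⊤) (g : G) : ∃ r, Rep π c gen g r := by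
  have hg : g ∈ Subgroup.closure (Set.range gen ∪ K) := hgen ▸ Subgroup.mem_top g
  induction hg using Subgroup.closure_induction with
  | mem x hx =>
    rcases hx with ⟨i, rfl⟩ | hx
    · exact ⟨_, rep_gen i⟩
    · exact ⟨_, rep_K hK hKc hx⟩
  | one => exact ⟨_, rep_one hc⟩
  | mul a b _ _ ha hb =>
    obtain ⟨r, hr⟩ := ha
    obtain ⟨r', hr'⟩ := hb
    exact ⟨_, rep_mul hc hr hr'⟩
  | inv a _ ha =>
    obtain ⟨r, hr⟩ := ha
    exact ⟨_, rep_inv hc hr⟩

open scoped commutatorElement in
theorem exists_rep_aug_zero (hc : ∀ s g h, c s (g * h) = c (s * π h) g + c s h)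
    (hK : ∀ k ∈ K, π k = 1) (hKc : ∀ k ∈ K, ∀ s, c s k = 0)
    (hgen : Subgroup.closure (Set.range gen ∪ K) = ⊤)
    (hker : π.ker ≤ Subgroup.closure (commutatorSet G ∪ K)) {h : G} (hh : π h = 1) :
    ∃ r, Rep π c gen h r ∧ ∀ i, aug (r i) = 0 := by
  have hmem : h ∈ Subgroup.closure (commutatorSet G ∪ K) := hker hh
  clear hh
  induction hmem using Subgroup.closure_induction with
  | mem x hx =>
    rcases hx with ⟨a, b, rfl⟩ | hx
    · obtain ⟨ra, hra⟩ := exists_rep hc hK hKc hgen a
      obtain ⟨rb, hrb⟩ := exists_rep hc hK hKc hgen b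
      refine ⟨_, rep_mul hc (rep_mul hc (rep_mul hc hra hrb) (rep_inv hc hra)) (rep_inv hc hrb),
        fun i => ?_⟩
      simp [aug_single]
    · exact ⟨_, rep_K hK hKc hx, fun i => map_zero _⟩
  | one => exact ⟨_, rep_one hc, fun i => map_zero _⟩
  | mul a b _ _ ha hb =>
    obtain ⟨r, hr, hr0⟩ := ha
    obtain ⟨r', hr', hr0'⟩ := hb
    exact ⟨_, rep_mul hc hr hr', fun i => by simp [hr0 i, hr0' i]⟩
  | inv a _ ha =>
    obtain ⟨r, hr, hr0⟩ := ha
    exact ⟨_, rep_inv hc hr, fun i => by simp [hr0 i]⟩

/-- The relations among the images of the generators. -/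
def expMap (π : G →* A) (gen : Fin n → G) : (Fin n → ℤ) →+ Additive A :=
  AddMonoidHom.mk' (fun m => ∑ i, m i • Additive.ofMul (π (gen i))) fun m m' => by
    simp only [Pi.add_apply, add_smul, Finset.sum_add_distrib]

/-- Relation rows with prescribed augmentation. -/
theorem exists_row (hc : ∀ s g h, c s (g * h) = c (s * π h) g + c s h)
    (hK : ∀ k ∈ K, π k = 1) (hKc : ∀ k ∈ K, ∀ s, c s k = 0)
    (hgen : Subgroup.closure (Set.range gen ∪ K) = ⊤)
    (hker : π.ker ≤ Subgroup.closure (commutatorSet G ∪ K)) {m : Fin n → ℤ}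
    (hm : m ∈ (expMap π gen).ker) :
    ∃ r : Fin n → R, (∀ s : A, ∑ i, val c (gen i) (single s 1 * r i) = 0) ∧
      ∑ i, r i * (single (π (gen i)) 1 - 1) = 0 ∧ ∀ i, aug (r i) = m i := by
  classical
  have key : ∀ (T : Finset (Fin n)), ∃ h : G, ∃ r, Rep π c gen h r ∧
      Additive.ofMul (π h) = ∑ i ∈ T, m i • Additive.ofMul (π (gen i)) ∧
      ∀ i, aug (r i) = if i ∈ T then m i else 0 := by
    intro T
    induction T using Finset.induction_on with
    | empty => exact ⟨1, 0, rep_one hc, by simp, fun i => by simp⟩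
    | insert j T hj ih =>
      obtain ⟨h, r, hr, hπ, hr0⟩ := ih
      have hpow : ∀ e : ℤ, ∃ r, Rep π c gen (gen j ^ e) r ∧
          ∀ i, aug (r i) = if i = j then e else 0 := by
        intro e
        induction e with
        | zero => exact ⟨0, by rw [zpow_zero]; exact rep_one hc, fun i => by simp⟩
        | succ k ih =>
          obtain ⟨r', hr', h0⟩ := ih
          refine ⟨_, by rw [_root_.zpow_add_one]; exact rep_mul hc hr' (rep_gen j), fun i => ?_⟩
          simp only [map_add, map_mul, aug_single, h0 i, one_mul]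
          by_cases hi : i = j
          · subst hi; simp
          · simp [hi]
        | pred k ih =>
          obtain ⟨r', hr', h0⟩ := ih
          refine ⟨_, by rw [_root_.zpow_sub_one]; exact rep_mul hc hr' (rep_inv hc (rep_gen j)), fun i => ?_⟩
          simp only [map_add, map_mul, map_neg, aug_single, h0 i, one_mul]
          by_cases hi : i = j
          · subst hi; simp; ring
          · simp [hi]
      obtain ⟨r', hr', h0⟩ := hpow (m j)
      refine ⟨h * gen j ^ m j, _, rep_mul hc hr hr', ?_, fun i => ?_⟩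
      · rw [Finset.sum_insert hj, map_mul, map_zpow, ofMul_mul, ofMul_zpow, hπ, add_comm]
      · simp only [map_add, map_mul, aug_single, h0 i, hr0 i, one_mul, Finset.mem_insert]
        by_cases hi : i = j
        · subst hi; simp [hj]
        · simp [hi]
  obtain ⟨h, r, hr, hπ, hr0⟩ := key Finset.univ
  have hh : π h = 1 := Additive.ofMul.injective (by rw [hπ]; exact hm)
  obtain ⟨u, hu, hu0⟩ := exists_rep_aug_zero hc hK hKc hgen hker hh
  refine ⟨r - u, fun s => ?_, ?_, fun i => ?_⟩
  · simp only [Pi.sub_apply, mul_sub, map_sub, Finset.sum_sub_distrib]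
    rw [hr.1, hu.1, sub_self]
  · simp only [Pi.sub_apply, sub_mul, Finset.sum_sub_distrib]
    rw [hr.2, hu.2, sub_self]
  · simp [hr0 i, hu0 i]

/-- **The principal ideal theorem.** The transfer of a group to the commutator subgroup is
trivial. -/
theorem transfer_eq_zero (hπ : Function.Surjective π)
    (hc : ∀ s g h, c s (g * h) = c (s * π h) g + c s h)
    (hK : ∀ k ∈ K, π k = 1) (hKc : ∀ k ∈ K, ∀ s, c s k = 0)
    (gen : Fin n → G) (hgen : Subgroup.closure (Set.range gen ∪ K) = ⊤)
    (hker : π.ker ≤ Subgroup.closure (commutatorSet G ∪ K)) (g : G) : ∑ s : A, c s g = 0 := by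
  classical
  let Lat : AddSubgroup (Fin n → ℤ) := (expMap π gen).ker
  have hexp : Function.Surjective (expMap π gen) := by
    rw [← AddMonoidHom.range_eq_top, eq_top_iff]
    intro a _
    obtain ⟨x, hx⟩ := hπ a.toMul
    obtain ⟨r, hr⟩ : ∃ m, expMap π gen m = Additive.ofMul (π x) := by
      have hmem : x ∈ Subgroup.closure (Set.range gen ∪ K) := hgen ▸ Subgroup.mem_top x
      clear hx
      induction hmem using Subgroup.closure_induction with
      | mem y hy =>
        rcases hy with ⟨i, rfl⟩ | hy
        · refine ⟨Pi.single i 1, ?_⟩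
          show ∑ j, (Pi.single i (1 : ℤ) : Fin n → ℤ) j • Additive.ofMul (π (gen j)) = _
          rw [Finset.sum_eq_single i]
          · simp
          · intro j _ hj; simp [Pi.single_eq_of_ne hj]
          · simp
        · exact ⟨0, by rw [map_zero, hK y hy]; rfl⟩
      | one => exact ⟨0, by rw [map_zero, map_one]; rfl⟩
      | mul a b _ _ ha hb =>
        obtain ⟨m, hm⟩ := ha
        obtain ⟨m', hm'⟩ := hb
        exact ⟨m + m', by rw [map_add, hm, hm', map_mul]; rfl⟩
      | inv a _ ha =>
        obtain ⟨m, hm⟩ := ha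
        exact ⟨-m, by rw [map_neg, hm, map_inv]; rfl⟩
    exact ⟨r, hr.trans (congrArg Additive.ofMul hx)⟩
  have hidx : Lat.index = Fintype.card A := by
    rw [AddSubgroup.index_ker, AddMonoidHom.range_eq_top.mpr hexp, AddSubgroup.card_top,
      Nat.card_eq_fintype_card]
    exact Fintype.card_congr Additive.toMul
  haveI : Lat.FiniteIndex := ⟨by rw [hidx]; exact Fintype.card_ne_zero⟩
  obtain ⟨bL⟩ : Nonempty (Module.Basis (Fin n) ℤ Lat) := by
    obtain ⟨k, bk⟩ := Submodule.basisOfPid (Pi.basisFun ℤ (Fin n)) Lat.toIntSubmodule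
    have hk : k = n := by
      have h1 := Module.finrank_eq_card_basis bk
      have h2 : Module.finrank ℤ Lat.toIntSubmodule = n := by
        refine (AddSubgroup.finrank_eq_of_finiteIndex Lat).trans ?_
        simp
      simpa [h2] using h1.symm
    subst hk
    exact ⟨bk⟩
  choose row hrow1 hrow2 hrow3 using fun k : Fin n =>
    exists_row hc hK hKc hgen hker (bL k).2
  let M : Matrix (Fin n) (Fin n) R := Matrix.of fun k i => row k i
  -- the determinant kills the splitting module
  have hcomb : ∀ (q : Fin n → R),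
      (∀ s : A, ∑ i, val c (gen i) (single s 1 * (q ᵥ* M) i) = 0) ∧
        ∑ i, (q ᵥ* M) i * (single (π (gen i)) 1 - 1) = 0 := by
    intro q
    refine ⟨fun s => ?_, ?_⟩
    · simp only [Matrix.vecMul, dotProduct, Finset.mul_sum, map_sum]
      rw [Finset.sum_comm]
      refine Finset.sum_eq_zero fun k _ => ?_
      show ∑ i, val c (gen i) (single s 1 * (q k * row k i)) = 0
      induction q k using MonoidAlgebra.induction_linear with
      | zero => simp
      | add a b ha hb => simp [add_mul, mul_add, Finset.sum_add_distrib, ha, hb]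
      | single t z =>
        have e : ∀ i, single s 1 * (single t z * row k i) = z • (single (s * t) 1 * row k i) :=
          fun i => by
            rw [← mul_assoc, MonoidAlgebra.single_mul_single, one_mul, ← smul_mul_assoc,
              MonoidAlgebra.smul_single, smul_eq_mul, mul_one]
        simp only [e, map_zsmul]
        rw [← Finset.smul_sum, hrow1 k, smul_zero]
    · simp only [Matrix.vecMul, dotProduct, Finset.sum_mul]
      rw [Finset.sum_comm]
      refine Finset.sum_eq_zero fun k _ => ?_
      show ∑ i, q k * row k i * (single (π (gen i)) 1 - 1) = 0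
      simp only [mul_assoc, ← Finset.mul_sum, hrow2 k, mul_zero]
  have hdet : ∀ j, (∀ s : A, val c (gen j) (single s 1 * M.det) = 0) ∧
      M.det * (single (π (gen j)) 1 - 1) = 0 := by
    intro j
    have e : (M.adjugate j) ᵥ* M = M.det • (Pi.single j 1 : Fin n → R) := by
      funext i
      have := congrFun (congrFun (Matrix.adjugate_mul M) j) i
      rw [Matrix.mul_apply] at this
      simp only [Matrix.vecMul, dotProduct]
      rw [this]
      simp [Matrix.one_apply, Pi.single_apply, eq_comm]
    obtain ⟨h1, h2⟩ := hcomb (M.adjugate j)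
    rw [e] at h1 h2
    refine ⟨fun s => ?_, ?_⟩
    · have := h1 s
      rw [Finset.sum_eq_single j] at this
      · simpa using this
      · intro i _ hi; simp [Pi.single_eq_of_ne hi]
      · simp
    · rw [Finset.sum_eq_single j] at h2
      · simpa using h2
      · intro i _ hi; simp [Pi.single_eq_of_ne hi]
      · simp
  have hfix : ∀ x : G, M.det * single (π x) 1 = M.det := by
    intro x
    obtain ⟨r, hr⟩ := exists_rep hc hK hKc hgen x
    have e : M.det * (single (π x) 1 - 1) = 0 := by
      rw [← hr.2, Finset.mul_sum]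
      exact Finset.sum_eq_zero fun i _ => by rw [mul_left_comm, (hdet i).2, mul_zero]
    rwa [mul_sub, mul_one, sub_eq_zero] at e
  set z : ℤ := M.det.coeff 1
  have hconst : M.det = ∑ t : A, single t z := by
    refine MonoidAlgebra.ext (Finsupp.ext fun t => ?_)
    obtain ⟨x, hx⟩ := hπ t
    rw [MonoidAlgebra.coeff_sum, Finsupp.finsetSum_apply]
    simp only [MonoidAlgebra.coeff_single, Finsupp.single_apply]
    rw [Finset.sum_ite_eq', if_pos (Finset.mem_univ t)]
    conv_lhs => rw [← hfix x, hx, MonoidAlgebra.coeff_mul_single_apply]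
    simp [z]
  have haug : (aug M.det).natAbs = Fintype.card A := by
    rw [← hidx, AddSubgroup.index_eq_natAbs_det (Pi.basisFun ℤ (Fin n)) Lat bL,
      RingHom.map_det, Module.Basis.det_apply, ← Matrix.det_transpose]
    congr 2
    ext i k
    simp [M, Module.Basis.toMatrix_apply, hrow3]
  have hz : z = 1 ∨ z = -1 := by
    rw [hconst, map_sum] at haug
    simp only [aug_single, Finset.sum_const, Finset.card_univ, nsmul_eq_mul, Int.natAbs_mul,
      Int.natAbs_natCast] at haug
    have h1 : z.natAbs = 1 :=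
      (mul_eq_left₀ (Fintype.card_ne_zero (α := A))).mp haug
    exact Int.natAbs_eq_iff.mp h1
  have hg : ∀ j, z • ∑ t : A, c t (gen j) = 0 := fun j => by
    have := (hdet j).1 1
    rw [← MonoidAlgebra.one_def, one_mul, hconst, map_sum] at this
    simp only [val_single] at this
    rwa [← Finset.smul_sum] at this
  have hgen0 : ∀ j, ∑ t : A, c t (gen j) = 0 := fun j => by
    rcases hz with h | h
    · simpa [h] using hg j
    · simpa [h] using hg j
  have hmem : g ∈ Subgroup.closure (Set.range gen ∪ K) := hgen ▸ Subgroup.mem_top g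
  induction hmem using Subgroup.closure_induction with
  | mem x hx =>
    rcases hx with ⟨i, rfl⟩ | hx
    · exact hgen0 i
    · exact Finset.sum_eq_zero fun s _ => hKc x hx s
  | one => exact Finset.sum_eq_zero fun s _ => c_one hc s
  | mul a b _ _ ha hb =>
    simp only [hc _ a b, Finset.sum_add_distrib]
    rw [hb, add_zero, ← ha]
    exact Fintype.sum_equiv (Equiv.mulRight (π b)) _ _ fun s => rfl
  | inv a _ ha =>
    have h1 : ∀ s, c (s * π a⁻¹) a + c s a⁻¹ = 0 := fun s => by
      rw [← hc, mul_inv_cancel, c_one hc]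
    have h2 : ∑ s : A, (c (s * π a⁻¹) a + c s a⁻¹) = 0 := Finset.sum_eq_zero fun s _ => h1 s
    rw [Finset.sum_add_distrib, Fintype.sum_equiv (Equiv.mulRight (π a⁻¹))
      (fun s => c (s * π a⁻¹) a) (fun s => c s a) (fun s => rfl), ha, zero_add] at h2
    exact h2

end Fermat.Agent.GD.Capit
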