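import Fermat.Agent.GD.Bases.Euler.ClassesModP
import Fermat.Agent.GD.Global.ClassFormation.Cyclic
import Fermat.Agent.GD.Global.ClassFormation.Second.Decomp
import Fermat.Agent.GD.Global.SUnits.Big
import Fermat.Agent.GD.Global.Basic

/-!
# Fixed classes modulo the local ones form a finite group
-/

set_option autoImplicit false
set_option linter.style.haveILetI false
set_option linter.unusedSectionVars false

noncomputable section

namespace Fermat.Agent.GD

open Fermat.Agent.Galois
open scoped Pointwise NumberField nonZeroDivisors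

local notation "ℚb" => AlgebraicClosure ℚ

variable {T : Finset Nat.Primes}

set_option maxHeartbeats 1000000 in
/-- An element with a single zero, of order `n`, among the places outside `T`. -/
theorem exists_single_pow {N H : Subgroup GQ} (hN : (LT T).IsLevel N) (hle : N ≤ H)
    {F : IntermediateField ℚ ℚb} [NumberField F] (hfix : F.fixingSubgroup = H)
    {q : Nat.Primes} (hq : q ∉ T) (c : GQ) :
    ∃ x : ℚbˣ, (∀ h ∈ H, h • x = x) ∧
      (∀ g, DoubleCoset.mk (decomp (some q)) H g = DoubleCoset.mk (decomp (some q)) H c →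
        (placeAt q).valuation ((g • x : ℚbˣ) : ℚb) =
          (placeAt q).valuation ((q : ℕ) : ℚb) ^ Fintype.card (ClassGroup (𝓞 F))) ∧
      ∀ q' : Nat.Primes, ∀ g, (q' ≠ q ∨
          DoubleCoset.mk (decomp (some q)) H g ≠ DoubleCoset.mk (decomp (some q)) H c) →
        (placeAt q').valuation ((g • x : ℚbˣ) : ℚb) = 1 := by
  obtain ⟨n, hn⟩ : ∃ n, n = Fintype.card (ClassGroup (𝓞 F)) := ⟨_, rfl⟩
  rw [← hn]
  have hA := placeAt_liesOverPrime q
  have hAc := liesOverPrime_smul hA c⁻¹
  set P := primeUnder F (c⁻¹ • placeAt q) with hP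
  have hqP : ((q : ℕ) : 𝓞 F) ∈ P := (natCast_mem_primeUnder q.2 hAc q).mpr dvd_rfl
  have hPmax : P.IsMaximal := isMaximal_primeUnder q.2 hAc
  have hP0 : P ≠ ⊥ := fun h => by
    rw [h, Ideal.mem_bot] at hqP
    exact q.2.ne_zero (by exact_mod_cast hqP)
  have hmem : P ∈ (Ideal (𝓞 F))⁰ := mem_nonZeroDivisors_of_ne_zero hP0
  have hcls : ClassGroup.mk0 (⟨P ^ n, pow_mem hmem n⟩ : (Ideal (𝓞 F))⁰) = 1 := by
    rw [← SubmonoidClass.mk_pow _ hmem, map_pow, hn, pow_card_eq_one]
  have hprinc := (ClassGroup.mk0_eq_one_iff (pow_mem hmem n)).mp hcls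
  obtain ⟨π, hπ⟩ := hprinc.principal
  have hπ' : P ^ n = Ideal.span {π} := hπ
  have hπ0 : π ≠ 0 := fun h => by
    rw [h, Ideal.span_singleton_eq_bot.mpr rfl] at hπ'
    exact pow_ne_zero n hP0 hπ'
  have hπb : ((π : F) : ℚb) ≠ 0 := by exact_mod_cast hπ0
  have hHfix : ∀ h ∈ H, ∀ x ∈ F, h x = x := fun h hh x hx =>
    (IntermediateField.mem_fixingSubgroup_iff F h).mp (hfix ▸ hh) x hx
  have hdiv : ∀ z ∈ P, ∀ (A : ValuationSubring ℚb) (g : GQ), (∀ w : 𝓞 F,
      A.valuation (g ((w : F) : ℚb)) ≤ 1) →
      A.valuation (g ((z : F) : ℚb)) ^ n ≤ A.valuation (g ((π : F) : ℚb)) := by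
    intro z hz A g hint
    obtain ⟨w, hw⟩ := Ideal.mem_span_singleton'.mp (hπ' ▸ Ideal.pow_mem_pow hz n)
    have h1 := congrArg (fun a : 𝓞 F => A.valuation (g ((a : F) : ℚb))) hw.symm
    push_cast at h1
    rw [map_pow, map_pow, map_mul, map_mul] at h1
    rw [h1]
    exact mul_le_of_le_one_left' (hint w)
  refine ⟨Units.mk0 _ hπb, fun h hh => Units.ext (hHfix h hh _ (π : F).2), fun g hg => ?_,
    fun q' g hne => ?_⟩
  · obtain ⟨d, hd, h, hh, rfl⟩ := (DoubleCoset.eq _ _ c g).mp hg.symm
    show (placeAt q).valuation ((d * c * h) ((π : F) : ℚb)) = _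
    rw [AlgEquiv.mul_apply, AlgEquiv.mul_apply, hHfix h hh _ (π : F).2,
      Galois.valuation_apply_eq (σ := d) hd]
    have hv1 := natCast_val_lt_one hA
    have hv0 : 0 < (placeAt q).valuation ((q : ℕ) : ℚb) :=
      zero_lt_iff.mpr (natCast_val_ne_zero q.2)
    -- elements of the prime have value at most that of the uniformiser
    have hstep : ∀ z ∈ P, (placeAt q).valuation (c ((z : F) : ℚb)) ≤
        (placeAt q).valuation ((q : ℕ) : ℚb) := by
      intro z hz
      rcases eq_or_ne z 0 with rfl | hz0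
      · simp
      have hlt : (placeAt q).valuation (c ((z : F) : ℚb)) < 1 :=
        (valuation_smul_lt_one_iff _ _ _).mpr (mem_primeUnder.mp hz)
      have hy : c ((z : F) : ℚb) ∈ fieldOf (N.subgroupOf (decomp (some q))) := fun s hs => by
        have hs' : (toGQ s) ∈ N := Subgroup.mem_subgroupOf.mp hs
        have h1 : c⁻¹ * toGQ s * c ∈ H := hle (by
          have := ((LT T).normal N hN).conj_mem _ hs' c⁻¹
          simpa using! this)
        have h2 := hHfix _ h1 _ (z : F).2
        rw [AlgEquiv.mul_apply, AlgEquiv.mul_apply] at h2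
        have h3 := congrArg c h2
        rwa [← AlgEquiv.mul_apply, mul_inv_cancel, AlgEquiv.one_apply] at h3
      obtain ⟨k, hk⟩ := exists_val_eq_zpow_of_inertia (unram_level hN hq) le_rfl hy
        ((map_ne_zero c).mpr (by exact_mod_cast hz0))
      rw [hk] at hlt ⊢
      have hk1 : 0 < k := by
        by_contra hc
        exact absurd hlt (not_lt.mpr (one_le_zpow_of_nonpos₀ hv0 hv1.le (not_lt.mp hc)))
      conv_rhs => rw [← zpow_one ((placeAt q).valuation ((q : ℕ) : ℚb))]
      exact zpow_le_zpow_right_of_le_one₀ hv0 hv1.le hk1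
    refine le_antisymm ?_ ?_
    · have hpow : ∀ j : ℕ, ∀ z ∈ P ^ j, (placeAt q).valuation (c ((z : F) : ℚb)) ≤
          (placeAt q).valuation ((q : ℕ) : ℚb) ^ j := by
        intro j
        induction j with
        | zero => intro z _; rw [pow_zero]; exact valuation_smul_int_le_one c z
        | succ j ih =>
          intro z hz
          rw [pow_succ] at hz
          refine Submodule.mul_induction_on hz (fun a ha b hb => ?_) fun a b ha hb => ?_
          · push_cast
            rw [map_mul, map_mul, pow_succ]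
            exact mul_le_mul' (ih a ha) (hstep b hb)
          · push_cast
            rw [map_add]
            exact ((placeAt q).valuation.map_add _ _).trans (max_le ha hb)
      exact hpow n π (hπ' ▸ Ideal.mem_span_singleton_self π)
    · have := hdiv _ hqP (placeAt q) c fun w => valuation_smul_int_le_one c w
      rwa [valuation_apply_natCast] at this
  · show (placeAt q').valuation (g ((π : F) : ℚb)) = 1
    refine le_antisymm (valuation_smul_int_le_one g π) ?_
    have hAg := liesOverPrime_smul (placeAt_liesOverPrime q') g⁻¹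
    have hne' : ¬ P ≤ primeUnder F (g⁻¹ • placeAt q') := by
      intro hP'
      have heq := hPmax.eq_of_le (isMaximal_primeUnder (F := F) q'.2 hAg).ne_top hP'
      have h1 := hqP
      rw [heq, natCast_mem_primeUnder q'.2 hAg] at h1
      have hqq : q' = q := Subtype.ext ((Nat.prime_dvd_prime_iff_eq q'.2 q.2).mp h1)
      subst hqq
      obtain ⟨h, hh, hA'⟩ := exists_smul_eq_of_primeUnder_eq q'.2 hAc hAg heq
      rw [hfix] at hh
      have hd : g * h * c⁻¹ ∈ decomp (some q') := by
        show g * h * c⁻¹ ∈ MulAction.stabilizer GQ (placeAt q')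
        rw [MulAction.mem_stabilizer_iff, mul_smul, mul_smul, ← hA', smul_inv_smul]
      exact hne.resolve_left (not_not.mpr rfl) ((DoubleCoset.eq _ _ g c).mpr
        ⟨(g * h * c⁻¹)⁻¹, inv_mem hd, h, hh, by group⟩)
    obtain ⟨z, hzP, hz⟩ := SetLike.not_le_iff_exists.mp hne'
    have h1 : (placeAt q').valuation (g ((z : F) : ℚb)) = 1 :=
      le_antisymm (valuation_smul_int_le_one g z) (not_lt.mp fun h => hz ((mem_primeUnder_smul g).mpr h))
    have := hdiv z hzP (placeAt q') g fun w => valuation_smul_int_le_one g w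
    rwa [h1, one_pow] at this

variable (S : Finset Nat.Primes) (H : Subgroup (LT S).G)

/-- The classes of the fixed ideles with units away from `S`. -/
def locClasses : AddSubgroup (fixPts (ClassT S) H) :=
  ((classHom S).comp (unitIdeles S (show Subgroup GQ from H)).subtype).range.addSubgroupOf
    (fixPts (ClassT S) H)

/-- The `S`-class group. -/
abbrev ClS : Type := fixPts (ClassT S) H ⧸ locClasses S H

variable {S}

/-- Division by a principal idele does not change the class. -/
theorem toClass_div_diag {x : ℚbˣ} {N : Subgroup GQ} (hN : (LT S).IsLevel N)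
    (hx : ∀ s ∈ N, s • x = x) (f : idele S) (hd : diag x ∈ idele S) :
    toClass S (f / ⟨diag x, hd⟩) = toClass S f := by
  refine (toClass_eq_iff _ _).mpr ?_
  have e : f / (⟨diag x, hd⟩ : idele S) / f = (⟨diag x, hd⟩ : idele S)⁻¹ := by
    rw [div_div, mul_comm, ← div_div, div_self', one_div]
  rw [e]
  exact inv_mem (Subgroup.mem_subgroupOf.mpr
    (Subgroup.mem_sup_left ⟨x, ⟨N, hN, hx⟩, rfl⟩))

set_option maxHeartbeats 2000000 in
/-- The `S`-class group is finite. -/
theorem finite_clS_open {Hq : Subgroup GQ} (hH : (LT S).IsOpen Hq) : Finite (ClS S Hq) := by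
  classical
  have hHo := hH
  obtain ⟨N, hN, hle⟩ := hH
  haveI hHfi : Hq.FiniteIndex :=
    haveI : (show Subgroup GQ from N).FiniteIndex := (LT S).finiteIndex N hN
    Subgroup.finiteIndex_of_le (H := (show Subgroup GQ from N)) hle
  have hfix := fixingSubgroup_fixedField_open hHo
  set F := (IntermediateField.fixedField Hq : IntermediateField ℚ ℚb)
  haveI := finiteDimensional_fixed (T := S) (H := Hq) hN hle
  haveI : NumberField F := NumberField.mk
  set n := Fintype.card (ClassGroup (𝓞 F)) with hn
  haveI : NeZero n := ⟨Fintype.card_ne_zero⟩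
  obtain ⟨T', hST, hbig⟩ := exists_isBig S N hN
  -- representatives with units outside `T'`
  have hrep : ∀ c : fixPts (L := LT S) (ClassT S) Hq, ∃ f : idele S, (∀ h ∈ Hq, lt S h • f = f) ∧
      toClass S f = (c : ClassT S) ∧ ∀ q ∉ T', ∀ g, f.1 (some q) g ∈ (placeAt q).unitGroup := by
    intro c
    obtain ⟨f, hf, hfc⟩ := exists_fixed_lift S Hq hHo (c : ClassT S) c.2
    obtain ⟨x, hx, hxu⟩ := hbig T' subset_rfl Hq hle
      ⟨f.1, idele_mono hST f.2⟩ fun h hh => congrArg Subtype.val (hf h hh)
    have hd : diag x ∈ idele S := by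
      refine diag_mem_idele_units hN (fun s hs => hx s (hle hs))
        (Z := (↑T' : Set Nat.Primes) ∪ {q | ∃ g, f.1 (some q) g ∉ (placeAt q).unitGroup})
        (T'.finite_toSet.union f.2.2.2) fun q hq g => ?_
      simp only [Set.mem_union, Finset.mem_coe, Set.mem_setOf_eq, not_or, not_exists, not_not] at hq
      have h1 := hxu q hq.1 g
      have h2 : g • x = f.1 (some q) g / (f.1 (some q) g / (g • x)) := (div_div_cancel _ _).symm
      rw [h2]
      exact div_mem (hq.2 g) h1
    refine ⟨f / ⟨diag x, hd⟩, fun h hh => ?_, ?_, fun q hq g => hxu q hq g⟩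
    · have e : lt S h • (⟨diag x, hd⟩ : idele S) = ⟨diag x, hd⟩ := Subtype.ext (funext fun v => funext fun g => by
        show ((g : GQ) * h) • x = g • x
        rw [mul_smul]; exact congrArg (g • ·) (hx h hh))
      rw [smul_div', hf (lt S h) hh, e]
    · rw [toClass_div_diag hN (fun s hs => hx s (hle hs)), hfc]
  choose f hfH hfc hfu using hrep
  -- their orders
  have hk : ∀ (c : fixPts (L := LT S) (ClassT S) Hq) (q : {q : Nat.Primes // q ∈ T' \ S}) (g : GQ), ∃ k : ℤ,
      (placeAt q.1).valuation (((f c).1 (some q.1) g : ℚbˣ) : ℚb) =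
        (placeAt q.1).valuation ((q.1 : ℕ) : ℚb) ^ k := fun c q g => by
    refine exists_val_eq_zpow_of_inertia (unram_level hN (Finset.mem_sdiff.mp q.2).2) le_rfl ?_
      (Units.ne_zero _)
    intro s hs
    have hs' : toGQ s ∈ N := Subgroup.mem_subgroupOf.mp hs
    have h1 := (f c).2.1 (some q.1) (toGQ s) (show decomp (some q.1) from s).2 g
    have h3 : (g⁻¹ * toGQ s * g : GQ) ∈ Hq := hle (by
      have := ((LT S).normal N hN).conj_mem _ hs' g⁻¹
      simpa using! this)
    have h2 : (f c).1 (some q.1) (g * (g⁻¹ * toGQ s * g)) = (f c).1 (some q.1) g :=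
      congrFun (congrFun (congrArg Subtype.val (hfH c _ h3)) (some q.1)) g
    rw [show toGQ s * g = g * (g⁻¹ * toGQ s * g) by group, h2] at h1
    exact (congrArg Units.val h1).symm
  choose k hk using hk
  haveI hfinDC : ∀ q : {q : Nat.Primes // q ∈ T' \ S}, Finite (PlacesAbove (some q.1) Hq) :=
    fun q => finite_placesAbove _ _
  letI hDC := fun q : {q : Nat.Primes // q ∈ T' \ S} =>
    Fintype.ofFinite (PlacesAbove (some q.1) Hq)
  refine Finite.of_injective
    (β := ∀ q : {q : Nat.Primes // q ∈ T' \ S}, PlacesAbove (some q.1) Hq → ZMod n)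
    (fun c q w => (k c.out q w.out : ZMod n)) fun a b hab => ?_
  have hdvd : ∀ q (w : PlacesAbove (some q.1) Hq),
      (n : ℤ) ∣ k b.out q w.out - k a.out q w.out := fun q w =>
    (ZMod.intCast_eq_intCast_iff_dvd_sub _ _ _).mp (congrFun (congrFun hab q) w)
  choose m hm using hdvd
  have hsing := fun (q : {q : Nat.Primes // q ∈ T' \ S}) (c : GQ) =>
    exists_single_pow (H := Hq) hN hle hfix (Finset.mem_sdiff.mp q.2).2 c
  choose π hπH hπone hπother using hsing
  set x : ℚbˣ := ∏ q : {q : Nat.Primes // q ∈ T' \ S},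
    ∏ w : PlacesAbove (some q.1) Hq, π q w.out ^ m q w with hx
  have hxH : ∀ h : GQ, h ∈ Hq → h • x = x := fun h hh => by
    rw [hx, Finset.smul_prod']
    refine Finset.prod_congr rfl fun q _ => ?_
    rw [Finset.smul_prod']
    exact Finset.prod_congr rfl fun w _ => by rw [smul_zpow', hπH _ _ h hh]
  have hxval : ∀ (q : Nat.Primes) (hqS : q ∉ S) (g : GQ), valHom q g x =
      if hq : q ∈ T' then valHom q g (π ⟨q, Finset.mem_sdiff.mpr ⟨hq, ‹_›⟩⟩
        (DoubleCoset.mk (decomp (some q)) Hq g).out ^
          m ⟨q, Finset.mem_sdiff.mpr ⟨hq, ‹_›⟩⟩ (DoubleCoset.mk (decomp (some q)) _ g))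
      else 1 := by
    intro q hqS g
    rw [hx, map_prod]
    split_ifs with hq
    · letI : Fintype (DoubleCoset.Quotient (decomp (some q) : Set GQ) (Hq : Set GQ)) :=
        hDC ⟨q, Finset.mem_sdiff.mpr ⟨hq, hqS⟩⟩
      rw [Finset.prod_eq_single (⟨q, Finset.mem_sdiff.mpr ⟨hq, hqS⟩⟩ :
          {q : Nat.Primes // q ∈ T' \ S}) (fun q' _ hne => ?_)
          (fun h => absurd (Finset.mem_univ _) h), map_prod,
        Finset.prod_eq_single (DoubleCoset.mk (decomp (some q)) Hq g)
          (fun w _ hne => ?_) (fun h => absurd (Finset.mem_univ _) h)]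
      · rw [map_zpow]
        exact (congrArg (· ^ _) (hπother _ _ q g
          (Or.inr fun e => hne (by rw [← DoubleCoset.out_eq' _ _ w, e])))).trans (one_zpow _)
      · rw [map_prod]
        refine Finset.prod_eq_one fun w _ => ?_
        rw [map_zpow]
        exact (congrArg (· ^ _) (hπother q' _ q g
          (Or.inl fun e => hne (Subtype.ext e.symm)))).trans (one_zpow _)
    · refine Finset.prod_eq_one fun q' _ => ?_
      rw [map_prod]
      refine Finset.prod_eq_one fun w _ => ?_
      rw [map_zpow]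
      exact (congrArg (· ^ _) (hπother q' _ q g
        (Or.inl fun e => hq (e ▸ (Finset.mem_sdiff.mp q'.2).1)))).trans (one_zpow _)
  have hd : diag x ∈ idele S := by
    refine diag_mem_idele_units hN (fun s hs => hxH s (hle hs)) T'.finite_toSet fun q hq g => ?_
    have hqS : q ∉ S := fun h => hq (hST h)
    have := hxval q hqS g
    rw [dif_neg (show ¬ q ∈ T' from hq)] at this
    exact (ValuationSubring.mem_unitGroup_iff _ _).mpr this
  -- the quotient has units outside `S`
  have hu : ∀ q ∉ S, ∀ g, ((f b.out).1 (some q) g / (f a.out).1 (some q) g) / (g • x) ∈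
      (placeAt q).unitGroup := by
    intro q hqS g
    by_cases hq : q ∈ T'
    · rw [ValuationSubring.mem_unitGroup_iff]
      set q' : {q : Nat.Primes // q ∈ T' \ S} := ⟨q, Finset.mem_sdiff.mpr ⟨hq, hqS⟩⟩
      set w := DoubleCoset.mk (decomp (some q)) Hq g with hw
      have hv := hxval q hqS g
      rw [dif_pos hq, map_zpow] at hv
      have h1 : valHom q g (π q' w.out) = (placeAt q).valuation ((q : ℕ) : ℚb) ^ n :=
        hπone q' w.out g (DoubleCoset.out_eq' _ _ w).symm
      rw [h1, ← zpow_natCast, ← zpow_mul, ← hm] at hv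
      have hval : ∀ c : fixPts (L := LT S) (ClassT S) Hq, (placeAt q).valuation (((f c).1 (some q) g : ℚbˣ) : ℚb) =
          (placeAt q).valuation ((q : ℕ) : ℚb) ^ k c q' w.out := fun c => by
        rw [← hk c q' w.out]
        obtain ⟨d, h, hdd, hh, hout⟩ :=
          DoubleCoset.mk_out_eq_mul (decomp (some q)) Hq g
        have h2 : (f c).1 (some q) (d * g * h) = (f c).1 (some q) (d * g) :=
          congrFun (congrFun (congrArg Subtype.val (hfH c h hh)) (some q)) (d * g)
        show _ = (placeAt q).valuation (((f c).1 (some q) w.out : ℚbˣ) : ℚb)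
        rw [hw, hout, h2, (f c).2.1 (some q) d hdd g]
        exact (Galois.valuation_apply_eq (σ := d) hdd _).symm
      have hv0 : (placeAt q).valuation ((q : ℕ) : ℚb) ≠ 0 := natCast_val_ne_zero q.2
      rw [Units.val_div_eq_div_val, Units.val_div_eq_div_val, map_div₀, map_div₀, hval, hval,
        ← zpow_sub₀ hv0, show (placeAt q).valuation ((g • x : ℚbˣ) : ℚb) = _ from hv]
      exact div_self (zpow_ne_zero _ hv0)
    · refine div_mem (div_mem (hfu _ q hq g) (hfu _ q hq g)) ?_
      have := hxval q hqS g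
      rw [dif_neg hq] at this
      exact (ValuationSubring.mem_unitGroup_iff _ _).mpr this
  suffices h : b.out - a.out ∈ locClasses S Hq by
    rw [← QuotientAddGroup.out_eq' a, ← QuotientAddGroup.out_eq' b]
    exact QuotientAddGroup.eq_iff_sub_mem.mpr (by simpa using neg_mem h)
  refine AddSubgroup.mem_addSubgroupOf.mpr
    ⟨⟨Additive.ofMul (f b.out / f a.out / (⟨diag x, hd⟩ : idele S)), fun h hh => ?_,
      fun q hq g => hu q hq g⟩, ?_⟩
  · have e : (lt S h) • (⟨diag x, hd⟩ : idele S) = ⟨diag x, hd⟩ :=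
      Subtype.ext (funext fun v => funext fun g => by
        show ((g : GQ) * h) • x = g • x
        rw [mul_smul, hxH h hh])
    refine congrArg Additive.ofMul ?_
    show lt S h • (f b.out / f a.out / (⟨diag x, hd⟩ : idele S)) = _
    rw [smul_div', smul_div', hfH _ _ hh, hfH _ _ hh, e]
  · show toClass S (f b.out / f a.out / ⟨diag x, hd⟩) = _
    rw [toClass_div_diag hN (fun s hs => hxH s (hle hs)), AddSubgroup.coe_sub, ← hfc, ← hfc]
    exact congrArg Additive.ofMul (map_div (mkClass S) _ _)

/-- The `S`-class group is finite. -/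
theorem finite_clS (S : Finset Nat.Primes) (H : Subgroup (LT S).G) (hH : (LT S).IsOpen H) :
    Finite (ClS S H) :=
  finite_clS_open (Hq := (show Subgroup GQ from H)) hH

end Fermat.Agent.GD
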