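import Fermat.Agent.GD.Engine.Artin.Perm
import Fermat.Agent.GD.Engine.Short

/-!
# Effacing a two-class by functions on cosets
-/

set_option autoImplicit false
set_option linter.unusedSectionVars false
set_option linter.style.haveILetI false

noncomputable section

namespace Fermat.Agent.GD

open Artin (PermMod)

variable (L : LevelGroup.{0}) (N : Subgroup L.G) (M : Type) [AddCommGroup M]
  [DistribMulAction L.G M]

/-- The constant functions on the cosets. -/
def coindConst : M →+ PermMod N M where
  toFun m := fun _ => m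
  map_zero' := rfl
  map_add' _ _ := rfl

theorem coindConst_smul (g : L.G) (m : M) : coindConst L N M (g • m) = g • coindConst L N M m := rfl

/-- The functions on the cosets modulo the constants. -/
def CoindQuot : Type := PermMod N M ⧸ (coindConst L N M).range

instance : AddCommGroup (CoindQuot L N M) :=
  inferInstanceAs (AddCommGroup (PermMod N M ⧸ (coindConst L N M).range))

/-- The projection to the functions modulo the constants. -/
def coindProj : PermMod N M →+ CoindQuot L N M := QuotientAddGroup.mk' _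

instance : DistribMulAction L.G (CoindQuot L N M) where
  smul g := QuotientAddGroup.map _ _ (DistribSMul.toAddMonoidHom (PermMod N M) g) (by
    rintro _ ⟨m, rfl⟩
    exact ⟨g • m, coindConst_smul L N M g m⟩)
  one_smul b := by
    obtain ⟨b, rfl⟩ := QuotientAddGroup.mk'_surjective _ b
    exact congrArg QuotientAddGroup.mk (one_smul L.G b)
  mul_smul g h b := by
    obtain ⟨b, rfl⟩ := QuotientAddGroup.mk'_surjective _ b
    exact congrArg QuotientAddGroup.mk (mul_smul g h b)
  smul_zero g := map_zero (QuotientAddGroup.map _ _ _ _)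
  smul_add g a b := map_add (QuotientAddGroup.map _ _ _ _) a b

theorem coindProj_smul (g : L.G) (b : PermMod N M) :
    coindProj L N M (g • b) = g • coindProj L N M b := rfl

/-- The short exact sequence. -/
theorem isShort_coind : IsShort L (coindConst L N M) (coindProj L N M) where
  inj a b h := congrFun h (QuotientGroup.mk (1 : L.G))
  surj := QuotientAddGroup.mk'_surjective _
  exact b := (QuotientAddGroup.eq_zero_iff (N := (coindConst L N M).range) b).trans
    AddMonoidHom.mem_range
  i_smul := coindConst_smul L N M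
  π_smul := coindProj_smul L N M

variable {L N M}

theorem coind_nsmul {p : ℕ} (hp : ∀ m : M, p • m = 0) (b : PermMod N M) : p • b = 0 :=
  funext fun s => hp (b s)

theorem coindQuot_nsmul {p : ℕ} (hp : ∀ m : M, p • m = 0) (b : CoindQuot L N M) : p • b = 0 :=
  (isShort_coind L N M).killed_right (coind_nsmul hp) b

theorem finite_coind [Finite M] (hN : L.IsLevel N) :
    Finite (PermMod N M) ∧ Finite (CoindQuot L N M) := by
  haveI := L.finiteIndex N hN
  haveI : Finite (L.G ⧸ N) := Subgroup.finite_quotient_of_finiteIndex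
  haveI : Finite (PermMod N M) := inferInstanceAs (Finite (L.G ⧸ N → M))
  exact ⟨inferInstance, Finite.of_surjective _ (isShort_coind L N M).surj⟩

/-- The level acts trivially. -/
theorem coind_fixed (hN : L.IsLevel N) (hMN : ∀ s ∈ N, ∀ m : M, s • m = m) {s : L.G} (hs : s ∈ N)
    (b : PermMod N M) : s • b = b := funext fun t => by
  rw [Artin.PermMod.smul_apply, hMN s hs]
  refine congrArg b ?_
  induction t using QuotientGroup.induction_on with
  | H x => exact QuotientGroup.eq.mpr (by
      simpa [mul_assoc] using! (L.normal N hN).conj_mem s hs x⁻¹)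

theorem coindQuot_fixed (hN : L.IsLevel N) (hMN : ∀ s ∈ N, ∀ m : M, s • m = m) {s : L.G}
    (hs : s ∈ N) (b : CoindQuot L N M) : s • b = b := by
  obtain ⟨b, rfl⟩ := (isShort_coind L N M).surj b
  rw [← coindProj_smul, coind_fixed hN hMN hs]

theorem smooth_coind (hN : L.IsLevel N) (hMN : ∀ s ∈ N, ∀ m : M, s • m = m) :
    L.Smooth (PermMod N M) ∧ L.Smooth (CoindQuot L N M) :=
  ⟨fun b => ⟨N, hN, fun _ hs => coind_fixed hN hMN hs b⟩,
    fun b => ⟨N, hN, fun _ hs => coindQuot_fixed hN hMN hs b⟩⟩

/-- A two-cocycle of the level becomes a coboundary. -/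
theorem exists_coind_cochain (hN : L.IsLevel N) (z : L.Z2 M)
    (hz : ∀ g g' : L.G, ∀ s ∈ N, ∀ s' ∈ N, z.1 (g * s, g' * s') = z.1 (g, g')) :
    ∃ r : L.G → PermMod N M, L.Const₁ r ∧
      ∀ g g', coindConst L N M (z.1 (g, g')) = g • r g' - r (g * g') + r g := by
  haveI := L.normal N hN
  let r : L.G → PermMod N M := fun g t => z.1 (g, g⁻¹ * t.out)
  have hr : ∀ g x, r g (QuotientGroup.mk x) = z.1 (g, g⁻¹ * x) := fun g x => by
    obtain ⟨k, hk⟩ := QuotientGroup.mk_out_eq_mul N x
    show z.1 (g, g⁻¹ * (QuotientGroup.mk x : L.G ⧸ N).out) = _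
    rw [hk, ← mul_assoc]
    simpa using! hz g (g⁻¹ * x) 1 N.one_mem k k.2
  refine ⟨r, ⟨N, hN, fun g s hs => funext fun t => ?_⟩, fun g g' => funext fun t => ?_⟩
  · show z.1 (g * s, (g * s)⁻¹ * t.out) = z.1 (g, g⁻¹ * t.out)
    rw [mul_inv_rev, show s⁻¹ * g⁻¹ * t.out = g⁻¹ * t.out * ((g⁻¹ * t.out)⁻¹ * s⁻¹ * (g⁻¹ * t.out)) by
      group]
    exact hz g _ s hs _ (by
      simpa using! (inferInstance : N.Normal).conj_mem _ (N.inv_mem hs) (g⁻¹ * t.out)⁻¹)
  · induction t using QuotientGroup.induction_on with
    | H x =>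
      show z.1 (g, g') = g • r g' (QuotientGroup.mk (g⁻¹ * x)) - r (g * g') (QuotientGroup.mk x) +
        r g (QuotientGroup.mk x)
      rw [hr, hr, hr]
      have h := z.2.2 g g' ((g * g')⁻¹ * x)
      rw [show g' * ((g * g')⁻¹ * x) = g⁻¹ * x by group] at h
      rw [show g'⁻¹ * (g⁻¹ * x) = (g * g')⁻¹ * x by group]
      linear_combination (norm := abel) -h

end Fermat.Agent.GD
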