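import Fermat.Agent.GD.Sha.SelCount

/-!
# Characters and fixed classes modulo `p` at the level of `S`
-/

set_option autoImplicit false
set_option linter.unusedSectionVars false
set_option linter.style.haveILetI false

noncomputable section

namespace Fermat.Agent.GD

open Fermat.Agent.Galois (GQ)

variable {p : ℕ} [Fact p.Prime] (hp2 : p ≠ 2) {S : Finset Nat.Primes}
  (hS : (⟨p, Fact.out⟩ : Nat.Primes) ∈ S) {H : Subgroup (LT S).G} (hH : (LT S).IsOpen H)
  (hμ : FixesMu p H) (D : ClassData p)

include hp2 hS hH hμ D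

/-- The characters of order `p` of an open subgroup are finitely many. -/
theorem finite_z1_triv :
    letI := trivAction ((LT S).sub H).G (ZMod p)
    Finite (((LT S).sub H).Z1 (ZMod p)) :=
  (count_chain (H := H) hH hp2 hS hμ D).1

/-- The fixed classes modulo `p` are finitely many. -/
theorem finite_fixMod : Finite (fixPts (ClassT S) H ⧸ fixPow (LT S) (ClassT S) p H) :=
  (count_chain (H := H) hH hp2 hS hμ D).2.1

/-- The count needed for duality at the level of `S`. -/
theorem card_fixMod_le :
    letI := trivAction ((LT S).sub H).G (ZMod p)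
    Nat.card (fixPts (ClassT S) H ⧸ fixPow (LT S) (ClassT S) p H) ≤
      Nat.card (((LT S).sub H).Z1 (ZMod p)) :=
  (count_chain (H := H) hH hp2 hS hμ D).2.2.1

/-- Finitely many fixed classes are killed by `p`. -/
theorem finite_fixTorsion : {c : ClassT S | p • c = 0 ∧ ∀ h ∈ H, h • c = c}.Finite := by
  classical
  letI := trivAction ((LT S).sub H).G (ZMod p)
  haveI := finite_z1_triv hp2 hS hH hμ D
  haveI : Finite ((LT S).G ⧸ (show Subgroup (LT S).G from H)) := hH.finite_quotient
  set C := {c : ClassT S | p • c = 0 ∧ ∀ h ∈ H, h • c = c}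
  choose w hwp hws hwc using fun c : C => exists_supp_lift hS c.2.1
  have hd : ∀ (c : C) (h : GQ), h ∈ H → p • (lt S h • w c - w c) = 0 ∧
      classHom S (lt S h • w c - w c) = 0 := fun c h hh =>
    ⟨by rw [nsmul_sub, smul_comm, hwp, smul_zero, sub_zero],
      by rw [map_sub, classHom_smul, hwc, show lt S h • (c : ClassT S) = c from c.2.2 _ hh, sub_self]⟩
  choose χ hχ using fun (c : C) (h : H) =>
    exists_toMu p (torsion_class_zero (hd c h.1 h.2).1 (hd c h.1 h.2).2).1
  have hχv : ∀ (c : C) (h : GQ) (hh : h ∈ H), ∀ v ∈ placesOf S, ∀ g : GQ,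
      evalAt v (g * h) (w c) = evalAt v g (w c) + g • toMu p (χ c ⟨h, hh⟩) := fun c h hh v hv g => by
    rw [hχ c ⟨h, hh⟩, ← (torsion_class_zero (hd c h hh).1 (hd c h hh).2).2 v hv g, map_sub, evalAt_lt]
    abel
  have hμ' : ∀ h ∈ H, ∀ m : ZMod p, (show GQ from h) • toMu p m = toMu p m := fun h hh m =>
    Additive.toMul.injective (Units.ext (hμ h hh _ (by
      have : p • toMu p m = 0 := by rw [← map_nsmul, nsmul_eq_mul, ZMod.natCast_self, zero_mul, map_zero]
      simpa using! congrArg (fun b : Additive (AlgebraicClosure ℚ)ˣ =>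
        ((b.toMul : (AlgebraicClosure ℚ)ˣ) : AlgebraicClosure ℚ)) this)))
  have hz : ∀ c : C, (χ c : ((LT S).sub H).G → ZMod p) ∈ ((LT S).sub H).Z1 (ZMod p) := by
    intro c
    obtain ⟨N', hN', hfix⟩ := smooth_idele S (w c)
    refine ⟨⟨_, ⟨N', hN', rfl⟩, fun g s hs => toMu_injective p ?_⟩,
      fun g g' => toMu_injective p ?_⟩
    · rw [hχ, hχ, map_sub, map_sub, evalAt_lt, evalAt_lt]
      refine congrArg (· - _) ?_
      have h1 : evalAt none ((show GQ from (show H from g).1) * (show GQ from (show H from s).1)) (w c) =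
          evalAt none (show GQ from (show H from g).1) (w c) := by
        rw [← evalAt_lt]
        exact congrArg _ (hfix _ hs)
      exact (congrArg (fun x => evalAt none x (w c)) (one_mul _)).trans
        (h1.trans (congrArg (fun x => evalAt none x (w c)) (one_mul _)).symm)
    · show toMu p (χ c (g * g')) = toMu p (χ c g + χ c g')
      have h1 := hχv c (show GQ from (show H from g').1) (show H from g').2 none mem_placesOf_none (show GQ from (show H from g).1)
      rw [hμ' _ (show H from g).2] at h1
      rw [map_add, hχ, hχ, map_sub, map_sub, evalAt_lt, evalAt_lt]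
      show evalAt none (1 * ((show GQ from (show H from g).1) * (show GQ from (show H from g').1))) (w c) - _ = _
      rw [one_mul, one_mul, h1]
      abel
  choose r hr using fun (c : C) (v : placesOf S) (s : (LT S).G ⧸ (show Subgroup (LT S).G from H)) =>
    exists_toMu p (show p • evalAt v.1 (show GQ from s.out) (w c) = 0 by
      rw [← map_nsmul, hwp, map_zero])
  let F : C → ((LT S).sub H).Z1 (ZMod p) ×
      (placesOf S → (LT S).G ⧸ (show Subgroup (LT S).G from H) → ZMod p) :=
    fun c => (⟨χ c, hz c⟩, r c)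
  refine Set.finite_coe_iff.mp (Finite.of_injective F fun c c' h => ?_)
  have hw : w c = w c' := idele_ext fun v x => by
    by_cases hv : v ∈ placesOf S
    · set s : (LT S).G ⧸ (show Subgroup (LT S).G from H) := QuotientGroup.mk (show (LT S).G from x)
      have hk : (show (LT S).G from s.out)⁻¹ * (show (LT S).G from x) ∈ H :=
        QuotientGroup.eq.mp s.out_eq'
      have e : x = (show GQ from s.out) *
          (show GQ from (show (LT S).G from s.out)⁻¹ * (show (LT S).G from x)) :=
        (mul_inv_cancel_left _ _).symm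
      rw [e, hχv c _ hk v hv, hχv c' _ hk v hv, ← hr c ⟨v, hv⟩ s, ← hr c' ⟨v, hv⟩ s,
        show χ c ⟨_, hk⟩ = χ c' ⟨_, hk⟩ from
          congrFun (congrArg Subtype.val (congrArg Prod.fst h)) ⟨_, hk⟩,
        show r c ⟨v, hv⟩ s = r c' ⟨v, hv⟩ s from congrFun (congrFun (congrArg Prod.snd h) ⟨v, hv⟩) s]
    · rcases v with _ | q
      · exact absurd mem_placesOf_none hv
      · have hq : q ∉ S := fun h => hv (mem_placesOf_some.mpr h)
        rw [hws c q hq, hws c' q hq]
  exact Subtype.ext (by rw [← hwc, ← hwc c', hw])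

/-- The class group modulo `p` is separated by the locally trivial characters. -/
theorem clS_separated :
    letI := trivAction ((LT S).sub H).G (ZMod p)
    ∀ (hM : ((LT S).sub H).Smooth (ZMod p)) (a : fixPts (ClassT S) H)
      (κ : ((LT S).sub H).SymZ (ZMod p) (ClassT S)), κ.1 = carryExt a.1 →
      (∀ x : ((LT S).sub H).Z1 (ZMod p), LocTrivChar S H (x : H → ZMod p) →
        ((D.glob S hS).sub H hH).pairHom hM x κ = 0) →
      ∃ b : fixPts (ClassT S) H, a - p • b ∈ locClasses S H := by
  intro hM a κ hκ h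
  refine (count_chain (H := H) hH hp2 hS hμ D).2.2.2 a fun x hx => ?_
  letI := trivAction ((LT S).sub H).G (ZMod p)
  have hmem : (carryExt a.1 : ZMod p → ZMod p → ClassT S) ∈
      ((LT S).sub H).SymZ (ZMod p) (ClassT S) := hκ ▸ κ.2
  have e : (⟨carryExt a.1, hmem⟩ : ((LT S).sub H).SymZ (ZMod p) (ClassT S)) = κ :=
    Subtype.ext hκ.symm
  refine Eq.trans ?_ (h x hx)
  rw [← e]
  rfl

end Fermat.Agent.GD
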