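import Fermat.Agent.GD.GW.Defs
import Fermat.Agent.GD.GW.Mu

/-!
# The two Tate–Shafarevich groups at the level of `S`
-/

set_option autoImplicit false

noncomputable section

namespace Fermat.Agent.GD

open Fermat.Agent.Galois (GQ)

variable (S : Finset Nat.Primes) (M : Type) [AddCommGroup M] [DistribMulAction GQ M]

/-- The action of `GQ`, seen on the levels of `S`. -/
@[reducible]
def actLT : DistribMulAction (LT S).G M := inferInstanceAs (DistribMulAction GQ M)

/-- The action restricted to a decomposition group. -/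
@[reducible]
def actLD (v : Place) : DistribMulAction (LD v).G M :=
  inferInstanceAs (DistribMulAction (decomp v) M)

attribute [local instance] actLT actLD

/-- Two-cocycles at the levels of `S`, trivial at all places of `S`. -/
def locTrivTwo : AddSubgroup ((LT S).Z2 M) where
  carrier := {z | ∀ v ∈ placesOf S,
    (LD v).IsB2 M fun y => z.1 ((y.1 : decomp v).1, (y.2 : decomp v).1)}
  zero_mem' := fun v _ => ⟨0, (LD v).const₁_const 0, map_zero _⟩
  add_mem' := fun {a b} ha hb v hv => by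
    obtain ⟨u, hu, e⟩ := ha v hv
    obtain ⟨u', hu', e'⟩ := hb v hv
    exact ⟨u + u', hu.comp₂ _ hu' (· + ·), by rw [map_add, e, e']; rfl⟩
  neg_mem' := fun {a} ha v hv => by
    obtain ⟨u, hu, e⟩ := ha v hv
    exact ⟨-u, hu.comp₂ _ hu (fun x _ => -x), by rw [map_neg, e]; rfl⟩

/-- The two-coboundaries at the levels of `S`. -/
def cobTwo : AddSubgroup ((LT S).Z2 M) where
  carrier := {z | (LT S).IsB2 M z.1}
  zero_mem' := ⟨0, (LT S).const₁_const 0, map_zero _⟩
  add_mem' := fun {a b} ⟨u, hu, e⟩ ⟨u', hu', e'⟩ =>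
    ⟨u + u', hu.comp₂ _ hu' (· + ·), by rw [map_add, e, e']; rfl⟩
  neg_mem' := fun {a} ⟨u, hu, e⟩ =>
    ⟨-u, hu.comp₂ _ hu (fun x _ => -x), by rw [map_neg, e]; rfl⟩

/-- The second Tate–Shafarevich group. -/
abbrev Sha2 : Type := locTrivTwo S M ⧸ (cobTwo S M).addSubgroupOf (locTrivTwo S M)

/-- The dual action is additive. -/
theorem dualSmul_add (g : GQ) (φ ψ : DualMod M) :
    dualSmul M g (φ + ψ) = dualSmul M g φ + dualSmul M g ψ :=
  AddMonoidHom.ext fun m =>
    smul_add g ((show M →+ _ from φ) (g⁻¹ • m)) ((show M →+ _ from ψ) (g⁻¹ • m))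

/-- Dual cocycles at the levels of `S`, trivial at all places of `S`. -/
def locTrivOne : AddSubgroup (GQ → DualMod M) where
  carrier := {y | IsDualCocycle S M y ∧ ∀ v ∈ placesOf S, IsLocTrivial M v y}
  zero_mem' := by
    have h0 : ∀ g : GQ, dualSmul M g 0 = 0 := fun g =>
      AddMonoidHom.ext fun m => smul_zero g
    exact ⟨⟨(LT S).const₁_const 0, fun g h => by simp [h0]⟩,
      fun v _ => ⟨0, fun g _ => by simp [h0]⟩⟩
  add_mem' := fun {a b} ha hb => ⟨⟨ha.1.1.comp₂ _ hb.1.1 (· + ·), fun g h => by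
      simp only [Pi.add_apply, ha.1.2 g h, hb.1.2 g h, dualSmul_add]; abel⟩,
    fun v hv => by
      obtain ⟨φ, hφ⟩ := ha.2 v hv
      obtain ⟨ψ, hψ⟩ := hb.2 v hv
      refine ⟨φ + ψ, fun g hg => ?_⟩
      simp only [Pi.add_apply, hφ g hg, hψ g hg, dualSmul_add]
      abel⟩
  neg_mem' := fun {a} ha => by
    have hn : ∀ (g : GQ) φ, dualSmul M g (-φ) = -dualSmul M g φ := fun g φ =>
      AddMonoidHom.ext fun m => smul_neg g ((show M →+ _ from φ) (g⁻¹ • m))
    refine ⟨⟨ha.1.1.comp₂ _ ha.1.1 (fun x _ => -x), fun g h => ?_⟩, fun v hv => ?_⟩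
    · simp only [Pi.neg_apply, ha.1.2 g h, hn]; abel
    · obtain ⟨φ, hφ⟩ := ha.2 v hv
      exact ⟨-φ, fun g hg => by simp only [Pi.neg_apply, hφ g hg, hn]; abel⟩

/-- The coboundaries of the dual. -/
def cobOne : AddSubgroup (GQ → DualMod M) where
  carrier := {y | IsDualCoboundary M y}
  zero_mem' := ⟨0, fun g => by
    rw [show dualSmul M g 0 = 0 from AddMonoidHom.ext fun m => smul_zero g, sub_zero]; rfl⟩
  add_mem' := fun {a b} ⟨φ, hφ⟩ ⟨ψ, hψ⟩ => ⟨φ + ψ, fun g => by
    rw [Pi.add_apply, hφ, hψ, dualSmul_add]; abel⟩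
  neg_mem' := fun {a} ⟨φ, hφ⟩ => ⟨-φ, fun g => by
    rw [Pi.neg_apply, hφ, show dualSmul M g (-φ) = -dualSmul M g φ from
      AddMonoidHom.ext fun m => smul_neg g ((show M →+ _ from φ) (g⁻¹ • m))]
    abel⟩

/-- The first Tate–Shafarevich group of the dual. -/
abbrev Sha1 : Type := locTrivOne S M ⧸ (cobOne M).addSubgroupOf (locTrivOne S M)

end Fermat.Agent.GD
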