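import Fermat.Agent.GD.GW.Perfect

/-!
# Second cohomology against homomorphisms, by dimension shifting
-/

set_option autoImplicit false
set_option linter.unusedSectionVars false

noncomputable section

namespace Fermat.Agent.GD

variable {L : LevelGroup.{0}} {C : Type} [AddCommGroup C] [DistribMulAction L.G C]
variable {p : ℕ}
variable {A : Type} [AddCommGroup A] [DistribMulAction L.G A]

theorem comp_mem_Z2 {z : L.G × L.G → A} (hz : z ∈ L.Z2 A) (φ : L.HomC A C) :
    φ.1 ∘ z ∈ L.Z2 C := by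
  obtain ⟨⟨N, hN, h⟩, hc⟩ := hz
  refine ⟨⟨N, hN, fun g g' s hs s' hs' => congrArg φ.1 (h g g' s hs s' hs')⟩, fun g g' g'' => ?_⟩
  show g • φ.1 (z (g', g'')) + φ.1 (z (g, g' * g'')) = φ.1 (z (g * g', g'')) + φ.1 (z (g, g'))
  rw [← φ.2, ← map_add, hc g g' g'', map_add]

/-- The value of a homomorphism on a two-class. -/
def PreClassModule.pairTwo (D : PreClassModule L C p) : L.Z2 A →+ L.HomC A C →+ AddCircle (1 : ℚ) :=
  AddMonoidHom.mk'
    (fun z => AddMonoidHom.mk' (fun φ => D.inv ⟨φ.1 ∘ z.1, comp_mem_Z2 z.2 φ⟩) fun φ φ' => by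
      rw [← map_add]; rfl)
    fun z z' => AddMonoidHom.ext fun φ => by
      show D.inv _ = D.inv _ + D.inv _
      rw [← map_add]
      exact congrArg D.inv (Subtype.ext (funext fun y => map_add φ.1 _ _))

theorem PreClassModule.pairTwo_apply (D : PreClassModule L C p) (z : L.Z2 A) (φ : L.HomC A C) :
    D.pairTwo z φ = D.inv ⟨φ.1 ∘ z.1, comp_mem_Z2 z.2 φ⟩ := rfl

section Connect

variable {B : Type} [AddCommGroup B] [DistribMulAction L.G B]
variable {M : Type} [AddCommGroup M] [DistribMulAction L.G M]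
variable {i : A →+ B} {π : B →+ M}

/-- The homomorphism attached to an extension split over the middle term. -/
def IsShort.conn (h : IsShort L i π) (κ : L.SymZ M C) (t : B → C) (ht : t ∈ L.equivariant B C)
    (hd : LevelGroup.dSym B C t = (pullSym π h.π_smul κ).1) : L.HomC A C :=
  ⟨AddMonoidHom.mk' (fun a => κ.1 0 0 - t (i a)) fun a a' => by
      have e : t (i a) + t (i a') - t (i a + i a') = κ.1 (π (i a)) (π (i a')) :=
        congrFun (congrFun hd (i a)) (i a')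
      rw [h.exact.apply_apply_eq_zero, h.exact.apply_apply_eq_zero, ← map_add] at e
      rw [← e]
      abel,
    fun g a => by
      show κ.1 0 0 - t (i (g • a)) = g • (κ.1 0 0 - t (i a))
      rw [h.i_smul, ht g, smul_sub, L.smul_symZ_zero κ.2]⟩

theorem IsShort.conn_apply (h : IsShort L i π) (κ : L.SymZ M C) (t : B → C)
    (ht : t ∈ L.equivariant B C) (hd : LevelGroup.dSym B C t = (pullSym π h.π_smul κ).1) (a : A) :
    (h.conn κ t ht hd).1 a = κ.1 0 0 - t (i a) := rfl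

/-- The connecting cocycle pairs as the cup product. -/
theorem IsShort.pairTwo_conn [Finite M] (h : IsShort L i π) (D : PreClassModule L C p)
    (hM : L.Smooth M) (κ : L.SymZ M C) (t : B → C) (ht : t ∈ L.equivariant B C)
    (hd : LevelGroup.dSym B C t = (pullSym π h.π_smul κ).1) (x : L.Z1 M) (r : L.G → B)
    (hr : L.Const₁ r) (hrx : ∀ g, π (r g) = x.1 g) (w : L.Z2 A)
    (hw : ∀ g g', i (w.1 (g, g')) = g • r g' - r (g * g') + r g) :
    D.pairTwo w (h.conn κ t ht hd) = D.pairHom hM x κ := by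
  refine D.inv_congr _ _ ⟨fun g => -t (r g), hr.comp fun b => -t b, funext fun y => ?_⟩
  obtain ⟨g, g'⟩ := y
  show g • -t (r g') - -t (r (g * g')) + -t (r g) =
    (κ.1 0 0 - t (i (w.1 (g, g')))) - κ.1 (x.1 g) (g • x.1 g')
  have e1 : t (r g) + t (g • r g') - t (r g + g • r g') = κ.1 (π (r g)) (π (g • r g')) :=
    congrFun (congrFun hd (r g)) (g • r g')
  have e2 : t (r (g * g')) + t (i (w.1 (g, g'))) - t (r (g * g') + i (w.1 (g, g'))) =
      κ.1 (π (r (g * g'))) (π (i (w.1 (g, g')))) :=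
    congrFun (congrFun hd _) _
  rw [h.π_smul, hrx, hrx] at e1
  rw [h.exact.apply_apply_eq_zero, L.symZ_zero_right κ.2] at e2
  have e3 : r g + g • r g' = r (g * g') + i (w.1 (g, g')) := by rw [hw]; abel
  rw [e3, ht g] at e1
  rw [← e1, ← e2, smul_neg]
  abel

theorem IsShort.conn_surjective (h : IsShort L i π) (D : PreClassModule L C p) (hB : L.Smooth B)
    (hp : ∀ b : B, p • b = 0) (φ : L.HomC A C) :
    ∃ (κ : L.SymZ M C) (t : B → C) (ht : t ∈ L.equivariant B C)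
      (hd : LevelGroup.dSym B C t = (pullSym π h.π_smul κ).1), h.conn κ t ht hd = φ := by
  obtain ⟨κ, t, ht, hd, hφ, -⟩ := h.exists_pushout D hB hp φ.2
  exact ⟨κ, t, ht, hd, Subtype.ext (AddMonoidHom.ext hφ)⟩

variable [Finite A] [Finite B] [Finite M] [Fact p.Prime]

/-- A class orthogonal to all homomorphisms is trivial, given duality for the terms. -/
theorem IsShort.isB2_of_pairTwo (h : IsShort L i π) (D : PreClassModule L C p)
    (hB : L.Smooth B) (hM : L.Smooth M) (hp : ∀ b : B, p • b = 0)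
    (dB : D.Duality L B hB) (dM : D.Duality L M hM) [Finite (L.H1 M)]
    (z : L.Z2 A) (r : L.G → B) (hr : L.Const₁ r)
    (hrz : ∀ g g', i (z.1 (g, g')) = g • r g' - r (g * g') + r g)
    (hz : ∀ φ, D.pairTwo z φ = 0) : L.IsB2 A z.1 := by
  let x : L.Z1 M := ⟨fun g => π (r g), hr.comp π, fun g g' => by
    show π (r (g * g')) = π (r g) + g • π (r g')
    have e := congrArg π (hrz g g')
    rw [h.exact.apply_apply_eq_zero, map_add, map_sub, h.π_smul] at e
    linear_combination (norm := abel) e⟩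
  let U : AddSubgroup (L.Z1 M) := (mapZ1 π h.π_smul).range ⊔ (L.B1 M).addSubgroupOf (L.Z1 M)
  have hxU : x ∈ U := by
    by_contra hne
    obtain ⟨ch, hch⟩ := CharacterModule.exists_character_apply_ne_zero_of_ne_zero
      (a := QuotientAddGroup.mk' U x) fun e => hne ((QuotientAddGroup.eq_zero_iff x).mp e)
    let χ : L.Z1 M →+ AddCircle (1 : ℚ) :=
      (ch : _ →+ AddCircle (1 : ℚ)).comp (QuotientAddGroup.mk' U)
    have hχU : ∀ y ∈ U, χ y = 0 := fun y hy => by
      show ch (QuotientAddGroup.mk' U y) = 0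
      rw [show QuotientAddGroup.mk' U y = 0 from (QuotientAddGroup.eq_zero_iff y).mpr hy]
      exact map_zero (ch : _ →+ AddCircle (1 : ℚ))
    obtain ⟨κ, hκ⟩ := dM.exists_pair (h.killed_right hp) χ fun y hy =>
      hχU y (AddSubgroup.mem_sup_right hy)
    obtain ⟨t, ht, hd⟩ := dB.right (pullSym π h.π_smul κ) fun y => by
      rw [← pair_mapZ1 π h.π_smul D hB hM y κ]
      exact (hκ _).symm.trans (hχU _ (AddSubgroup.mem_sup_left ⟨y, rfl⟩))
    refine hch ?_
    show χ x = 0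
    rw [hκ, ← h.pairTwo_conn D hM κ t ht hd x r hr (fun g => rfl) z hrz]
    exact hz _
  obtain ⟨y', ⟨y, rfl⟩, b, hb, hsum⟩ := AddSubgroup.mem_sup.mp hxU
  obtain ⟨m, hm⟩ := hb
  obtain ⟨n, rfl⟩ := h.surj m
  have hker : ∀ g, ∃ a, i a = r g - y.1 g - (g • n - n) := fun g => h.mem_range (by
    have e : π (y.1 g) + b.1 g = π (r g) := congrFun (congrArg Subtype.val hsum) g
    rw [map_sub, map_sub, map_sub, h.π_smul, show g • π n - π n = b.1 g from congrFun hm g, ← e]
    abel)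
  choose a ha using hker
  refine ⟨a, ?_, funext fun w => h.inj ?_⟩
  · obtain ⟨N, hN, hc⟩ := hr
    obtain ⟨N', hN', hy⟩ := y.2.1
    obtain ⟨N'', hN'', hn⟩ := hB n
    refine ⟨N ⊓ (N' ⊓ N''), L.inf _ _ hN (L.inf _ _ hN' hN''), fun g s hs => h.inj ?_⟩
    rw [ha, ha, hc g s hs.1, hy g s hs.2.1, mul_smul, hn s hs.2.2]
  · obtain ⟨g, g'⟩ := w
    show i (g • a g' - a (g * g') + a g) = i (z.1 (g, g'))
    simp only [map_add, map_sub, h.i_smul, ha, hrz, y.2.2 g g', smul_sub, mul_smul]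
    abel

/-- A functional killing the homomorphisms of the middle term comes from a class. -/
theorem IsShort.exists_pairTwo_eq (h : IsShort L i π) (D : PreClassModule L C p)
    (hB : L.Smooth B) (hM : L.Smooth M) (hp : ∀ b : B, p • b = 0)
    (dM : D.Duality L M hM) [Finite (L.H1 M)]
    (χ : L.HomC A C →+ AddCircle (1 : ℚ))
    (hχ : ∀ φ : L.HomC A C, (∃ Φ : L.HomC B C, ∀ a, φ.1 a = Φ.1 (i a)) → χ φ = 0) :
    ∃ z : L.Z2 A, ∀ φ, D.pairTwo z φ = χ φ := by
  let K : AddSubgroup (L.SymZ M C) :=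
    ((L.SymB B C).addSubgroupOf (L.SymZ B C)).comap (pullSym π h.π_smul)
  have hK : ∀ κ : K, ∃ t, ∃ ht : t ∈ L.equivariant B C,
      LevelGroup.dSym B C t = (pullSym π h.π_smul κ.1).1 := fun κ => by
    obtain ⟨t, ht, hd⟩ := κ.2
    exact ⟨t, ht, hd⟩
  choose t ht hd using hK
  have hind : ∀ (κ : K) (t' : B → C) (ht' : t' ∈ L.equivariant B C)
      (hd' : LevelGroup.dSym B C t' = (pullSym π h.π_smul κ.1).1),
      χ (h.conn κ.1 (t κ) (ht κ) (hd κ)) = χ (h.conn κ.1 t' ht' hd') := fun κ t' ht' hd' => by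
    rw [← sub_eq_zero, ← map_sub]
    have e : LevelGroup.dSym B C (t' - t κ) = 0 := by rw [map_sub, hd', hd κ, sub_self]
    refine hχ _ ⟨⟨AddMonoidHom.mk' (t' - t κ) fun a b =>
      (sub_eq_zero.mp (congrFun (congrFun e a) b)).symm, sub_mem ht' (ht κ)⟩, fun a => ?_⟩
    show (κ.1.1 0 0 - t κ (i a)) - (κ.1.1 0 0 - t' (i a)) = t' (i a) - t κ (i a)
    abel
  let ψ : K →+ AddCircle (1 : ℚ) :=
    AddMonoidHom.mk' (fun κ => χ (h.conn κ.1 (t κ) (ht κ) (hd κ))) fun κ κ' => by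
      rw [← map_add]
      refine (hind (κ + κ') (t κ + t κ') (add_mem (ht κ) (ht κ')) (by
        rw [map_add, hd κ, hd κ', AddSubgroup.coe_add, map_add]; rfl)).trans (congrArg χ ?_)
      refine Subtype.ext (AddMonoidHom.ext fun a => ?_)
      show (κ.1.1 0 0 + κ'.1.1 0 0) - (t κ (i a) + t κ' (i a)) =
        (κ.1.1 0 0 - t κ (i a)) + (κ'.1.1 0 0 - t κ' (i a))
      abel
  obtain ⟨F, hF⟩ := CharacterModule.dual_surjective_of_injective (R := ℤ)
    K.subtype.toIntLinearMap Subtype.val_injective ψ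
  let F' : L.SymZ M C →+ AddCircle (1 : ℚ) := F
  have hF' : ∀ κ : K, F' κ.1 = ψ κ := fun κ => DFunLike.congr_fun hF κ
  let β : L.SymZ M C →+ L.H1 M →+ AddCircle (1 : ℚ) := AddMonoidHom.mk'
    (fun κ => QuotientAddGroup.lift _ ((D.pairHom hM).flip κ)
      fun x hx => D.pairHom_coboundary hM x hx κ)
    fun κ κ' => AddMonoidHom.ext fun z => by
      obtain ⟨x, rfl⟩ := QuotientAddGroup.mk'_surjective _ z
      show D.pairHom hM x (κ + κ') = D.pairHom hM x κ + D.pairHom hM x κ'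
      rw [map_add]
  obtain ⟨cl, hcl⟩ := exists_eq_pairing (p := p) (L.nsmul_h1 (h.killed_right hp)) β F'
    fun κ hκ => by
      obtain ⟨h₀, hh₀, hd₀⟩ := (dM.right_iff D κ).mpr fun x =>
        DFunLike.congr_fun hκ (QuotientAddGroup.mk' _ x)
      have hmem : κ ∈ K := pullSym_symB π h.π_smul ⟨h₀, hh₀, hd₀⟩
      rw [hF' ⟨κ, hmem⟩]
      refine (hind ⟨κ, hmem⟩ (fun b => h₀ (π b))
        (fun g b => by show h₀ (π (g • b)) = g • h₀ (π b); rw [h.π_smul]; exact hh₀ g (π b)) ?_).trans ?_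
      · funext a b
        show h₀ (π a) + h₀ (π b) - h₀ (π (a + b)) = κ.1 (π a) (π b)
        rw [map_add, ← hd₀]
        rfl
      · convert map_zero χ
        refine Subtype.ext (AddMonoidHom.ext fun a => ?_)
        show κ.1 0 0 - h₀ (π (i a)) = 0
        rw [h.exact.apply_apply_eq_zero, ← hd₀]
        show h₀ 0 + h₀ 0 - h₀ (0 + 0) - h₀ 0 = 0
        rw [add_zero]
        abel
  obtain ⟨x, rfl⟩ := QuotientAddGroup.mk'_surjective _ cl
  obtain ⟨r, hr, hrx, w, hw, hwi⟩ := h.exists_lift hB x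
  refine ⟨⟨w, hw⟩, fun φ => ?_⟩
  obtain ⟨κ, t₁, ht₁, hd₁, rfl⟩ := h.conn_surjective D hB hp φ
  have hmem : κ ∈ K := ⟨t₁, ht₁, hd₁⟩
  rw [h.pairTwo_conn D hM κ t₁ ht₁ hd₁ x r hr hrx ⟨w, hw⟩ hwi, ← hind ⟨κ, hmem⟩ t₁ ht₁ hd₁]
  exact ((hcl κ).symm.trans (hF' ⟨κ, hmem⟩))

end Connect

end Fermat.Agent.GD
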