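import Fermat.Agent.GD.Sha.Obstruction
import Fermat.Agent.GD.Sha.Shift
import Fermat.Agent.GD.Sha.Coind
import Fermat.Agent.GD.GW.Surjective

/-!
# The local homomorphisms pair to zero exactly with the locally trivial classes
-/

set_option autoImplicit false
set_option linter.unusedSectionVars false
set_option linter.style.haveILetI false

noncomputable section

namespace Fermat.Agent.GD

open Fermat.Agent.Galois (GQ)
open Artin (PermMod)

local notation "ℚb" => AlgebraicClosure ℚ

section Level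

variable {L : LevelGroup.{0}} {C : Type} [AddCommGroup C] [DistribMulAction L.G C]
variable {p : ℕ} [Fact p.Prime] {M : Type} [AddCommGroup M] [DistribMulAction L.G M] [Finite M]

/-- A class orthogonal to all homomorphisms is trivial, given duality for all finite modules. -/
theorem isB2_of_pairTwo_level (D : PreClassModule L C p)
    (hdual : ∀ (B : Type) [AddCommGroup B] [Finite B] [DistribMulAction L.G B],
      (∀ b : B, p • b = 0) → ∀ hB : L.Smooth B, D.Duality L B hB)
    (hfin : ∀ (B : Type) [AddCommGroup B] [Finite B] [DistribMulAction L.G B],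
      (∀ b : B, p • b = 0) → L.Smooth B → Finite (L.H1 B))
    (hp : ∀ m : M, p • m = 0) {N : Subgroup L.G} (hN : L.IsLevel N)
    (hMN : ∀ s ∈ N, ∀ m : M, s • m = m) (z : L.Z2 M)
    (hzN : ∀ g g' : L.G, ∀ s ∈ N, ∀ s' ∈ N, z.1 (g * s, g' * s') = z.1 (g, g'))
    (hz : ∀ φ, D.pairTwo z φ = 0) : L.IsB2 M z.1 := by
  obtain ⟨r, hr, hrz⟩ := exists_coind_cochain hN z hzN
  obtain ⟨hfB, hfQ⟩ := finite_coind (M := M) hN
  obtain ⟨hsB, hsQ⟩ := smooth_coind hN hMN
  haveI := hfin _ (coindQuot_nsmul (L := L) (N := N) hp) hsQ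
  exact (isShort_coind L N M).isB2_of_pairTwo D hsB hsQ (coind_nsmul hp)
    (hdual _ (coind_nsmul hp) hsB) (hdual _ (coindQuot_nsmul hp) hsQ) z r hr hrz hz

end Level

/-- The first cohomology at a place of a finite module killed by `p` is finite. -/
theorem finite_h1_place {p : ℕ} [Fact p.Prime] (hp2 : p ≠ 2) (v : Place) (B : Type) [AddCommGroup B]
    [Finite B] [DistribMulAction (LD v).G B] (hp : ∀ b : B, p • b = 0) (hB : (LD v).Smooth B) :
    Finite ((LD v).H1 B) := by
  rcases v with _ | q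
  · have : Subsingleton ((LD none).H1 B) := ⟨fun a b => by
      obtain ⟨a, rfl⟩ := QuotientAddGroup.mk'_surjective _ a
      obtain ⟨b, rfl⟩ := QuotientAddGroup.mk'_surjective _ b
      exact (QuotientAddGroup.eq (s := ((LD none).B1 B).addSubgroupOf ((LD none).Z1 B))).mpr
        (h1_archimedean hp2 B hp hB _ (-a + b).2)⟩
    exact inferInstance
  · exact (euler_local hp2 q B hp hB).1

variable {p : ℕ} [Fact p.Prime] {S : Finset Nat.Primes}
variable {M : Type} [AddCommGroup M] [DistribMulAction GQ M]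

attribute [local instance] actLT actLD

/-- The component at a place of an equivariant map into the ideles. -/
def ideleLocHom (f : M →+ Additive (idele S)) (hf : ∀ (g : GQ) m, f (g • m) = lt S g • f m) (v : Place) :
    (LD v).HomC M (Additive ℚbˣ) :=
  ⟨(evalAt v 1).comp f, fun (d : (LD v).G) m => by
    show evalAt v 1 (f ((show decomp v from d).1 • m)) =
      (show decomp v from d).1 • evalAt v 1 (f m)
    rw [hf, evalAt_lt, one_mul]
    conv_lhs => rw [← mul_one (show decomp v from d).1]
    rw [evalAt_decomp v (show decomp v from d).2]⟩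

theorem resTwo_mem (v : Place) (z : (LT S).Z2 M) :
    (fun y : (LD v).G × (LD v).G => z.1 ((y.1 : decomp v).1, (y.2 : decomp v).1)) ∈ (LD v).Z2 M := by
  obtain ⟨⟨N₀, hN₀, h⟩, hc⟩ := z.2
  exact ⟨⟨_, isLevel_LD_of_LT hN₀ v, fun g g' s hs s' hs' =>
    h _ _ _ (Subgroup.mem_subgroupOf.mp hs) _ (Subgroup.mem_subgroupOf.mp hs')⟩,
    fun g g' g'' => hc _ _ _⟩

/-- The restriction of a two-cocycle to a decomposition group. -/
def resTwo (v : Place) (z : (LT S).Z2 M) : (LD v).Z2 M := ⟨_, resTwo_mem v z⟩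

/-- The pairing with a local homomorphism is the sum of the local pairings. -/
theorem pairTwo_eq_sum (D : ClassData p) (hS : (⟨p, Fact.out⟩ : Nat.Primes) ∈ S)
    (φ : (LT S).HomC M (ClassT S)) (f : M →+ Additive (idele S)) (hl : IsLift f φ.1)
    (hf : ∀ (g : GQ) m, f (g • m) = lt S g • f m) (z : (LT S).Z2 M) :
    (D.glob S hS).toPreClassModule.pairTwo z φ =
      ∑ v ∈ placesOf S, (D.loc v).toPreClassModule.pairTwo (resTwo v z) (ideleLocHom f hf v) := by
  let w : GQ × GQ → idele S := fun y => (f (z.1 y)).toMul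
  have hcls : (fun y => toClass S (w y)) = φ.1 ∘ z.1 := funext fun y => hl.cls (z.1 y)
  have hl' : ∀ v, locCochain v w = (ideleLocHom f hf v).1 ∘ (resTwo v z).1 := fun v => rfl
  have hzl : ∀ v, locCochain v w ∈ (LD v).Z2 (Additive ℚbˣ) := fun v => by
    rw [hl']
    exact comp_mem_Z2 (resTwo v z).2 (ideleLocHom f hf v)
  have hz : (fun y => toClass S (w y)) ∈ (LT S).Z2 (ClassT S) := by
    rw [hcls]
    exact comp_mem_Z2 z.2 φ
  have h := D.decomposition S hS w hz hzl
    (comp_mem_Z2 z.2 (⟨f, fun g m => hf g m⟩ : (LT S).HomC M (Additive (idele S))))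
    (fun y q hq g => (hl.supp (z.1 y)).isUnitsOutside q hq g)
  refine Eq.trans ?_ h
  exact congrArg (D.glob S hS).toPreClassModule.inv (Subtype.ext hcls.symm)

variable {N : Subgroup (LT S).G} (hN : (LT S).IsLevel N)
  (hMN : ∀ s : GQ, s ∈ N → ∀ m : M, s • m = m)

include hN hMN

/-- A class orthogonal to the local homomorphisms is locally trivial. -/
theorem mem_locTrivTwo_of_pairTwo (hp2 : p ≠ 2) (D : ClassData p)
    (hS : (⟨p, Fact.out⟩ : Nat.Primes) ∈ S) [Finite M] (hp : ∀ m : M, p • m = 0) (z : (LT S).Z2 M)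
    (hz : ∀ φ ∈ shaLocHom S M, (D.glob S hS).toPreClassModule.pairTwo z φ = 0) :
    z ∈ locTrivTwo S M := by
  classical
  intro v hv
  -- the local homomorphisms are components of local homomorphisms of classes
  have hloc : ∀ ψ : (LD v).HomC M (Additive ℚbˣ),
      (D.loc v).toPreClassModule.pairTwo (resTwo v z) ψ = 0 := by
    intro ψ
    let h : Place → M → Additive ℚbˣ := Pi.single v (fun m => ψ.1 m)
    have hh : ∀ w, h w ∈ (LD w).equivariant M (Additive ℚbˣ) := fun w => by
      by_cases e : w = v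
      · subst e
        simp only [h, Pi.single_eq_same]
        exact fun d m => ψ.2 d m
      · simp only [h, Pi.single_eq_of_ne e]
        exact zero_mem _
    have hs : ∀ w, w ∉ placesOf S → h w = 0 := fun w hw =>
      Pi.single_eq_of_ne (fun (e : w = v) => hw (by rw [e]; exact hv)) _
    let F := LocFam.ofFun (T := S) h hh hs hN (fun s hs' m => hMN s hs' m)
    have hadd : ∀ w (m m' : M), h w (m + m') = h w m + h w m' := fun w m m' => by
      by_cases e : w = v
      · subst e; simp only [h, Pi.single_eq_same, map_add]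
      · simp only [h, Pi.single_eq_of_ne e, Pi.zero_apply, add_zero]
    let f : M →+ Additive (idele S) := AddMonoidHom.mk' F.ind fun m m' => idele_ext fun w g => by
      rw [map_add, F.evalAt_ind, F.evalAt_ind, F.evalAt_ind, smul_add]
      exact hadd w _ _
    have hf : ∀ (g : GQ) m, f (g • m) = lt S g • f m := fun g m => F.ind_smul g m
    let φ : (LT S).HomC M (ClassT S) := ⟨(classHom S).comp f, fun g m => by
      show classHom S (f ((show GQ from g) • m)) = g • classHom S (f m)
      rw [hf, classHom_smul]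
      rfl⟩
    have hl : IsLift f φ.1 :=
      ⟨fun m q hq g => F.support _ (fun h' => hq (mem_placesOf_some.mp h')) _, fun m => rfl⟩
    have hev : ∀ w m, (ideleLocHom f hf w).1 m = h w m := fun w m => by
      show evalAt w 1 (F.ind m) = _
      rw [F.evalAt_ind, one_smul]
      rfl
    have h0 := hz φ ⟨f, hl, hf⟩
    rw [pairTwo_eq_sum D hS φ f hl hf z, Finset.sum_eq_single_of_mem v hv ?_] at h0
    · have e : ideleLocHom f hf v = ψ := Subtype.ext (AddMonoidHom.ext fun m => by
        rw [hev]; simp only [h, Pi.single_eq_same])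
      rwa [e] at h0
    · intro w _ hw
      have e : ideleLocHom f hf w = 0 := Subtype.ext (AddMonoidHom.ext fun m => by
        rw [hev]; simp only [h, Pi.single_eq_of_ne hw]; rfl)
      rw [e]
      exact map_zero ((D.loc w).toPreClassModule.pairTwo (resTwo w z))
  -- effacing the class by functions on cosets
  obtain ⟨⟨N₀, hN₀, hzc⟩, -⟩ := z.2
  set N' : Subgroup (LD v).G := ((show Subgroup GQ from N₀ ⊓ N)).subgroupOf (decomp v) with hN'def
  have hN' : (LD v).IsLevel N' := isLevel_LD_of_LT ((LT S).inf _ _ hN₀ hN) v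
  have hMN' : ∀ s ∈ N', ∀ m : M, s • m = m := fun s hs m =>
    hMN _ (Subgroup.mem_subgroupOf.mp hs).2 m
  have hzN' : ∀ g g' : (LD v).G, ∀ s ∈ N', ∀ s' ∈ N',
      (resTwo v z).1 (g * s, g' * s') = (resTwo v z).1 (g, g') := fun g g' s hs s' hs' =>
    hzc _ _ _ (Subgroup.mem_subgroupOf.mp hs).1 _ (Subgroup.mem_subgroupOf.mp hs').1
  exact isB2_of_pairTwo_level (D.loc v).toPreClassModule
    (fun B _ _ _ hpB hB => duality_local hp2 D v B hpB hB)
    (fun B _ _ _ hpB hB => finite_h1_place hp2 v B hpB hB) hp hN' hMN' (resTwo v z) hzN' hloc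

omit hN hMN in
/-- Locally trivial classes are orthogonal to the local homomorphisms. -/
theorem pairTwo_eq_zero_of_locTriv (D : ClassData p) (hS : (⟨p, Fact.out⟩ : Nat.Primes) ∈ S)
    (z : (LT S).Z2 M) (hz : z ∈ locTrivTwo S M) {φ : (LT S).HomC M (ClassT S)}
    (hφ : φ ∈ shaLocHom S M) : (D.glob S hS).toPreClassModule.pairTwo z φ = 0 := by
  obtain ⟨f, hl, hf⟩ := hφ
  rw [pairTwo_eq_sum D hS φ f hl hf z]
  refine Finset.sum_eq_zero fun v hv => ?_
  obtain ⟨u, hu, hd⟩ := hz v hv
  refine (D.loc v).inv_d₁ _ ⟨fun g => (ideleLocHom f hf v).1 (u g), hu.comp (ideleLocHom f hf v).1,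
    funext fun y => ?_⟩
  show y.1 • (ideleLocHom f hf v).1 (u y.2) - (ideleLocHom f hf v).1 (u (y.1 * y.2)) + (ideleLocHom f hf v).1 (u y.1) =
    (ideleLocHom f hf v).1 ((resTwo v z).1 y)
  rw [← (ideleLocHom f hf v).2, ← map_sub, ← map_add]
  exact congrArg _ (congrFun hd y)

/-- The classes orthogonal to the local homomorphisms are the locally trivial ones. -/
theorem pairTwo_shaLocHom_iff (hp2 : p ≠ 2) (D : ClassData p)
    (hS : (⟨p, Fact.out⟩ : Nat.Primes) ∈ S) [Finite M] (hp : ∀ m : M, p • m = 0) (z : (LT S).Z2 M) :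
    (∀ φ ∈ shaLocHom S M, (D.glob S hS).toPreClassModule.pairTwo z φ = 0) ↔ z ∈ locTrivTwo S M :=
  ⟨mem_locTrivTwo_of_pairTwo hN hMN hp2 D hS hp z,
    fun h _ hφ => pairTwo_eq_zero_of_locTriv D hS z h hφ⟩

end Fermat.Agent.GD
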