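import Fermat.Agent.GD.Sha.Norm.Capit
import Fermat.Agent.GD.Sha.Norm.Moves

/-!
# Norms from a deep level are local
-/

set_option autoImplicit false
set_option linter.unusedSectionVars false
set_option linter.style.haveILetI false

noncomputable section

namespace Fermat.Agent.GD

open Fermat.Agent.Galois (GQ)

attribute [local instance] actLT actLD

variable {p : ℕ} [Fact p.Prime] {S : Finset Nat.Primes} {M : Type} [AddCommGroup M]
  [DistribMulAction GQ M]

/-- Sums of translates over a tower of two normal subgroups. -/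
theorem sum_translates_tower {H H₁ : Subgroup GQ} [Fintype (GQ ⧸ H)]
    [Fintype (H ⧸ H₁.subgroupOf H)] (hle : H₁ ≤ H) (sec : H ⧸ H₁.subgroupOf H → H)
    (hsec : ∀ a, (sec a : H ⧸ H₁.subgroupOf H) = a) (ψ : M →+ ClassT S)
    (hψ : ∀ h : GQ, h ∈ H₁ → moveCls h ψ = ψ) (m : M) :
    ∑ᶠ s : GQ ⧸ H₁, lt S s.out • ψ (s.out⁻¹ • m) =
      (∑ b : GQ ⧸ H, moveCls b.out (∑ a, moveCls (sec a : GQ) ψ)) m := by
  classical
  let F : (GQ ⧸ H) × (H ⧸ H₁.subgroupOf H) → GQ ⧸ H₁ := fun x =>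
    ((x.1.out * (sec x.2 : GQ) : GQ) : GQ ⧸ H₁)
  have hF : Function.Bijective F := by
    refine ⟨fun ⟨b, a⟩ ⟨b', a'⟩ h => ?_, fun s => ?_⟩
    · have h1 : (b.out * (sec a : GQ))⁻¹ * (b'.out * (sec a' : GQ)) ∈ H₁ := QuotientGroup.eq.mp h
      have hb : b = b' := by
        have h2 : b.out⁻¹ * b'.out ∈ H := by
          rw [show b.out⁻¹ * b'.out = (sec a : GQ) * ((b.out * (sec a : GQ))⁻¹ *
            (b'.out * (sec a' : GQ))) * (sec a' : GQ)⁻¹ by group]
          exact mul_mem (mul_mem (sec a).2 (hle h1)) (inv_mem (sec a').2)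
        rw [← b.out_eq', ← b'.out_eq']
        exact QuotientGroup.eq.mpr h2
      subst hb
      have h3 : (sec a)⁻¹ * sec a' ∈ H₁.subgroupOf H := by
        show (sec a : GQ)⁻¹ * (sec a' : GQ) ∈ H₁
        rwa [show (b.out * (sec a : GQ))⁻¹ * (b.out * (sec a' : GQ)) =
          (sec a : GQ)⁻¹ * (sec a' : GQ) by group] at h1
      exact Prod.ext rfl ((hsec a).symm.trans ((QuotientGroup.eq.mpr h3).trans (hsec a')))
    · obtain ⟨g, rfl⟩ := QuotientGroup.mk_surjective s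
      have hh : (g : GQ ⧸ H).out⁻¹ * g ∈ H := QuotientGroup.eq.mp (QuotientGroup.out_eq' _)
      refine ⟨((g : GQ ⧸ H), ((⟨_, hh⟩ : H) : H ⧸ H₁.subgroupOf H)), QuotientGroup.eq.mpr ?_⟩
      have h3 := QuotientGroup.eq.mp (hsec ((⟨_, hh⟩ : H) : H ⧸ H₁.subgroupOf H))
      rw [show ((g : GQ ⧸ H).out * (sec ((⟨_, hh⟩ : H) : H ⧸ H₁.subgroupOf H) : GQ))⁻¹ * g =
        (sec ((⟨_, hh⟩ : H) : H ⧸ H₁.subgroupOf H) : GQ)⁻¹ * ((g : GQ ⧸ H).out⁻¹ * g) by group]
      exact h3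
  let e := Equiv.ofBijective F hF
  haveI : Fintype (GQ ⧸ H₁) := Fintype.ofEquiv _ e
  rw [finsum_eq_sum_of_fintype, ← Equiv.sum_comp e, Fintype.sum_prod_type,
    AddMonoidHom.finsetSum_apply]
  refine Finset.sum_congr rfl fun b _ => ?_
  rw [moveCls_sum, AddMonoidHom.finsetSum_apply]
  refine Finset.sum_congr rfl fun a _ => ?_
  set t : GQ := b.out * (sec a : GQ)
  obtain ⟨k, hk, hkt⟩ : ∃ k ∈ H₁, (e (b, a)).out = t * k :=
    ⟨t⁻¹ * (e (b, a)).out, QuotientGroup.eq.mp (e (b, a)).out_eq'.symm, by group⟩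
  rw [← moveCls_apply, hkt, moveCls_mul_fix _ (hψ k hk), moveCls_mul]

set_option maxHeartbeats 800000 in
/-- Norms from the kernel of the locally trivial characters are local. -/
theorem exists_level_norms_local_aux (hp2 : p ≠ 2) (D : ClassData p)
    (hS : (⟨p, Fact.out⟩ : Nat.Primes) ∈ S) [Finite M] (hp : ∀ m : M, p • m = 0)
    (N : Subgroup GQ) (hN : (LT S).IsLevel N) (hμ : FixesMu p N)
    (hMN : ∀ s : GQ, s ∈ N → ∀ m : M, s • m = m) :
    ∃ N' : Subgroup GQ, (LT S).IsLevel N' ∧ N' ≤ N ∧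
      ∀ ψ : M →+ ClassT S, (∀ n : GQ, n ∈ N' → ∀ m, ψ (n • m) = lt S n • ψ m) →
        ∀ φ : (LT S).HomC M (ClassT S),
          (∀ m, φ.1 m = ∑ᶠ s : GQ ⧸ N', lt S s.out • ψ (s.out⁻¹ • m)) →
          φ ∈ shaLocHom S M := by
  classical
  haveI : N.Normal := normal_of_level hN
  haveI := finite_clS (S := S) N ⟨N, hN, le_rfl⟩
  obtain ⟨j, r, hr, hjr⟩ := Nat.exists_eq_pow_mul_and_not_dvd
    (Nat.card_pos (α := ClS S N)).ne' p (Fact.out : p.Prime).ne_one
  have hbound := fun (m : ℕ) (χ : N → ZMod (p ^ m))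
      (hχ : χ ∈ locCharGroup S N (p ^ m)) =>
    pow_smul_locChar_eq_zero hp2 D hS hN le_rfl hμ
      ((Fact.out : p.Prime).coprime_iff_not_dvd.mpr hr).symm hjr hχ
  have hfin := finite_charGroup_pow (finite_charGroup_prime hp2 D hS hN le_rfl hμ)
  set N' : Subgroup GQ := charKer S N (p ^ j) with hN'def
  have hN' : (LT S).IsLevel N' := isLevel_charKer hN (hfin j)
  haveI : N'.Normal := normal_of_level hN'
  have hle : N' ≤ N := charKer_le
  have hμ' : FixesMu p N' := fun h hh => hμ h (hle hh)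
  have hK : (LT S).IsLevel (charKer S N' p) :=
    isLevel_charKer hN' (finite_charGroup_prime hp2 D hS hN' le_rfl hμ')
  refine ⟨N', hN', hle, fun ψ hψ φ hφ => ?_⟩
  obtain ⟨f, hl⟩ := exists_shaLift hS hp ψ
  have hinv : ∀ h : GQ, h ∈ N' → moveCls h ψ = ψ := fun h hh => AddMonoidHom.ext fun m => by
    rw [moveCls_apply, ← hψ h hh, smul_inv_smul]
  haveI : N.FiniteIndex := (LT S).finiteIndex N hN
  haveI : N'.FiniteIndex := (LT S).finiteIndex N' hN'
  haveI : Finite (GQ ⧸ N) := Subgroup.finite_quotient_of_finiteIndex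
  haveI := Fintype.ofFinite (GQ ⧸ N)
  haveI : Finite (N ⧸ N'.subgroupOf N) :=
    Subgroup.finite_quotient_of_finiteIndex
  haveI := Fintype.ofFinite (N ⧸ N'.subgroupOf N)
  let sec : N ⧸ N'.subgroupOf N → N := fun a => a.out
  have hsec : ∀ a, ((sec a : N) :
      N ⧸ N'.subgroupOf N) = a := fun a => a.out_eq'
  set f₁ : M →+ Additive (idele S) := ∑ a, moveHom (sec a : GQ) f
  set ψ₁ : M →+ ClassT S := ∑ a, moveCls (sec a : GQ) ψ
  have hl₁ : IsLift f₁ ψ₁ := IsLift.sum fun a => hl.move _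
  have hstep : ∀ (n : N) a, (n : GQ) * (sec a : GQ) =
      (sec (n • a) : GQ) * ((sec (n • a) : GQ)⁻¹ * n * sec a) := fun n a => by group
  have hk : ∀ (n : N) a,
      (sec (n • a) : GQ)⁻¹ * n * sec a ∈ N' := fun n a => by
    have h1 : (sec (n • a))⁻¹ * (n * sec a) ∈ N'.subgroupOf N := QuotientGroup.eq.mp (by
      rw [hsec, ← smul_eq_mul n (sec a), ← MulAction.Quotient.smul_mk, hsec])
    rw [mul_assoc]
    exact h1
  have hinv₁ : ∀ n : GQ, n ∈ N → moveCls n ψ₁ = ψ₁ := fun n hn => by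
    rw [moveCls_sum]
    conv_rhs => rw [show ψ₁ = ∑ a, moveCls (sec ((⟨n, hn⟩ : N) • a) : GQ) ψ from
      (Equiv.sum_comp (MulAction.toPerm (⟨n, hn⟩ : N))
        (fun a => moveCls (sec a : GQ) ψ)).symm]
    refine Finset.sum_congr rfl fun a _ => ?_
    rw [← moveCls_mul, hstep ⟨n, hn⟩ a, moveCls_mul_fix _ (hinv _ (hk _ a))]
  have herr₁ : ∀ n : GQ, n ∈ N → err f₁ n = 0 := fun n hn => by
    let n' : N := ⟨n, hn⟩
    rw [show err f₁ n = ∑ a, dualSmul M (sec ((MulAction.toPerm n' : Equiv.Perm _) a) : GQ)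
      (err f ((sec (n' • a) : GQ)⁻¹ * n' * sec a)) from
      err_sum_moves hp hl _ _ (MulAction.toPerm n') n (fun a => hstep n' a)
        fun a => hinv _ (hk n' a)]
    refine (Finset.sum_congr rfl fun a _ => dualSmul_fixed (S := S) hp hμ hMN (sec _).2 _).trans ?_
    refine transfer_charKer hN'def rfl hK hbound (fun g => err f g) (fun a ha b hb => ?_)
      (fun k hk' => err_eq_zero_of_charKer hp hN hμ hMN hle hl hinv hk') sec hsec n'
    rw [err_mul hp hl a fun m => DFunLike.congr_fun (hinv b hb) m,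
      dualSmul_fixed (S := S) hp hμ hMN (hle ha)]
  set F₂ : M →+ Additive (idele S) := ∑ b : GQ ⧸ N, moveHom b.out f₁
  have hlift : IsLift F₂ φ.1 := by
    rw [show φ.1 = ∑ b : GQ ⧸ N, moveCls b.out ψ₁ from
      AddMonoidHom.ext fun m => (hφ m).trans (sum_translates_tower hle sec hsec ψ hinv m)]
    exact IsLift.sum fun b => hl₁.move _
  refine mem_shaLocHom_of_coboundary hp hN hμ hMN hlift 0 fun g => ?_
  have h0 : ∀ t : GQ, dualSmul M t 0 = 0 := fun t => AddMonoidHom.ext fun m => smul_zero t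
  have hη : ∀ b : GQ ⧸ N, ((g • b).out)⁻¹ * g * b.out ∈ N := fun b => by
    rw [mul_assoc]
    refine QuotientGroup.eq.mp ?_
    rw [QuotientGroup.out_eq', ← smul_eq_mul, ← MulAction.Quotient.smul_mk, QuotientGroup.out_eq']
  let σ : Equiv.Perm (GQ ⧸ N) := MulAction.toPerm g
  have hσ : ∀ b, σ b = g • b := fun b => rfl
  have hg : ∀ b : GQ ⧸ N, g * b.out = (σ b).out * (((g • b).out)⁻¹ * g * b.out) := fun b => by
    rw [hσ]
    group
  have e := err_sum_moves (p := p) hp hl₁ (fun b : GQ ⧸ N => b.out)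
    (fun b => ((g • b).out)⁻¹ * g * b.out) σ g hg (fun b => hinv₁ _ (hη b))
  rw [h0, sub_zero]
  exact Eq.trans e (Finset.sum_eq_zero fun b _ =>
    (congrArg (dualSmul M (σ b).out) (herr₁ _ (hη b))).trans (h0 _))

/-- Norms of homomorphisms from a deep level lift to equivariant supported ideles. -/
theorem exists_level_norms_local {p : ℕ} [Fact p.Prime] (hp2 : p ≠ 2) (D : ClassData p)
    {S : Finset Nat.Primes} (hS : (⟨p, Fact.out⟩ : Nat.Primes) ∈ S) (M : Type) [AddCommGroup M]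
    [Finite M] [DistribMulAction GQ M] (hp : ∀ m : M, p • m = 0) (N : Subgroup (LT S).G)
    (hN : (LT S).IsLevel N) (hμ : FixesMu p N) (hMN : ∀ s : GQ, s ∈ N → ∀ m : M, s • m = m) :
    ∃ N' : Subgroup (LT S).G, (LT S).IsLevel N' ∧ N' ≤ N ∧
      ∀ ψ : M →+ ClassT S, (∀ n : GQ, n ∈ N' → ∀ m, ψ (n • m) = lt S n • ψ m) →
        ∀ φ : (LT S).HomC M (ClassT S),
          (∀ m, φ.1 m = ∑ᶠ s : GQ ⧸ (show Subgroup GQ from N'),
            lt S s.out • ψ (s.out⁻¹ • m)) →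
          φ ∈ shaLocHom S M :=
  exists_level_norms_local_aux hp2 D hS hp N hN hμ hMN

end Fermat.Agent.GD
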