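import Fermat.Agent.GD.Sha.Defs
import Fermat.Agent.GD.Sha.Shift
import Fermat.Agent.GD.Sha.LocPairing
import Fermat.Agent.GD.Sha.Norm
import Fermat.Agent.GD.Sha.Base
import Fermat.Agent.GD.Bases

/-!
# The two Tate–Shafarevich groups have the same size
-/

set_option autoImplicit false
set_option linter.unusedSectionVars false
set_option linter.style.haveILetI false

noncomputable section

namespace Fermat.Agent.GD

open Fermat.Agent.Galois (GQ)
open Artin (PermMod)

attribute [local instance] actLT actLD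

/-- A finite group killed by `p` has as many characters as elements. -/
theorem card_character_eq {p : ℕ} [Fact p.Prime] {V : Type*} [AddCommGroup V] [Finite V]
    (hV : ∀ v : V, p • v = 0) :
    Finite (V →+ AddCircle (1 : ℚ)) ∧ Nat.card (V →+ AddCircle (1 : ℚ)) = Nat.card V := by
  obtain ⟨hfin, hle⟩ := finite_card_character hV
  obtain ⟨hfin2, hle2⟩ := finite_card_character (nsmul_character hV)
  refine ⟨hfin, hle.antisymm ((Nat.card_le_card_of_injective
    (AddMonoidHom.eval : V →+ ((V →+ AddCircle (1 : ℚ)) →+ AddCircle (1 : ℚ))) ?_).trans hle2)⟩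
  rw [injective_iff_map_eq_zero]
  intro v hv
  by_contra hne
  obtain ⟨c, hc⟩ := CharacterModule.exists_character_apply_ne_zero_of_ne_zero hne
  exact hc (DFunLike.congr_fun hv c)

/-- The values of a homomorphism into the classes are finitely many. -/
theorem finite_homC_S {p : ℕ} [Fact p.Prime] (hp2 : p ≠ 2) (D : ClassData p) {S : Finset Nat.Primes}
    (hS : (⟨p, Fact.out⟩ : Nat.Primes) ∈ S) (M : Type) [AddCommGroup M] [Finite M]
    [DistribMulAction GQ M] (hp : ∀ m : M, p • m = 0) (N : Subgroup (LT S).G)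
    (hN : (LT S).IsLevel N) (hμ : FixesMu p N) (hMN : ∀ s : GQ, s ∈ N → ∀ m : M, s • m = m) :
    Finite ((LT S).HomC M (ClassT S)) := by
  haveI := (finite_fixTorsion hp2 hS (H := N) ⟨N, hN, le_rfl⟩ hμ D).to_subtype
  refine Finite.of_injective (fun (φ : (LT S).HomC M (ClassT S)) (m : M) =>
    (⟨φ.1 m, by rw [← map_nsmul, hp, map_zero], fun h hh => by
      rw [← φ.2, show h • m = m from hMN h hh m]⟩ :
        {c : ClassT S | p • c = 0 ∧ ∀ h ∈ N, h • c = c})) fun φ φ' h => ?_
  exact Subtype.ext (AddMonoidHom.ext fun m => congrArg Subtype.val (congrFun h m))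

/-- A homomorphism factoring through the functions on the cosets of a deep level is local. -/
theorem comp_coindConst_eq_sum {S : Finset Nat.Primes} {M : Type} [AddCommGroup M]
    [DistribMulAction GQ M] {N' : Subgroup (LT S).G} (hN' : (LT S).IsLevel N')
    (Φ : (LT S).HomC (PermMod N' M) (ClassT S)) :
    ∃ ψ : M →+ ClassT S, (∀ n : GQ, n ∈ N' → ∀ m, ψ (n • m) = lt S n • ψ m) ∧
      ∀ m, Φ.1 (coindConst (LT S) N' M m) =
        ∑ᶠ s : GQ ⧸ (show Subgroup GQ from N'), lt S s.out • ψ (s.out⁻¹ • m) := by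
  classical
  haveI := (LT S).finiteIndex N' hN'
  haveI : Finite ((LT S).G ⧸ N') := Subgroup.finite_quotient_of_finiteIndex
  letI : Fintype ((LT S).G ⧸ N') := Fintype.ofFinite _
  let one : (LT S).G ⧸ N' := QuotientGroup.mk (1 : (LT S).G)
  let sing : M →+ PermMod N' M := AddMonoidHom.single (fun _ : (LT S).G ⧸ N' => M) one
  have hsing : ∀ (g : (LT S).G) (m : M) (s : (LT S).G ⧸ N'),
      (g • sing m) s = (Pi.single (g • one) (g • m) : (LT S).G ⧸ N' → M) s := fun g m s => by
    rw [Artin.PermMod.smul_apply]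
    show g • (Pi.single one m : (LT S).G ⧸ N' → M) (g⁻¹ • s) = _
    by_cases h : s = g • one
    · subst h
      rw [inv_smul_smul, Pi.single_eq_same, Pi.single_eq_same]
    · rw [Pi.single_eq_of_ne fun e => h (by rw [← e, smul_inv_smul]), Pi.single_eq_of_ne h, smul_zero]
  refine ⟨Φ.1.comp sing, fun n hn m => ?_, fun m => ?_⟩
  · show Φ.1 (sing (n • m)) = lt S n • Φ.1 (sing m)
    rw [← Φ.2]
    refine congrArg Φ.1 (funext fun s => ?_)
    rw [hsing]
    have h1 : lt S n • one = one := QuotientGroup.eq.mpr (by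
      show (lt S n * 1)⁻¹ * 1 ∈ N'
      rw [mul_one, mul_one]
      exact inv_mem hn)
    rw [h1]
    rfl
  · have hsum : coindConst (LT S) N' M m =
        ∑ s : (LT S).G ⧸ N', (s.out • sing (s.out⁻¹ • m) : PermMod N' M) := funext fun t => by
      refine Eq.trans ?_ (map_sum (AddMonoidHom.mk' (fun F : PermMod N' M => F t) fun _ _ => rfl)
        (fun s : (LT S).G ⧸ N' => (s.out • sing (s.out⁻¹ • m) : PermMod N' M)) Finset.univ).symm
      simp only [AddMonoidHom.mk'_apply]
      rw [Finset.sum_eq_single t]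
      · rw [hsing, show t.out • one = t from by
          show QuotientGroup.mk (t.out * 1) = t
          rw [mul_one, QuotientGroup.out_eq']]
        rw [Pi.single_eq_same, smul_inv_smul]
        rfl
      · intro s _ hs
        rw [hsing, show s.out • one = s from by
          show QuotientGroup.mk (s.out * 1) = s
          rw [mul_one, QuotientGroup.out_eq']]
        exact Pi.single_eq_of_ne (Ne.symm hs) _
      · exact fun h => absurd (Finset.mem_univ t) h
    rw [hsum, map_sum]
    show _ = ∑ᶠ s : (LT S).G ⧸ N', s.out • Φ.1 (sing (s.out⁻¹ • m))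
    rw [finsum_eq_sum_of_fintype]
    exact Finset.sum_congr rfl fun s _ => Φ.2 _ _

/-- The duality between the two groups. -/
theorem sha_card_eq {p : ℕ} [Fact p.Prime] (hp2 : p ≠ 2) (S : Finset Nat.Primes)
    (hS : (⟨p, Fact.out⟩ : Nat.Primes) ∈ S) (M : Type) [AddCommGroup M] [Finite M]
    [DistribMulAction GQ M] (hp : ∀ m : M, p • m = 0) (N : Subgroup (LT S).G)
    (hN : (LT S).IsLevel N) (hμ : FixesMu p N) (hMN : ∀ s : GQ, s ∈ N → ∀ m : M, s • m = m) :
    Finite (Sha1 S M) ∧ Finite (Sha2 S M) ∧ Nat.card (Sha2 S M) = Nat.card (Sha1 S M) := by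
  classical
  obtain ⟨D⟩ := exists_classData p hp2
  let P := (D.glob S hS).toPreClassModule
  haveI := finite_homC_S hp2 D hS M hp N hN hμ hMN
  obtain ⟨Ψ, hΨsurj, hΨker⟩ := exists_obstruction hS hp hN hμ hMN
  let V := (LT S).HomC M (ClassT S) ⧸ shaLocHom S M
  haveI hV : Finite V := Finite.of_surjective _ (QuotientAddGroup.mk'_surjective _)
  have hVp : ∀ v : V, p • v = 0 := fun v => by
    obtain ⟨φ, rfl⟩ := QuotientAddGroup.mk'_surjective _ v
    rw [← map_nsmul, show p • φ = 0 from Subtype.ext (AddMonoidHom.ext fun m => by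
      show p • φ.1 m = 0
      rw [← map_nsmul, hp, map_zero]), map_zero]
  obtain ⟨hchf, hchc⟩ := card_character_eq hVp
  haveI := hchf
  -- the first group
  let e₁ : V ≃+ Sha1 S M :=
    (QuotientAddGroup.quotientAddEquivOfEq hΨker.symm).trans
      (QuotientAddGroup.quotientKerEquivOfSurjective Ψ hΨsurj)
  have hS1 : Finite (Sha1 S M) := Finite.of_equiv V e₁.toEquiv
  -- the pairing
  let pair : locTrivTwo S M →+ (V →+ AddCircle (1 : ℚ)) := AddMonoidHom.mk'
    (fun z => QuotientAddGroup.lift _ (P.pairTwo z.1) fun φ hφ =>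
      (pairTwo_shaLocHom_iff hN hMN hp2 D hS hp z.1).mpr z.2 φ hφ)
    fun z z' => AddMonoidHom.ext fun v => by
      obtain ⟨φ, rfl⟩ := QuotientAddGroup.mk'_surjective _ v
      show P.pairTwo (z + z' : locTrivTwo S M).1 φ = P.pairTwo z.1 φ + P.pairTwo z'.1 φ
      rw [AddSubgroup.coe_add, map_add]
      rfl
  have hker : pair.ker = (cobTwo S M).addSubgroupOf (locTrivTwo S M) := by
    refine le_antisymm (fun z hz => ?_) fun z hz => ?_
    · show (LT S).IsB2 M z.1.1
      obtain ⟨N₁, hN₁, hzN⟩ := z.1.2.1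
      have hN' : (LT S).IsLevel (N ⊓ N₁) := (LT S).inf _ _ hN hN₁
      have hMN' : ∀ s ∈ N ⊓ N₁, ∀ m : M, s • m = m := fun s hs => hMN s hs.1
      have hμ' : FixesMu p (N ⊓ N₁) := fun h hh => hμ h hh.1
      obtain ⟨r, hr, hrz⟩ := exists_coind_cochain hN' z.1
        fun g g' s hs s' hs' => hzN g g' s hs.2 s' hs'.2
      obtain ⟨hfB, hfQ⟩ := finite_coind (M := M) hN'
      obtain ⟨hsB, hsQ⟩ := smooth_coind hN' hMN'
      haveI := finite_h1_S hp2 hS D (N ⊓ N₁) hN' hμ' _ (coindQuot_nsmul hp)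
        fun s hs b => coindQuot_fixed hN' hMN' hs b
      exact (isShort_coind (LT S) (N ⊓ N₁) M).isB2_of_pairTwo P hsB hsQ (coind_nsmul hp)
        (duality_S hp2 hS D (N ⊓ N₁) hN' hμ' _ (coind_nsmul hp)
          (fun s hs b => coind_fixed hN' hMN' hs b) hsB)
        (duality_S hp2 hS D (N ⊓ N₁) hN' hμ' _ (coindQuot_nsmul hp)
          (fun s hs b => coindQuot_fixed hN' hMN' hs b) hsQ)
        z.1 r hr hrz fun φ => DFunLike.congr_fun hz (QuotientAddGroup.mk φ)
    · refine AddMonoidHom.ext fun v => ?_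
      obtain ⟨φ, rfl⟩ := QuotientAddGroup.mk'_surjective _ v
      obtain ⟨b, ⟨N₁, hN₁, hb⟩, hd⟩ := (show (LT S).IsB2 M z.1.1 from hz)
      refine P.inv_d₁ _ ⟨fun g => φ.1 (b g), ⟨N₁, hN₁, fun g s hs => congrArg φ.1 (hb g s hs)⟩,
        funext fun y => ?_⟩
      show _ = φ.1 (z.1.1 y)
      rw [← hd]
      show _ = φ.1 (y.1 • b y.2 - b (y.1 * y.2) + b y.1)
      rw [map_add, map_sub, φ.2]
      rfl
  have hsurj : Function.Surjective pair := fun χ => by
    obtain ⟨N', hN', hle, hnorm⟩ := exists_level_norms_local hp2 D hS M hp N hN hμ hMN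
    have hMN' : ∀ s ∈ N', ∀ m : M, s • m = m := fun s hs => hMN s (hle hs)
    have hμ' : FixesMu p N' := fun h hh => hμ h (hle hh)
    obtain ⟨hfB, hfQ⟩ := finite_coind (M := M) hN'
    obtain ⟨hsB, hsQ⟩ := smooth_coind hN' hMN'
    haveI := finite_h1_S hp2 hS D N' hN' hμ' _ (coindQuot_nsmul hp)
      fun s hs b => coindQuot_fixed hN' hMN' hs b
    obtain ⟨z, hz⟩ := (isShort_coind (LT S) N' M).exists_pairTwo_eq P hsB hsQ (coind_nsmul hp)
      (duality_S hp2 hS D N' hN' hμ' _ (coindQuot_nsmul hp)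
        (fun s hs b => coindQuot_fixed hN' hMN' hs b) hsQ)
      (χ.comp (QuotientAddGroup.mk' _)) fun φ ⟨Φ, hΦ⟩ => by
        obtain ⟨ψ, hψ, hsum⟩ := comp_coindConst_eq_sum hN' Φ
        have hmem : φ ∈ shaLocHom S M := hnorm ψ hψ φ fun m => (hΦ m).trans (hsum m)
        show χ (QuotientAddGroup.mk φ) = 0
        rw [(QuotientAddGroup.eq_zero_iff φ).mpr hmem, map_zero]
    refine ⟨⟨z, (pairTwo_shaLocHom_iff hN hMN hp2 D hS hp z).mp fun φ hφ => ?_⟩,
      AddMonoidHom.ext fun v => ?_⟩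
    · rw [hz]
      show χ (QuotientAddGroup.mk φ) = 0
      rw [(QuotientAddGroup.eq_zero_iff φ).mpr hφ, map_zero]
    · obtain ⟨φ, rfl⟩ := QuotientAddGroup.mk'_surjective _ v
      exact hz φ
  let e₂ : Sha2 S M ≃+ (V →+ AddCircle (1 : ℚ)) :=
    (QuotientAddGroup.quotientAddEquivOfEq hker.symm).trans
      (QuotientAddGroup.quotientKerEquivOfSurjective pair hsurj)
  exact ⟨hS1, Finite.of_equiv _ e₂.toEquiv.symm,
    (Nat.card_congr e₂.toEquiv).trans (hchc.trans (Nat.card_congr e₁.toEquiv))⟩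

end Fermat.Agent.GD
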