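import Fermat.Agent.GD.Sha.ClassGroup
import Fermat.Agent.GD.Sha.Kummer
import Fermat.Agent.GD.Global.First.Theta
import Fermat.Agent.GD.Bases.Descent

/-!
# Numbers whose orders away from `S` are divisible by `p`
-/

set_option autoImplicit false
set_option linter.unusedSectionVars false
set_option linter.style.haveILetI false

noncomputable section

namespace Fermat.Agent.GD

open Fermat.Agent.Galois (GQ)

local notation "ℚb" => AlgebraicClosure ℚ

/-- The numbers fixed by a subgroup. -/
def fixedNum (H : Subgroup GQ) : AddSubgroup (Additive ℚbˣ) where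
  carrier := {x | ∀ h ∈ H, h • x = x}
  zero_mem' := fun h _ => smul_zero h
  add_mem' := fun hx hy h hh => by rw [smul_add, hx h hh, hy h hh]
  neg_mem' := fun hx h hh => by rw [smul_neg, hx h hh]

variable (p : ℕ) (S : Finset Nat.Primes)

/-- Numbers with an idele carrying the `p`-th part of their orders away from `S`. -/
def selPairs (H : Subgroup GQ) : AddSubgroup (Additive ℚbˣ × Additive (idele S)) where
  carrier := {a | a.1 ∈ fixedNum H ∧ (∀ h ∈ H, lt S h • a.2 = a.2) ∧
    ∀ q ∉ S, ∀ g : GQ, (g • a.1 - p • evalAt (some q) g a.2).toMul ∈ (placeAt q).unitGroup}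
  zero_mem' := ⟨zero_mem _, fun h _ => smul_zero _, fun q _ g => by
    rw [Prod.fst_zero, Prod.snd_zero, smul_zero, map_zero, smul_zero, sub_zero]
    exact one_mem _⟩
  add_mem' := fun {a b} ha hb => ⟨add_mem ha.1 hb.1,
    fun h hh => by rw [Prod.snd_add, smul_add, ha.2.1 h hh, hb.2.1 h hh], fun q hq g => by
      rw [Prod.fst_add, Prod.snd_add, smul_add, map_add, nsmul_add, add_sub_add_comm, toMul_add]
      exact mul_mem (ha.2.2 q hq g) (hb.2.2 q hq g)⟩
  neg_mem' := fun {a} ha => ⟨neg_mem ha.1,
    fun h hh => by rw [Prod.snd_neg, smul_neg, ha.2.1 h hh], fun q hq g => by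
      rw [Prod.fst_neg, Prod.snd_neg, smul_neg, map_neg, neg_nsmul, ← neg_sub', toMul_neg]
      exact inv_mem (ha.2.2 q hq g)⟩

/-- The pairs coming from `p`-th powers. -/
def selTriv (H : Subgroup GQ) : AddSubgroup (selPairs p S H) where
  carrier := {a | ∃ z ∈ fixedNum H, p • z = a.1.1}
  zero_mem' := ⟨0, zero_mem _, smul_zero _⟩
  add_mem' := fun ⟨z, hz, e⟩ ⟨w, hw, e'⟩ => ⟨z + w, add_mem hz hw, by rw [nsmul_add, e, e']; rfl⟩
  neg_mem' := fun ⟨z, hz, e⟩ => ⟨-z, neg_mem hz, by rw [neg_nsmul, e]; rfl⟩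

/-- The numbers with orders divisible by `p` away from `S`, modulo powers. -/
abbrev SelQ (H : Subgroup GQ) : Type := selPairs p S H ⧸ selTriv p S H

variable {p} {S} {H : Subgroup GQ} (hH : (LT S).IsOpen H)

/-- The principal idele of a fixed number. -/
def selDiag : fixedNum H →+ Additive (idele S) where
  toFun x := Additive.ofMul (⟨diag x.1.toMul, (diag_mem_fixedIdeles hH.choose_spec.1
    hH.choose_spec.2 fun h hh => congrArg Additive.toMul (x.2 h hh)).1⟩ : idele S)
  map_zero' := congrArg Additive.ofMul (Subtype.ext (map_one diag))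
  map_add' a b := congrArg Additive.ofMul (Subtype.ext (map_mul diag a.1.toMul b.1.toMul))

theorem evalAt_selDiag (x : fixedNum H) (v : Place) (g : GQ) :
    evalAt v g (selDiag hH x) = g • x.1 := rfl

theorem selDiag_fixed (x : fixedNum H) {h : GQ} (hh : h ∈ H) :
    lt S h • selDiag hH x = selDiag hH x :=
  idele_ext fun v g => by
    rw [evalAt_lt, evalAt_selDiag, evalAt_selDiag, mul_smul, x.2 h hh]

theorem classHom_selDiag (x : fixedNum H) : classHom S (selDiag hH x) = 0 :=
  toClass_eq_zero_iff.mpr (diag_mem_classKer hH.choose_spec.1 hH.choose_spec.2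
    fun h hh => congrArg Additive.toMul (x.2 h hh))

/-- The idele left after removing the `p`-th part. -/
def selRem : selPairs p S H →+ unitIdeles S H where
  toFun a := ⟨selDiag hH ⟨a.1.1, a.2.1⟩ - p • a.1.2,
    fun h hh => by rw [smul_sub, selDiag_fixed hH _ hh, smul_comm, a.2.2.1 h hh],
    fun q hq g => by
      have h1 := a.2.2.2 q hq g
      rwa [← evalAt_selDiag hH ⟨a.1.1, a.2.1⟩ (some q) g, ← map_nsmul, ← map_sub] at h1⟩
  map_zero' := Subtype.ext (by
    show selDiag hH 0 - p • (0 : Additive (idele S)) = 0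
    rw [map_zero, smul_zero, sub_zero])
  map_add' a b := Subtype.ext (by
    show selDiag hH (⟨a.1.1, a.2.1⟩ + ⟨b.1.1, b.2.1⟩) - p • (a.1.2 + b.1.2) = _
    rw [map_add, nsmul_add, add_sub_add_comm]
    rfl)

theorem evalAt_selRem (a : selPairs p S H) (v : Place) (g : GQ) :
    evalAt v g (selRem hH a).1 = g • a.1.1 - p • evalAt v g a.1.2 := by
  show evalAt v g (selDiag hH _ - p • a.1.2) = _
  rw [map_sub, map_nsmul]
  rfl

theorem classHom_selRem (a : selPairs p S H) :
    classHom S (selRem hH a).1 = -(p • classHom S a.1.2) := by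
  show classHom S (selDiag hH _ - p • a.1.2) = _
  rw [map_sub, classHom_selDiag, map_nsmul, zero_sub]

/-- The class of a fixed idele. -/
def fixCls (f : Additive (idele S)) (hf : ∀ h ∈ H, lt S h • f = f) :
    fixPts (ClassT S) (show Subgroup (LT S).G from H) :=
  ⟨classHom S f, fun h hh =>
    (classHom_smul (T := S) h f).symm.trans (congrArg (classHom S) (hf h hh))⟩

/-- The class of the carrying idele. -/
def selFix : selPairs p S H →+ fixPts (ClassT S) (show Subgroup (LT S).G from H) where
  toFun a := fixCls a.1.2 a.2.2.1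
  map_zero' := Subtype.ext (map_zero _)
  map_add' a b := Subtype.ext (map_add _ _ _)

/-- Its image in the `S`-class group. -/
def selClass : selPairs p S H →+ ClS S (show Subgroup (LT S).G from H) :=
  (QuotientAddGroup.mk' _).comp selFix

theorem mem_locClasses {c : fixPts (ClassT S) (show Subgroup (LT S).G from H)}
    {u : Additive (idele S)} (hu : u ∈ unitIdeles S H) (hc : classHom S u = c.1) :
    c ∈ locClasses S (show Subgroup (LT S).G from H) :=
  AddSubgroup.mem_addSubgroupOf.mpr ⟨⟨u, hu⟩, hc⟩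

variable [hp : Fact p.Prime]

omit hH in
theorem unit_of_nsmul_unit {q : Nat.Primes} {x : Additive ℚbˣ}
    (hx : (p • x).toMul ∈ (placeAt q).unitGroup) : x.toMul ∈ (placeAt q).unitGroup :=
  mem_unitGroup_of_nsmul_mem (p := p) _ (by rwa [← toMul_nsmul])

include hH in
theorem exists_selTriv_unit (a : selTriv p S H) :
    ∃ u : unitIdeles S H, selRem hH a.1 = p • u ∧ classHom S u.1 = -classHom S a.1.1.2 := by
  obtain ⟨z, hz, e⟩ := a.2
  let w : Additive (idele S) := selDiag hH ⟨z, hz⟩ - a.1.1.2
  have hw : w ∈ unitIdeles S H := by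
    refine ⟨fun h hh => by rw [smul_sub, selDiag_fixed hH _ hh, a.1.2.2.1 h hh],
      fun q hq g => ?_⟩
    have h1 := a.1.2.2.2 q hq g
    rw [← e, smul_comm, ← nsmul_sub] at h1
    exact unit_of_nsmul_unit (x := g • z - evalAt (some q) g a.1.1.2) h1
  refine ⟨⟨w, hw⟩, Subtype.ext ?_, ?_⟩
  · refine idele_ext fun v g => ?_
    rw [evalAt_selRem, AddSubgroup.coe_nsmul, map_nsmul, map_sub, evalAt_selDiag, ← e, smul_comm,
      nsmul_sub]
  · rw [map_sub, classHom_selDiag, zero_sub]

include hH in
theorem selTriv_le_ker : selTriv p S H ≤ (selClass (p := p) (S := S) (H := H)).ker := fun a ha => by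
  obtain ⟨u, -, hu⟩ := exists_selTriv_unit hH ⟨a, ha⟩
  refine (QuotientAddGroup.eq_zero_iff _).mpr ?_
  exact mem_locClasses (u := -u.1) (neg_mem u.2) (by rw [map_neg, hu, neg_neg]; rfl)

/-- A unit away from `S` as a pair. -/
def selUnit : Additive (sUnits S H) →+ selPairs p S H where
  toFun s := ⟨(Additive.ofMul (s.toMul : ℚbˣ), 0),
    fun h hh => congrArg Additive.ofMul (s.toMul.2.1 h hh), fun h _ => smul_zero _,
    fun q hq g => by
      rw [map_zero, smul_zero, sub_zero]
      exact s.toMul.2.2 q hq g⟩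
  map_zero' := rfl
  map_add' a b := Subtype.ext (Prod.ext rfl (add_zero (0 : Additive (idele S))).symm)

/-- The map to the class group modulo powers. -/
def selTheta : SelQ p S H →+ ClS S (show Subgroup (LT S).G from H) :=
  QuotientAddGroup.lift _ selClass (selTriv_le_ker hH)

theorem selTheta_ker :
    (selTheta (p := p) hH).ker = ((QuotientAddGroup.mk' (selTriv p S H)).comp selUnit).range := by
  obtain ⟨N, hN, hle⟩ := id hH
  refine le_antisymm (fun x hx => ?_) ?_
  · obtain ⟨a, rfl⟩ := QuotientAddGroup.mk'_surjective _ x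
    obtain ⟨u, hu⟩ := AddSubgroup.mem_addSubgroupOf.mp ((QuotientAddGroup.eq_zero_iff _).mp hx)
    change classHom S u.1 = classHom S a.1.2 at hu
    have hk : (a.1.2 - u.1).toMul ∈ classKer S := toClass_eq_zero_iff.mp (by
      rw [← classHom_apply, map_sub, hu, sub_self])
    have hf : (a.1.2 - u.1).toMul.1 ∈ fixedIdeles S H := mem_fixedIdeles fun h hh => by
      have h1 : lt S h • (a.1.2 - u.1) = a.1.2 - u.1 := by
        rw [smul_sub, a.2.2.1 h hh, u.2.1 h hh]
      exact congrArg Additive.toMul h1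
    obtain ⟨z, hz, u', -, hu', e⟩ := exists_decomp_classKer (N := N) hN hle hf hk
    let z' : Additive ℚbˣ := Additive.ofMul z
    have hz' : z' ∈ fixedNum H := fun h hh => congrArg Additive.ofMul (hz h hh)
    have hev : ∀ q ∉ S, ∀ g : GQ,
        (evalAt (some q) g a.1.2 - g • z').toMul ∈ (placeAt q).unitGroup := fun q hq g => by
      have h1 : evalAt (some q) g (a.1.2 - u.1) = g • z' + Additive.ofMul (u'.1 (some q) g) :=
        congrArg Additive.ofMul (e (some q) g)
      rw [map_sub] at h1
      rw [show evalAt (some q) g a.1.2 - g • z' =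
        Additive.ofMul (u'.1 (some q) g) + evalAt (some q) g u.1 by
          linear_combination (norm := abel) h1, toMul_add]
      exact mul_mem (hu'.2.2 q g) (u.2.2 q hq g)
    let s : sUnits S H := ⟨(a.1.1 - p • z').toMul,
      fun h hh => congrArg Additive.toMul (sub_mem a.2.1 (AddSubgroup.nsmul_mem _ hz' p) h hh),
      fun q hq g => by
        show (g • (a.1.1 - p • z')).toMul ∈ _
        have h1 := mul_mem (a.2.2.2 q hq g) (pow_mem (hev q hq g) p)
        rw [← toMul_nsmul, ← toMul_add] at h1
        convert h1 using 2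
        rw [smul_sub, smul_comm g p z', nsmul_sub]
        abel⟩
    refine ⟨Additive.ofMul s, (QuotientAddGroup.eq_iff_sub_mem).mpr ⟨-z', neg_mem hz', ?_⟩⟩
    show p • -z' = (a.1.1 - p • z') - a.1.1
    rw [neg_nsmul]
    abel
  · rintro _ ⟨s, rfl⟩
    refine (QuotientAddGroup.eq_zero_iff _).mpr ?_
    exact mem_locClasses (u := 0) (zero_mem _) (by rw [map_zero]; exact (map_zero _).symm)

theorem selUnit_ker :
    ((QuotientAddGroup.mk' (selTriv p S H)).comp selUnit).ker =
      (powers p (sUnits S H)).toAddSubgroup := by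
  refine le_antisymm (fun s hs => ?_) ?_
  · obtain ⟨z, hz, e⟩ := (QuotientAddGroup.eq_zero_iff _).mp hs
    have e' : z.toMul ^ p = (s.toMul : ℚbˣ) := congrArg Additive.toMul e
    refine ⟨⟨z.toMul, fun h hh => congrArg Additive.toMul (hz h hh), fun q hq g => ?_⟩,
      Subtype.ext e'⟩
    refine mem_unitGroup_of_nsmul_mem (p := p) _ ?_
    rw [← smul_pow', e']
    exact s.toMul.2.2 q hq g
  · rintro s ⟨y, hy⟩
    refine AddMonoidHom.mem_ker.mpr ((QuotientAddGroup.eq_zero_iff _).mpr
      ⟨Additive.ofMul (y : ℚbˣ), fun h hh => congrArg Additive.ofMul (y.2.1 h hh), ?_⟩)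
    exact congrArg (fun w : sUnits S H => Additive.ofMul (w : ℚbˣ)) hy

theorem selTheta_range :
    (selTheta (p := p) hH).range =
      (nsmulAddMonoidHom (α := ClS S (show Subgroup (LT S).G from H)) p).ker := by
  obtain ⟨N, hN, hle⟩ := id hH
  refine le_antisymm ?_ fun c hc => ?_
  · rintro _ ⟨x, rfl⟩
    obtain ⟨a, rfl⟩ := QuotientAddGroup.mk'_surjective _ x
    refine AddMonoidHom.mem_ker.mpr ((QuotientAddGroup.eq_zero_iff (p • selFix a)).mpr ?_)
    refine mem_locClasses (u := -(selRem hH a).1) (neg_mem (selRem hH a).2) ?_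
    rw [map_neg, classHom_selRem, neg_neg]
    rfl
  · obtain ⟨d, rfl⟩ := QuotientAddGroup.mk'_surjective _ c
    obtain ⟨f, hf, hfd⟩ := exists_fixed_lift (T := S) (show Subgroup (LT S).G from H) hH d.1 d.2
    let f' : Additive (idele S) := Additive.ofMul f
    have hf' : ∀ h ∈ H, lt S h • f' = f' := fun h hh => congrArg Additive.ofMul (hf h hh)
    obtain ⟨u, hu⟩ := AddSubgroup.mem_addSubgroupOf.mp
      ((QuotientAddGroup.eq_zero_iff (p • d)).mp hc)
    change classHom S u.1 = p • d.1 at hu
    have hk : (p • f' - u.1).toMul ∈ classKer S := toClass_eq_zero_iff.mp (by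
      rw [← classHom_apply, map_sub, map_nsmul, hu, show classHom S f' = d.1 from hfd, sub_self])
    have hfix : (p • f' - u.1).toMul.1 ∈ fixedIdeles S H := mem_fixedIdeles fun h hh => by
      have h1 : lt S h • (p • f' - u.1) = p • f' - u.1 := by
        rw [smul_sub, smul_comm, hf' h hh, u.2.1 h hh]
      exact congrArg Additive.toMul h1
    obtain ⟨z, hz, u', -, hu', e⟩ := exists_decomp_classKer (N := N) hN hle hfix hk
    let z' : Additive ℚbˣ := Additive.ofMul z
    have hmem : (z', f') ∈ selPairs p S H := by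
      refine ⟨fun h hh => congrArg Additive.ofMul (hz h hh), hf', fun q hq g => ?_⟩
      have h1 : evalAt (some q) g (p • f' - u.1) = g • z' + Additive.ofMul (u'.1 (some q) g) :=
        congrArg Additive.ofMul (e (some q) g)
      rw [map_sub, map_nsmul] at h1
      show (g • z' - p • evalAt (some q) g f').toMul ∈ _
      rw [show g • z' - p • evalAt (some q) g f' =
        -(evalAt (some q) g u.1 + Additive.ofMul (u'.1 (some q) g)) by
          linear_combination (norm := abel) -h1, toMul_neg, toMul_add]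
      exact inv_mem (mul_mem (u.2.2 q hq g) (hu'.2.2 q g))
    exact ⟨QuotientAddGroup.mk ⟨_, hmem⟩,
      congrArg (QuotientAddGroup.mk' _) (Subtype.ext hfd)⟩

include hH in
/-- The count of the group of numbers with orders divisible by `p`. -/
theorem card_selQ (hp2 : p ≠ 2) (hμ : FixesMu p H) :
    Nat.card (SelQ p S H) = p ^ (∑ v ∈ placesOf S, Nat.card (PlacesAbove v H)) *
      Nat.card (nsmulAddMonoidHom (α := ClS S (show Subgroup (LT S).G from H)) p).ker := by
  rw [← AddSubgroup.card_mul_index (selTheta (p := p) hH).ker, AddSubgroup.index_ker,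
    selTheta_range, selTheta_ker, ← AddSubgroup.index_ker, selUnit_ker,
    Subgroup.index_toAddSubgroup, ← card_sUnits_mod p S hp2 H hH hμ]
  rfl

end Fermat.Agent.GD
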