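import Fermat.Agent.GD.Sha.Sel
import Fermat.Agent.GD.Sha.CarryIdele
import Fermat.Agent.GD.Bases.DualityGlobal.Norm
import Fermat.Agent.GD.Bases.Defs
import Fermat.Agent.GD.Engine.Pairing

/-!
# The chain of inequalities at the level of `S`
-/

set_option autoImplicit false
set_option linter.unusedSectionVars false
set_option linter.style.haveILetI false

noncomputable section

namespace Fermat.Agent.GD

open Fermat.Agent.Galois (GQ)

local notation "ℚb" => AlgebraicClosure ℚ

/-- The character is trivial on all decomposition groups at the places of `S`. -/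
def LocTrivChar (S : Finset Nat.Primes) (H : Subgroup (LT S).G) {A : Type} [Zero A] (χ : H → A) :
    Prop :=
  ∀ v ∈ placesOf S, ∀ g : GQ, ∀ h : H, g * (show GQ from h.1) * g⁻¹ ∈ decomp v → χ h = 0

/-- The characters trivial on all decomposition groups at the places of `S`. -/
def locTrivZ1 (p : ℕ) (S : Finset Nat.Primes) (H : Subgroup (LT S).G) :
    letI := trivAction ((LT S).sub H).G (ZMod p)
    AddSubgroup (((LT S).sub H).Z1 (ZMod p)) :=
  letI := trivAction ((LT S).sub H).G (ZMod p)
  { carrier := {x | LocTrivChar S H (show H → ZMod p from x.1)}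
    zero_mem' := fun _ _ _ _ _ => rfl
    add_mem' := fun {x y} hx hy v hv g h hd => by
      show x.1 h + y.1 h = 0
      rw [show x.1 h = 0 from hx v hv g h hd, show y.1 h = 0 from hy v hv g h hd, add_zero]
    neg_mem' := fun {x} hx v hv g h hd => by
      show -x.1 h = 0
      rw [show x.1 h = 0 from hx v hv g h hd, neg_zero] }

variable {p : ℕ} [hp : Fact p.Prime] {S : Finset Nat.Primes} {H : Subgroup GQ}
  (hH : (LT S).IsOpen H)

/-- The fixed classes modulo `p`. -/
abbrev ClassMod (p : ℕ) (S : Finset Nat.Primes) (H : Subgroup (LT S).G) : Type :=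
  fixPts (ClassT S) H ⧸ fixPow (LT S) (ClassT S) p H

/-- The class group modulo `p`. -/
abbrev ClMod (p : ℕ) (S : Finset Nat.Primes) (H : Subgroup (LT S).G) : Type :=
  ClS S H ⧸ (nsmulAddMonoidHom (α := ClS S H) p).range

/-- The local components of what is left after removing the `p`-th part. -/
def selLam : SelQ p S H →+ unitIdeles S H ⧸ (localComponents p S H).ker :=
  QuotientAddGroup.lift _ ((QuotientAddGroup.mk' _).comp (selRem hH)) fun a ha => by
    obtain ⟨u, hu, -⟩ := exists_selTriv_unit hH ⟨a, ha⟩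
    refine (QuotientAddGroup.eq_zero_iff _).mpr ?_
    show selRem hH a ∈ _
    rw [hu, AddMonoidHom.mem_ker, map_nsmul]
    exact nsmul_placeUnitsMod_eq_zero _

include hH in
/-- The Kummer map. -/
theorem exists_selKummer (hS : (⟨p, Fact.out⟩ : Nat.Primes) ∈ S) (hμ : FixesMu p H) :
    letI := trivAction ((LT S).sub H).G (ZMod p)
    ∃ κ : SelQ p S H → ((LT S).sub H).Z1 (ZMod p), Function.Injective κ ∧
      ∀ x ∈ (selLam (p := p) hH).ker, κ x ∈ locTrivZ1 p S H := by
  classical
  letI := trivAction ((LT S).sub H).G (ZMod p)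
  obtain ⟨N, hN, hle⟩ := id hH
  haveI : IsAlgClosed ℚb := inferInstance
  have hroots : ∀ a : selPairs p S H, ∃ z : Additive ℚbˣ, p • z = a.1.1 := fun a => by
    obtain ⟨z, hz⟩ := IsAlgClosed.exists_pow_nat_eq ((a.1.1.toMul : ℚbˣ) : ℚb) hp.out.pos
    exact ⟨Additive.ofMul (Units.mk0 z fun h => (a.1.1.toMul : ℚbˣ).ne_zero (by
      rw [← hz, h, zero_pow hp.out.ne_zero])), congrArg Additive.ofMul (Units.ext hz)⟩
  choose z hz using hroots
  have hμ' : ∀ h ∈ H, ∀ m : Additive ℚbˣ, p • m = 0 → h • m = m := fun h hh m hm =>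
    Additive.toMul.injective (Units.ext (hμ h hh _
      (by simpa using! congrArg (fun b : Additive ℚbˣ => ((b.toMul : ℚbˣ) : ℚb)) hm)))
  have htors : ∀ (a : selPairs p S H) (h : GQ), h ∈ H → p • (h • z a - z a) = 0 := fun a h hh => by
    rw [nsmul_sub, smul_comm, hz, a.2.1 h hh, sub_self]
  have hlog : ∀ (a : selPairs p S H) (h : H), ∃ c : ZMod p, toMu p c = (h : GQ) • z a - z a :=
    fun a h => exists_toMu p (htors a h h.2)
  choose χ hχ using hlog
  have hmem : ∀ a, (χ a : ((LT S).sub H).G → ZMod p) ∈ ((LT S).sub H).Z1 (ZMod p) := by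
    intro a
    obtain ⟨N', hN', hfix⟩ := exists_level_root_of_ord hS hN (x := (a.1.1.toMul : ℚbˣ))
      (fun s hs => congrArg Additive.toMul (a.2.1 s (hle hs)))
      (fun q hq g => ⟨a.1.2.toMul.1 (some q) g,
        fun σ hσ => inertia_fixes_component a.1.2.toMul hq g hσ, by
          have h1 := a.2.2.2 q hq g
          rw [toMul_sub, toMul_nsmul] at h1
          exact h1⟩) (y := (z a).toMul) (congrArg Additive.toMul (hz a))
    refine ⟨⟨_, ⟨N', hN', rfl⟩, fun g s hs => toMu_injective p ?_⟩, fun g g' => toMu_injective p ?_⟩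
    · have e : (show H from s).1 • z a = z a := congrArg Additive.ofMul (hfix _ hs)
      refine (hχ a (g * s)).trans (Eq.trans ?_ (hχ a g).symm)
      show ((show H from g).1 * (show H from s).1) • z a - z a = _
      rw [mul_smul, e]
    · show toMu p (χ a (g * g')) = toMu p (χ a g + χ a g')
      rw [map_add, hχ, hχ, hχ]
      show ((show H from g).1 * (show H from g').1) • z a - z a =
        ((show H from g).1 • z a - z a) + ((show H from g').1 • z a - z a)
      have hg := hμ' _ (show H from g).2 _ (htors a _ (show H from g').2)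
      rw [smul_sub] at hg
      rw [mul_smul, ← hg]
      abel
  refine ⟨fun x => ⟨χ x.out, hmem x.out⟩, fun x y hxy => ?_, fun x hx v hv g h' hd' => ?_⟩
  · have hd : z x.out - z y.out ∈ fixedNum H := fun h hh => by
      have h1 := (hχ x.out ⟨h, hh⟩).symm.trans
        ((congrArg (toMu p) (congrFun (congrArg Subtype.val hxy) ⟨h, hh⟩)).trans (hχ y.out ⟨h, hh⟩))
      rw [smul_sub, ← sub_eq_zero]
      change h • z x.out - z x.out = h • z y.out - z y.out at h1
      rw [← sub_eq_zero.mpr h1]
      abel
    rw [← QuotientAddGroup.out_eq' x, ← QuotientAddGroup.out_eq' y]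
    refine (QuotientAddGroup.eq_iff_sub_mem).mpr ⟨_, hd, ?_⟩
    rw [nsmul_sub, hz, hz]
    rfl
  · show χ x.out h' = 0
    obtain ⟨k, hk2, rfl⟩ : ∃ (k : GQ) (hk2 : k ∈ H), (⟨k, hk2⟩ : H) = h' :=
      ⟨h'.1, h'.2, rfl⟩
    have hd : g * k * g⁻¹ ∈ decomp v := hd'
    have hk : selRem hH x.out ∈ (localComponents p S H).ker := by
      rw [← QuotientAddGroup.out_eq' x] at hx
      exact (QuotientAddGroup.eq_zero_iff _).mp hx
    obtain ⟨B, hBd, hBk, -, hBp⟩ := exists_root_fun _ hk
    let b : GQ → Additive ℚbˣ := fun g => Additive.ofMul (B v g)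
    have hb : ∀ g, p • b g = g • x.out.1.1 - p • evalAt v g x.out.1.2 := fun g =>
      (congrArg Additive.ofMul (hBp v hv g)).trans (evalAt_selRem hH x.out v g)
    set ν := g⁻¹ • (g • z x.out - (b g + evalAt v g x.out.1.2)) with hν
    have hνp : p • ν = 0 := by
      rw [hν, smul_comm p g⁻¹, nsmul_sub, nsmul_add, hb, smul_comm p g, hz, sub_add_cancel, sub_self,
        smul_zero]
    have hνh := hμ' _ hk2 _ hνp
    have e1 : g * k = g * k * g⁻¹ * g := by group
    have hbh : (g * k * g⁻¹) • b g = b g := by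
      refine congrArg Additive.ofMul ?_
      show (g * k * g⁻¹) • B v g = B v g
      rw [← hBd v ⟨_, hd⟩ g]
      show B v (g * k * g⁻¹ * g) = B v g
      rw [← e1, hBk v g _ hk2]
    have heh : (g * k * g⁻¹) • evalAt v g x.out.1.2 = evalAt v g x.out.1.2 := by
      rw [← evalAt_decomp v hd g, ← e1, ← evalAt_lt, x.out.2.2.1 _ hk2]
    have h2 : (g * k * g⁻¹) • (g • ν) = g • ν := by
      rw [← mul_smul, ← e1, mul_smul, hνh]
    rw [hν, smul_inv_smul, smul_sub, smul_add, hbh, heh, sub_left_inj, ← mul_smul, ← e1,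
      mul_smul] at h2
    have h3 : k • z x.out = z x.out := by
      have := congrArg (g⁻¹ • ·) h2
      simpa using this
    exact toMu_injective p (by rw [hχ, h3, sub_self, map_zero])

section Chain

variable (hp2 : p ≠ 2) (hS : (⟨p, Fact.out⟩ : Nat.Primes) ∈ S) (hμ : FixesMu p H) (D : ClassData p)

/-- The map from the fixed classes modulo `p` to the class group modulo `p`. -/
def classModMap : ClassMod p S (show Subgroup (LT S).G from H) →+
    ClMod p S (show Subgroup (LT S).G from H) :=
  QuotientAddGroup.lift _ ((QuotientAddGroup.mk' _).comp (QuotientAddGroup.mk' _)) (by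
    rintro _ ⟨b, rfl⟩
    exact (QuotientAddGroup.eq_zero_iff _).mpr ⟨QuotientAddGroup.mk b, rfl⟩)

include hH hμ hp2 hS in
theorem card_classMod_le :
    Finite (SelQ p S H) ∧ Finite (ClassMod p S (show Subgroup (LT S).G from H)) ∧
      Nat.card (SelQ p S H) = p ^ (∑ v ∈ placesOf S, Nat.card (PlacesAbove v H)) *
        Nat.card (ClMod p S (show Subgroup (LT S).G from H)) ∧
      Nat.card (ClassMod p S (show Subgroup (LT S).G from H)) ≤
        p ^ (∑ v ∈ placesOf S, Nat.card (PlacesAbove v H)) *
          Nat.card (selLam (p := p) hH).ker := by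
  classical
  obtain ⟨N, hN, hle⟩ := id hH
  haveI : H.FiniteIndex := finiteIndex_of_level_le (N := N) hN hle
  haveI := finite_clS (S := S) (show Subgroup (LT S).G from H) hH
  set r := ∑ v ∈ placesOf S, Nat.card (PlacesAbove v H)
  set c := Nat.card (ClMod p S (show Subgroup (LT S).G from H))
  have hc0 : 0 < c := Nat.card_pos
  have hker : Nat.card (nsmulAddMonoidHom (α := ClS S (show Subgroup (LT S).G from H)) p).ker = c := by
    have h1 := AddSubgroup.card_mul_index
      (nsmulAddMonoidHom (α := ClS S (show Subgroup (LT S).G from H)) p).ker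
    have h2 := AddSubgroup.card_mul_index
      (nsmulAddMonoidHom (α := ClS S (show Subgroup (LT S).G from H)) p).range
    rw [AddSubgroup.index_ker, ← h2, mul_comm] at h1
    exact Nat.eq_of_mul_eq_mul_left Nat.card_pos h1
  have hA : Nat.card (SelQ p S H) = p ^ r * c := by rw [card_selQ hH hp2 hμ, hker]
  have hA0 : 0 < p ^ r * c := Nat.mul_pos (pow_pos hp.out.pos r) hc0
  haveI hAfin : Finite (SelQ p S H) := Nat.finite_of_card_ne_zero (by rw [hA]; exact hA0.ne')
  -- the local components
  haveI : ∀ v : placesOf S, Finite (PlacesAbove v.1 H) := fun v => finite_placesAbove v.1 H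
  haveI : ∀ (v : placesOf S) (w : PlacesAbove v.1 H), Finite (placeUnitsMod p v.1 H w) :=
    fun v w => Nat.finite_of_card_ne_zero (by
      rw [card_placeUnitsMod hp2 (N := N) hN hle hμ]
      exact pow_ne_zero _ hp.out.ne_zero)
  haveI := fun v : placesOf S => Fintype.ofFinite (PlacesAbove v.1 H)
  have hcard : Nat.card (Additive (∀ v : placesOf S, ∀ w : PlacesAbove v.1 H, placeUnitsMod p v.1 H w)) =
      p ^ (2 * r) := by
    rw [Nat.card_congr Additive.toMul, Nat.card_pi, ← sum_placeExp hp2 hS hμ,
      ← Finset.prod_pow_eq_pow_sum,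
      ← Finset.prod_coe_sort (placesOf S) fun v => p ^ ∑ᶠ w : PlacesAbove v H, placeExp p v H w]
    refine Finset.prod_congr rfl fun v _ => ?_
    rw [Nat.card_pi, finsum_eq_sum_of_fintype, ← Finset.prod_pow_eq_pow_sum]
    exact Finset.prod_congr rfl fun w _ => card_placeUnitsMod hp2 (N := N) hN hle hμ v.1 w
  haveI : Finite (Additive (∀ v : placesOf S, ∀ w : PlacesAbove v.1 H, placeUnitsMod p v.1 H w)) :=
    Finite.of_equiv _ Additive.ofMul
  obtain ⟨hWfin, hW⟩ := finite_quotient_ker (A := unitIdeles S H)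
    (B := Additive (∀ v : placesOf S, ∀ w : PlacesAbove v.1 H, placeUnitsMod p v.1 H w))
    (localComponents p S H)
  haveI := hWfin
  -- the map to the classes
  let toC : unitIdeles S H →+ fixPts (ClassT S) (show Subgroup (LT S).G from H) :=
    { toFun := fun f => fixCls f.1 f.2.1
      map_zero' := Subtype.ext (map_zero _)
      map_add' := fun _ _ => Subtype.ext (map_add _ _ _) }
  let Ψ : unitIdeles S H ⧸ (localComponents p S H).ker →+
      ClassMod p S (show Subgroup (LT S).G from H) :=
    QuotientAddGroup.lift _ ((QuotientAddGroup.mk' _).comp toC) fun f hf => by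
      obtain ⟨y, hy, e⟩ := exists_root_class (N := N) hN hle f hf
      exact (QuotientAddGroup.eq_zero_iff _).mpr ⟨toC ⟨y, hy⟩, Subtype.ext e⟩
  have hlamle : (selLam (p := p) hH).range ≤ Ψ.ker := by
    rintro _ ⟨x, rfl⟩
    obtain ⟨a, rfl⟩ := QuotientAddGroup.mk'_surjective _ x
    refine (QuotientAddGroup.eq_zero_iff _).mpr ⟨-selFix a, Subtype.ext ?_⟩
    show p • -classHom S a.1.2 = classHom S (selRem hH a).1
    rw [classHom_selRem, neg_nsmul]
  have hπsurj : Function.Surjective (classModMap (p := p) (S := S) (H := H)) := fun x => by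
    obtain ⟨d, rfl⟩ := QuotientAddGroup.mk'_surjective _ x
    obtain ⟨e, rfl⟩ := QuotientAddGroup.mk'_surjective _ d
    exact ⟨QuotientAddGroup.mk e, rfl⟩
  have hπker : (classModMap (p := p) (S := S) (H := H)).ker ≤ Ψ.range := by
    intro x hx
    obtain ⟨d, rfl⟩ := QuotientAddGroup.mk'_surjective _ x
    obtain ⟨e, he⟩ := (QuotientAddGroup.eq_zero_iff _).mp hx
    obtain ⟨e, rfl⟩ := QuotientAddGroup.mk'_surjective _ e
    obtain ⟨u, hu⟩ := AddSubgroup.mem_addSubgroupOf.mp
      ((QuotientAddGroup.eq_iff_sub_mem).mp (show (QuotientAddGroup.mk d : ClS S _) =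
        QuotientAddGroup.mk (p • e) from he.symm))
    change classHom S u.1 = d.1 - p • e.1 at hu
    refine ⟨QuotientAddGroup.mk u, (QuotientAddGroup.eq_iff_sub_mem).mpr ⟨-e, Subtype.ext ?_⟩⟩
    show p • -e.1 = classHom S u.1 - d.1
    rw [hu, neg_nsmul]
    abel
  haveI : Finite (Ψ.range) := Finite.of_surjective _ Ψ.rangeRestrict_surjective
  haveI : Finite (classModMap (p := p) (S := S) (H := H)).ker :=
    Finite.of_injective _ (AddSubgroup.inclusion_injective hπker)
  have hC : Nat.card (ClassMod p S (show Subgroup (LT S).G from H)) ≤ Nat.card Ψ.range * c := by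
    rw [← AddSubgroup.card_mul_index (classModMap (p := p) (S := S) (H := H)).ker,
      AddSubgroup.index_ker, AddMonoidHom.range_eq_top.mpr hπsurj, AddSubgroup.card_top]
    exact Nat.mul_le_mul_right _ (AddSubgroup.card_le_of_le hπker)
  have hCfin : Finite (ClassMod p S (show Subgroup (LT S).G from H)) := by
    haveI : Finite (ClassMod p S (show Subgroup (LT S).G from H) ⧸
        (classModMap (p := p) (S := S) (H := H)).ker) :=
      Finite.of_injective _ (QuotientAddGroup.kerLift_injective _)
    exact Finite.of_addSubgroup_quotient (classModMap (p := p) (S := S) (H := H)).ker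
  have hΨ : Nat.card Ψ.range * Nat.card (selLam (p := p) hH).range ≤ p ^ (2 * r) := by
    refine le_trans ?_ (hW.trans hcard.le)
    rw [← AddSubgroup.index_ker, mul_comm, ← AddSubgroup.card_mul_index Ψ.ker]
    exact Nat.mul_le_mul_right _ (AddSubgroup.card_le_of_le hlamle)
  have hlam : Nat.card (selLam (p := p) hH).ker * Nat.card (selLam (p := p) hH).range = p ^ r * c := by
    rw [← hA, ← AddSubgroup.index_ker, AddSubgroup.card_mul_index]
  refine ⟨hAfin, hCfin, hA, Nat.le_of_mul_le_mul_right ?_ hA0⟩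
  calc Nat.card (ClassMod p S (show Subgroup (LT S).G from H)) * (p ^ r * c)
      ≤ Nat.card Ψ.range * c * (Nat.card (selLam (p := p) hH).ker *
          Nat.card (selLam (p := p) hH).range) := by
        rw [hlam]
        exact Nat.mul_le_mul_right _ hC
    _ = (Nat.card Ψ.range * Nat.card (selLam (p := p) hH).range) *
          (c * Nat.card (selLam (p := p) hH).ker) := by ring
    _ ≤ p ^ (2 * r) * (c * Nat.card (selLam (p := p) hH).ker) := Nat.mul_le_mul_right _ hΨ
    _ = _ := by rw [two_mul, pow_add]; ring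

/-- The pairing of a character with a fixed class. -/
def charClass :
    letI := trivAction ((LT S).sub (show Subgroup (LT S).G from H)).G (ZMod p)
    ((LT S).sub (show Subgroup (LT S).G from H)).Z1 (ZMod p) →+
      fixPts (ClassT S) (show Subgroup (LT S).G from H) →+ AddCircle (1 : ℚ) :=
  letI := trivAction ((LT S).sub (show Subgroup (LT S).G from H)).G (ZMod p)
  let K := (LT S).sub (show Subgroup (LT S).G from H)
  have htriv : ∀ (g : K.G) (m : ZMod p), g • m = m := fun _ _ => rfl
  let hM : K.Smooth (ZMod p) := fun m =>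
    ⟨_, ⟨_, (LT S).exists_level.choose_spec, rfl⟩, fun _ _ => rfl⟩
  let ext : fixPts (ClassT S) (show Subgroup (LT S).G from H) →+ K.SymZ (ZMod p) (ClassT S) :=
    AddMonoidHom.mk' (fun a => ⟨carryExt a.1, carryExt_mem htriv fun g => a.2 _ g.2⟩)
      fun a a' => Subtype.ext (funext fun u => funext fun v => smul_add _ a.1 a'.1)
  { toFun := fun x => (((D.glob S hS).sub _ hH).pairHom hM x).comp ext
    map_zero' := by rw [map_zero, AddMonoidHom.zero_comp]
    map_add' := fun x y => by rw [map_add, AddMonoidHom.add_comp] }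

include hp2 hμ in
theorem charClass_injective :
    letI := trivAction ((LT S).sub (show Subgroup (LT S).G from H)).G (ZMod p)
    Function.Injective (charClass hH hS D) := by
  letI := trivAction ((LT S).sub (show Subgroup (LT S).G from H)).G (ZMod p)
  refine (injective_iff_map_eq_zero _).mpr fun x hx => ?_
  have htriv : ∀ (g : ((LT S).sub (show Subgroup (LT S).G from H)).G) (m : ZMod p), g • m = m :=
    fun _ _ => rfl
  have hM : ((LT S).sub (show Subgroup (LT S).G from H)).Smooth (ZMod p) := fun m =>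
    ⟨_, ⟨_, (LT S).exists_level.choose_spec, rfl⟩, fun _ _ => rfl⟩
  refine Subtype.ext ((D.glob S hS).left_triv hH htriv (exists_not_norm_class hp2 hμ) hM x fun κ => ?_)
  obtain ⟨a, ha, hsub⟩ := exists_carryExt_sub htriv κ.2
  let κ₀ : ((LT S).sub (show Subgroup (LT S).G from H)).SymZ (ZMod p) (ClassT S) :=
    ⟨carryExt a, carryExt_mem htriv ha⟩
  have h0 : ((D.glob S hS).sub _ hH).pairHom hM x κ₀ = 0 :=
    DFunLike.congr_fun hx ⟨a, fun h hh => ha ⟨h, hh⟩⟩
  have h1 : ((D.glob S hS).sub _ hH).pairHom hM x (κ - κ₀) = 0 :=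
    ((D.glob S hS).sub _ hH).pairHom_symB hM x (κ - κ₀) hsub
  rw [map_sub, h0, sub_zero] at h1
  exact h1

theorem charClass_fixPow :
    letI := trivAction ((LT S).sub (show Subgroup (LT S).G from H)).G (ZMod p)
    ∀ x, fixPow (LT S) (ClassT S) p (show Subgroup (LT S).G from H) ≤ (charClass hH hS D x).ker := by
  letI := trivAction ((LT S).sub (show Subgroup (LT S).G from H)).G (ZMod p)
  rintro x _ ⟨b, rfl⟩
  exact ((D.glob S hS).sub _ hH).pairHom_symB _ x _
    (carryExt_nsmul_mem_symB (fun _ _ => rfl) fun g => b.2 _ g.2)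

theorem charClass_locClasses :
    letI := trivAction ((LT S).sub (show Subgroup (LT S).G from H)).G (ZMod p)
    ∀ x ∈ locTrivZ1 p S (show Subgroup (LT S).G from H),
      locClasses S (show Subgroup (LT S).G from H) ≤ (charClass hH hS D x).ker := by
  letI := trivAction ((LT S).sub (show Subgroup (LT S).G from H)).G (ZMod p)
  intro x hx a ha
  obtain ⟨u, hu⟩ := AddSubgroup.mem_addSubgroupOf.mp ha
  change classHom S u.1 = a.1 at hu
  obtain ⟨⟨_, ⟨N₁, hN₁, rfl⟩, hxN⟩, hxc⟩ := id x.2
  obtain ⟨N₂, hN₂, hle₂⟩ := id hH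
  have hN : (LT S).IsLevel (N₁ ⊓ N₂) := (LT S).inf _ _ hN₁ hN₂
  have hadd : ∀ b c : H, (show H → ZMod p from x.1) (b * c) = (show H → ZMod p from x.1) b + (show H → ZMod p from x.1) c :=
    fun b c => hxc b c
  have hone : (show H → ZMod p from x.1) 1 = 0 := by simpa using hadd 1 1
  have hb := isB2_carry_unitIdele (N := N₁ ⊓ N₂) (m := p) hH hN (inf_le_right.trans hle₂)
    (show H → ZMod p from x.1) hadd (fun s hs => by
      have h1 := hxN 1 s hs.1
      rw [one_mul] at h1
      exact h1.trans hone)
    (fun v hv g h hd => hx v hv g h hd) u.2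
  obtain ⟨b, ⟨M, hM, hbM⟩, hbd⟩ := hb
  refine ((D.glob S hS).sub _ hH).inv_d₁ _ ⟨fun g => classHom S (b g),
    ⟨M, hM, fun g s hs => congrArg (classHom S) (hbM g s hs)⟩, funext fun y => ?_⟩
  show _ = ((((show H → ZMod p from x.1) y.1).val +
    ((show H → ZMod p from x.1) y.2).val) / p : ℕ) • a.1
  have h1 := congrArg (classHom S) (congrFun hbd y)
  rw [← hu, ← map_nsmul]
  refine Eq.trans ?_ h1
  rw [d₁_apply, d₁_apply, map_add, map_sub]
  exact congrArg (fun t => t - classHom S (b (y.1 * y.2)) + classHom S (b y.1))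
    (classHom_smul _ _).symm

include hH hp2 hS hμ D in
/-- Everything in the chain is an equality. -/
theorem count_chain :
    letI := trivAction ((LT S).sub (show Subgroup (LT S).G from H)).G (ZMod p)
    Finite (((LT S).sub (show Subgroup (LT S).G from H)).Z1 (ZMod p)) ∧
      Finite (ClassMod p S (show Subgroup (LT S).G from H)) ∧
      Nat.card (ClassMod p S (show Subgroup (LT S).G from H)) ≤
        Nat.card (((LT S).sub (show Subgroup (LT S).G from H)).Z1 (ZMod p)) ∧
      ∀ a : fixPts (ClassT S) (show Subgroup (LT S).G from H),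
        (∀ x ∈ locTrivZ1 p S (show Subgroup (LT S).G from H), charClass hH hS D x a = 0) →
        ∃ b, a - p • b ∈ locClasses S (show Subgroup (LT S).G from H) := by
  letI := trivAction ((LT S).sub (show Subgroup (LT S).G from H)).G (ZMod p)
  obtain ⟨hAfin, hCfin, hA, hCle⟩ := card_classMod_le hH hp2 hS hμ
  haveI := hAfin
  haveI := hCfin
  haveI := finite_clS (S := S) (show Subgroup (LT S).G from H) hH
  set r := ∑ v ∈ placesOf S, Nat.card (PlacesAbove v H)
  set c := Nat.card (ClMod p S (show Subgroup (LT S).G from H))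
  -- characters inject into the characters of the classes modulo `p`
  let β : ((LT S).sub (show Subgroup (LT S).G from H)).Z1 (ZMod p) →
      (ClassMod p S (show Subgroup (LT S).G from H) →+ AddCircle (1 : ℚ)) := fun x =>
    QuotientAddGroup.lift _ (charClass hH hS D x) (charClass_fixPow hH hS D x)
  have hpC : ∀ v : ClassMod p S (show Subgroup (LT S).G from H), p • v = 0 := fun v => by
    obtain ⟨v, rfl⟩ := QuotientAddGroup.mk'_surjective _ v
    exact (QuotientAddGroup.eq_zero_iff (p • v)).mpr ⟨v, rfl⟩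
  obtain ⟨hchf, hchc⟩ := finite_card_character (p := p) hpC
  haveI := hchf
  have hβ : Function.Injective β := fun x y h => charClass_injective hH hp2 hS hμ D
    (AddMonoidHom.ext fun a => DFunLike.congr_fun h (QuotientAddGroup.mk a))
  haveI hZ : Finite (((LT S).sub (show Subgroup (LT S).G from H)).Z1 (ZMod p)) :=
    Finite.of_injective β hβ
  have h1 := (Nat.card_le_card_of_injective β hβ).trans hchc
  obtain ⟨κ, hκ, hκloc⟩ := exists_selKummer hH hS hμ
  have h2 := Nat.card_le_card_of_injective κ hκ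
  have h3 : Nat.card (selLam (p := p) hH).ker ≤
      Nat.card (locTrivZ1 p S (show Subgroup (LT S).G from H)) :=
    Nat.card_le_card_of_injective (fun x => ⟨κ x.1, hκloc x.1 x.2⟩)
      fun x y h => Subtype.ext (hκ (congrArg Subtype.val h))
  -- the locally trivial characters are characters of the class group modulo `p`
  let γ : locTrivZ1 p S (show Subgroup (LT S).G from H) →
      (ClMod p S (show Subgroup (LT S).G from H) →+ AddCircle (1 : ℚ)) := fun x =>
    QuotientAddGroup.lift _ (QuotientAddGroup.lift _ (charClass hH hS D x.1)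
      (charClass_locClasses hH hS D x.1 x.2)) (by
        rintro _ ⟨d, rfl⟩
        obtain ⟨d, rfl⟩ := QuotientAddGroup.mk'_surjective _ d
        exact charClass_fixPow hH hS D x.1 ⟨d, rfl⟩)
  have hpCl : ∀ v : ClMod p S (show Subgroup (LT S).G from H), p • v = 0 := fun v => by
    obtain ⟨v, rfl⟩ := QuotientAddGroup.mk'_surjective _ v
    exact (QuotientAddGroup.eq_zero_iff (p • v)).mpr ⟨v, rfl⟩
  obtain ⟨hchf', hchc'⟩ := finite_card_character (p := p) (V := ClMod p S (show Subgroup (LT S).G from H)) hpCl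
  haveI := hchf'
  have hγ : Function.Injective γ := fun x y h => Subtype.ext (charClass_injective hH hp2 hS hμ D
    (AddMonoidHom.ext fun a =>
      DFunLike.congr_fun h (QuotientAddGroup.mk (QuotientAddGroup.mk a))))
  have h4 := (Nat.card_le_card_of_injective γ hγ).trans hchc'
  have hXc : c ≤ Nat.card (locTrivZ1 p S (show Subgroup (LT S).G from H)) := by
    have h5 := (hA ▸ h2).trans (h1.trans (hCle.trans (Nat.mul_le_mul_left _ h3)))
    exact Nat.le_of_mul_le_mul_left h5 (pow_pos hp.out.pos r)
  refine ⟨hZ, hCfin, (hCle.trans (Nat.mul_le_mul_left _ (h3.trans h4))).trans (hA ▸ h2),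
    fun a ha => ?_⟩
  have hbij : Function.Bijective γ :=
    (Nat.bijective_iff_injective_and_card γ).mpr ⟨hγ,
      (Nat.card_le_card_of_injective γ hγ).antisymm (hchc'.trans hXc)⟩
  have ha0 : (QuotientAddGroup.mk (QuotientAddGroup.mk a) :
      ClMod p S (show Subgroup (LT S).G from H)) = 0 := by
    by_contra hne
    obtain ⟨φ, hφ⟩ := CharacterModule.exists_character_apply_ne_zero_of_ne_zero hne
    obtain ⟨x, hx⟩ := hbij.2 φ
    exact hφ ((DFunLike.congr_fun hx _).symm.trans (ha x.1 x.2))
  obtain ⟨b, hb⟩ := (QuotientAddGroup.eq_zero_iff _).mp ha0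
  obtain ⟨b, rfl⟩ := QuotientAddGroup.mk'_surjective _ b
  exact ⟨b, (QuotientAddGroup.eq_iff_sub_mem).mp (show (QuotientAddGroup.mk a : ClS S _) =
    QuotientAddGroup.mk (p • b) from hb.symm)⟩

end Chain

end Fermat.Agent.GD
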